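import Fermat.Agent.CarayolFF.BaseReduction
import Fermat.Agent.CarayolFF.Descend
import Fermat.Agent.Specialization.Series
import Fermat.Agent.GaloisBasics.Galois

/-!
# Frobenius on the reduction of the model of level `N`

A decomposition element inducing Frobenius on the residue field acts on coefficients of the model;
hence `t ↦ t ^ q` preserves the reduction and its image contains all `q`-th powers.
-/

set_option autoImplicit false

noncomputable section

open ModularCurve Fermat.Agent.CarayolFF Fermat.Agent.KummerReduction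
open Fermat.Agent.GaloisBasics (Qbar GalQ)

namespace Fermat.Agent.Carayol

variable {A : ValuationSubring Qbar} {q N : ℕ} [NeZero N]

/-- Conjugation by the decomposition group preserves inertia. -/
theorem conj_mem_inertia {σ τ : GalQ} (hσ : σ ∈ A.decompositionSubgroup ℚ)
    (hτ : τ ∈ A.inertiaSubgroupIn ℚ) : σ * τ * σ⁻¹ ∈ A.inertiaSubgroupIn ℚ := by
  obtain ⟨hτ', h⟩ := GaloisBasics.mem_inertiaSubgroupIn_iff_smul.mp hτ
  refine GaloisBasics.mem_inertiaSubgroupIn_iff_smul.mpr
    ⟨mul_mem (mul_mem hσ hτ') (inv_mem hσ), fun y => ?_⟩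
  rw [show (⟨σ * τ * σ⁻¹, mul_mem (mul_mem hσ hτ') (inv_mem hσ)⟩ : A.decompositionSubgroup ℚ) =
    ⟨σ, hσ⟩ * ⟨τ, hτ'⟩ * ⟨σ, hσ⟩⁻¹ from rfl, mul_smul, mul_smul, h, smul_inv_smul]

/-- The decomposition group preserves `W`. -/
theorem apply_mem_unramInt {σ : GalQ} (hσ : σ ∈ A.decompositionSubgroup ℚ) {c : Qbar}
    (hc : c ∈ unramInt A) : σ c ∈ unramInt A := by
  obtain ⟨hcA, hcI⟩ := mem_unramInt_iff.mp hc
  refine mem_unramInt_iff.mpr ⟨(GaloisBasics.apply_mem_iff hσ c).mpr hcA, fun τ hτ => ?_⟩
  have h := conj_mem_inertia (inv_mem hσ) hτ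
  rw [inv_inv] at h
  have h' := congrArg σ (hcI _ h)
  rw [AlgEquiv.mul_apply, AlgEquiv.mul_apply, ← AlgEquiv.mul_apply σ σ⁻¹, mul_inv_cancel,
    AlgEquiv.one_apply] at h'
  exact h'

/-- The decomposition group preserves the inertia field. -/
theorem apply_mem_inertiaField {σ : GalQ} (hσ : σ ∈ A.decompositionSubgroup ℚ) {c : Qbar}
    (hc : c ∈ inertiaField A) : σ c ∈ inertiaField A := by
  refine Local.mem_inertiaField_iff.mpr fun τ hτ => ?_
  have h := conj_mem_inertia (inv_mem hσ) hτ
  rw [inv_inv] at h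
  have h' := congrArg σ (Local.mem_inertiaField_iff.mp hc _ h)
  rw [AlgEquiv.mul_apply, AlgEquiv.mul_apply, ← AlgEquiv.mul_apply σ σ⁻¹, mul_inv_cancel,
    AlgEquiv.one_apply] at h'
  exact h'

/-- The decomposition group preserves the model, acting on coefficients. -/
theorem arithmetic_mem_model {σ : GalQ} (hσ : σ ∈ A.decompositionSubgroup ℚ)
    {x : modularFunctionFieldBar N} (hx : x ∈ model A N) :
    arithmeticRingAut (modularFunctionFieldFull N) σ x ∈ model A N := by
  obtain ⟨hxl, hint⟩ := (mem_model_iff A N).mp hx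
  refine (mem_model_iff A N).mpr ⟨mem_levelField_of_coeff _ (SetLike.coe_mem _) fun n => ?_, ?_⟩
  · rw [coe_arithmeticRingAut_apply, coeffMap_coeff]
    exact apply_mem_inertiaField hσ (coeff_mem_of_mem_levelField hxl n)
  set φ := coeffMap (σ : Qbar →+* Qbar)
  have hmem : ∀ z ∈ jPolyRing (unramInt A), φ z ∈ jPolyRing (unramInt A) := by
    intro z hz
    have hle : jPolyRing (unramInt A) ≤ (jPolyRing (unramInt A)).comap φ := by
      refine Subring.closure_le.mpr ?_
      rintro _ (⟨c, hc, rfl⟩ | rfl)
      · show φ (algebraMap Qbar (LaurentSeries Qbar) c) ∈ jPolyRing (unramInt A)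
        rw [coeffMap_algebraMap]
        exact Subring.subset_closure (Or.inl ⟨σ c, apply_mem_unramInt hσ hc, rfl⟩)
      · show φ jBar ∈ jPolyRing (unramInt A)
        rw [jBar, coeffMap_coeffEmb]
        exact Subring.subset_closure (Or.inr rfl)
    exact hle hz
  obtain ⟨P, hP, hPx⟩ := hint
  let φ₀ : jPolyRing (unramInt A) →+* jPolyRing (unramInt A) :=
    (φ.comp (jPolyRing (unramInt A)).subtype).codRestrict _ fun z => hmem z z.2
  refine ⟨P.map φ₀, hP.map _, ?_⟩
  rw [Polynomial.eval₂_map, coe_arithmeticRingAut_apply]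
  have h := congrArg φ hPx
  rw [map_zero, Polynomial.hom_eval₂] at h
  exact h

/-- Frobenius on the reduction: the reduction of the conjugate is the coefficientwise Frobenius. -/
theorem exists_redModel_frobenius (hA : A.LiesOverPrime q) (hq : q.Prime) [NeZero q] {σ : GalQ}
    (hσ : A.IsFrobeniusAt σ q) (x : model A N) :
    (redModel hA hq x : LaurentSeries (IsLocalRing.ResidueField A)) ^ q =
      frobSeries A q (redModel hA hq
        ⟨_, arithmetic_mem_model hσ.mem_decompositionSubgroup x.2⟩ :
          LaurentSeries (IsLocalRing.ResidueField A)) := by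
  have := GaloisBasics.residueField_charP hA hq
  have : ExpChar (IsLocalRing.ResidueField A) q := .prime hq
  rw [Specialization.pow_char_eq_qExpand q, frobSeries]
  congr 1
  ext n
  rw [coeffMap_coeff, coe_redModel, coe_redModel, (resData A).redSeries_coeff,
    (resData A).redSeries_coeff, frobenius_def]
  refine ((hσ.smul_residue_eq _).symm).trans ?_
  exact congrArg (IsLocalRing.residue A) (Subtype.ext rfl)

/-- The image of the Frobenius substitution contains the `q`-th powers. -/
theorem frob_pow_redBase (hA : A.LiesOverPrime q) (hq : q.Prime) [NeZero q]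
    {y : LaurentSeries (IsLocalRing.ResidueField A)} (hy : y ∈ redBase A N) :
    ∃ x ∈ redBase A N, frobSeries A q x = y ^ q := by
  obtain ⟨σ, hσ⟩ := GaloisBasics.exists_isFrobeniusAt hA hq
  obtain ⟨x, hx⟩ := redModel_surjective hA hq (⟨y, hy⟩ : redBase A N)
  refine ⟨_, (redModel hA hq ⟨_, arithmetic_mem_model hσ.mem_decompositionSubgroup x.2⟩).2, ?_⟩
  rw [← exists_redModel_frobenius hA hq hσ x, hx]

/-- The Frobenius substitution preserves the reduction. -/
theorem frob_mem_redBase (hA : A.LiesOverPrime q) (hq : q.Prime) [NeZero q]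
    {y : LaurentSeries (IsLocalRing.ResidueField A)} (hy : y ∈ redBase A N) :
    frobSeries A q y ∈ redBase A N := by
  obtain ⟨σ, hσ⟩ := GaloisBasics.exists_isFrobeniusAt hA hq
  obtain ⟨x, hx⟩ := redModel_surjective hA hq (⟨y, hy⟩ : redBase A N)
  let x' : model A N :=
    ⟨_, arithmetic_mem_model (inv_mem hσ.mem_decompositionSubgroup) x.2⟩
  have hxx : (⟨_, arithmetic_mem_model hσ.mem_decompositionSubgroup x'.2⟩ : model A N) = x := by
    refine Subtype.ext (Subtype.ext ?_)
    rw [coe_arithmeticRingAut_apply, coe_arithmeticRingAut_apply]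
    ext n
    rw [coeffMap_coeff, coeffMap_coeff]
    exact σ.apply_symm_apply _
  have h := exists_redModel_frobenius hA hq hσ x'
  rw [hxx, hx] at h
  rw [← h]
  exact pow_mem (redModel hA hq x').2 q

/-- An element with rational expansion reduces to a series fixed by Frobenius. -/
theorem frob_eq_pow_of_rat (hA : A.LiesOverPrime q) (hq : q.Prime) [NeZero q] (h : model A N)
    (hh : ∀ (σ : GalQ) (n : ℤ), σ (((h : modularFunctionFieldBar N) : LaurentSeries Qbar).coeff n) =
      ((h : modularFunctionFieldBar N) : LaurentSeries Qbar).coeff n) :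
    frobSeries A q (redModel hA hq h : LaurentSeries (IsLocalRing.ResidueField A)) =
      (redModel hA hq h : LaurentSeries (IsLocalRing.ResidueField A)) ^ q := by
  obtain ⟨σ, hσ⟩ := GaloisBasics.exists_isFrobeniusAt hA hq
  have hfix : (⟨_, arithmetic_mem_model hσ.mem_decompositionSubgroup h.2⟩ : model A N) = h := by
    refine Subtype.ext (Subtype.ext ?_)
    rw [coe_arithmeticRingAut_apply]
    ext n
    rw [coeffMap_coeff]
    exact hh σ n
  rw [exists_redModel_frobenius hA hq hσ h, hfix]

/-- An element with integral expansion reduces to a series fixed by Frobenius. -/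
theorem frob_eq_pow_of_int (hA : A.LiesOverPrime q) (hq : q.Prime) [NeZero q] (h : model A N)
    (hh : ∀ n : ℤ, ∃ a : ℤ, ((h : modularFunctionFieldBar N) : LaurentSeries Qbar).coeff n = a) :
    frobSeries A q (redModel hA hq h : LaurentSeries (IsLocalRing.ResidueField A)) =
      (redModel hA hq h : LaurentSeries (IsLocalRing.ResidueField A)) ^ q :=
  frob_eq_pow_of_rat hA hq h fun σ n => by
    obtain ⟨a, ha⟩ := hh n
    rw [ha, map_intCast]

end Fermat.Agent.Carayol
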