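import Fermat.Agent.Carayol.BaseFrob
import Fermat.Agent.Hauptmodul.BaseHauptmodul

/-!
# The Hauptmodul reduces to a series fixed by Frobenius
-/

set_option autoImplicit false

noncomputable section

open ModularCurve Fermat.Agent.CarayolFF Fermat.Agent.Hauptmodul
open Fermat.Agent.GaloisBasics (Qbar)

namespace Fermat.Agent.Carayol

variable {A : ValuationSubring Qbar} {q M N' : ℕ} [NeZero M] [NeZero N'] [NeZero q]

/-- The Hauptmodul reduces to a series fixed by Frobenius. -/
theorem frob_hElem (H : BaseHyp q A M N') :
    frobSeries A q (redModel H.liesOver H.prime (hElem H) :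
        LaurentSeries (IsLocalRing.ResidueField A)) =
      (redModel H.liesOver H.prime (hElem H) :
        LaurentSeries (IsLocalRing.ResidueField A)) ^ q :=
  frob_eq_pow_of_int H.liesOver H.prime (hElem H) fun n => by
    refine ⟨(uC ℤ (M * M)).coeff n, ?_⟩
    rw [coe_hElem, ← coeffMap_uC (Int.castRingHom Qbar), coeffMap_coeff]
    rfl

end Fermat.Agent.Carayol
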