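import Fermat.Agent.Carayol.Instance
import Fermat.Agent.Carayol.BaseFrob
import Fermat.Agent.Carayol.BaseFrobH
import Fermat.Agent.Hauptmodul.BaseLocal

/-!
# The base data with coordinate `h`

The reduction of the model of level `N` with the Hauptmodul `h` as coordinate.
-/

set_option autoImplicit false

noncomputable section

open ModularCurve
open Fermat.Agent.CarayolFF

namespace Fermat.Agent.Carayol

local notation "Qb" => AlgebraicClosure ℚ

variable {A : ValuationSubring Qb} {q M N' : ℕ} [NeZero q] [NeZero M] [NeZero N']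

/-- The data of the base level `M N'` with coordinate the Hauptmodul `h`. -/
def baseDataH (H : Hauptmodul.BaseHyp q A M N') :
    BaseData A q (M * N') H.liesOver H.prime where
  h := Hauptmodul.hElem H
  frob_mem _ hy := frob_mem_redBase H.liesOver H.prime hy
  frob_pow _ hy := frob_pow_redBase H.liesOver H.prime hy
  frob_h := frob_hElem H
  h_ne_const a e :=
    Hauptmodul.redModel_hElem_ne H _ ((congrArg Subtype.val e).trans (coe_algebraMap_redBase a))
  unramified P hP a ha x hx :=
    Hauptmodul.unramified_hElem H P hP (algebraMap (unramInt A) (model A (M * N')) a) a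
      (coe_algebraMap_model a) ha x hx

omit [NeZero q] in
/-- A rigidified level is a Hauptmodul level. -/
theorem exists_baseHyp {N : ℕ} [NeZero N] (hA : A.LiesOverPrime q) (hq : q.Prime) (hqN : ¬ q ∣ N)
    (h4 : q = 2 ∧ 9 ∣ N ∨ q ≠ 2 ∧ 4 ∣ N) :
    ∃ (M N' : ℕ) (_ : NeZero M) (_ : NeZero N'), N = M * N' ∧ Hauptmodul.BaseHyp q A M N' := by
  rcases h4 with ⟨-, d, rfl⟩ | ⟨-, d, rfl⟩
  · have hd : d ≠ 0 := right_ne_zero_of_mul (NeZero.ne (9 * d))
    exact ⟨3, 3 * d, ⟨by norm_num⟩, ⟨by omega⟩, by ring,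
      ⟨Or.inr rfl, dvd_mul_right 3 d, hA, hq, by rwa [← mul_assoc]⟩⟩
  · have hd : d ≠ 0 := right_ne_zero_of_mul (NeZero.ne (4 * d))
    exact ⟨2, 2 * d, ⟨by norm_num⟩, ⟨by omega⟩, by ring,
      ⟨Or.inl rfl, dvd_mul_right 2 d, hA, hq, by rwa [← mul_assoc]⟩⟩

end Fermat.Agent.Carayol
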