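import Fermat.Agent.Carayol.Local.Inertia
import Mathlib.RingTheory.DedekindDomain.Dvr
import Mathlib.RingTheory.DiscreteValuationRing.TFAE
import Mathlib.RingTheory.Jacobson.Ring
import Mathlib.RingTheory.LocalRing.ResidueField.Basic
import Mathlib.RingTheory.FiniteType

/-!
# The base level: a domain unramified over the affine line is a Dedekind domain

`Rb` is a domain of finite type over the residue field of a local ring `W`, unramified over the
line with coordinate `r0 h` in the shape of the field `unramified` of `Conn.ThreeSheet`.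
-/

set_option autoImplicit false

noncomputable section

namespace Fermat.Agent.Carayol.BaseGeneric

open IsLocalRing

section generic

variable {W R Rb : Type*} [CommRing W] [IsLocalRing W] [CommRing R] [Algebra W R] [CommRing Rb]
  [Algebra W Rb] {q : ℕ} (hW : maximalIdeal W = Ideal.span {(q : W)}) (hq : (q : Rb) = 0)
  (r0 : R →ₐ[W] Rb) (hsurj : Function.Surjective r0)

include hW hq in
theorem algebraMap_eq_zero_of_mem {w : W} (hw : w ∈ maximalIdeal W) :
    algebraMap W Rb w = 0 := by
  rw [hW, Ideal.mem_span_singleton] at hw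
  obtain ⟨c, rfl⟩ := hw
  rw [map_mul, map_natCast, hq, zero_mul]

/-- `Rb` as an algebra over the residue field of `W`. -/
@[instance_reducible]
def residueAlgebra : Algebra (ResidueField W) Rb :=
  (Ideal.Quotient.lift (maximalIdeal W) (algebraMap W Rb)
    fun _ hw => algebraMap_eq_zero_of_mem hW hq hw).toAlgebra

variable [Algebra.FiniteType W R]

include hW hq hsurj in
/-- The reduced base is a finitely generated algebra over the residue field of `W`. -/
theorem exists_residueAlgebra :
    ∃ _ : Algebra (ResidueField W) Rb, IsScalarTower W (ResidueField W) Rb ∧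
      Algebra.FiniteType (ResidueField W) Rb := by
  let := residueAlgebra (Rb := Rb) hW hq
  have : IsScalarTower W (ResidueField W) Rb := IsScalarTower.of_algebraMap_eq fun _ => rfl
  have : Algebra.FiniteType W Rb := Algebra.FiniteType.of_surjective r0 hsurj
  exact ⟨residueAlgebra hW hq, inferInstance, Algebra.FiniteType.of_restrictScalars_finiteType W _ _⟩

include hW hq hsurj in
theorem isNoetherianRing_base : IsNoetherianRing Rb := by
  obtain ⟨_, _, _⟩ := exists_residueAlgebra hW hq r0 hsurj
  exact Algebra.FiniteType.isNoetherianRing (ResidueField W) Rb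

variable [IsAlgClosed (ResidueField W)]

include hW hq hsurj in
/-- Closed points are rational. -/
theorem point_const (P : Ideal Rb) (hP : P.IsMaximal) (x : Rb) :
    ∃ c : W, x - algebraMap W Rb c ∈ P := by
  obtain ⟨_, _, _⟩ := exists_residueAlgebra hW hq r0 hsurj
  let := Ideal.Quotient.field P
  have : Algebra.FiniteType (ResidueField W) (Rb ⧸ P) :=
    .of_surjective (Ideal.Quotient.mkₐ (ResidueField W) P) Ideal.Quotient.mk_surjective
  have : Module.Finite (ResidueField W) (Rb ⧸ P) :=
    finite_of_finite_type_of_isJacobsonRing (ResidueField W) (Rb ⧸ P)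
  have : Algebra.IsIntegral (ResidueField W) (Rb ⧸ P) := .of_finite _ _
  obtain ⟨k, hk⟩ := (IsAlgClosed.algebraMap_bijective_of_isIntegral (k := ResidueField W)
    (K := Rb ⧸ P)).2 (Ideal.Quotient.mk P x)
  obtain ⟨c, rfl⟩ := Ideal.Quotient.mk_surjective k
  refine ⟨c, Ideal.Quotient.eq.mp ?_⟩
  rw [← hk, show algebraMap (ResidueField W) (Rb ⧸ P) (Ideal.Quotient.mk _ c) =
    Ideal.Quotient.mk P (algebraMap (ResidueField W) Rb (residue W c)) from rfl]
  congr 1
  exact (IsScalarTower.algebraMap_apply W (ResidueField W) Rb c).symm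

variable [IsDomain Rb] (h : R) (hconst : ∀ a : W, r0 h ≠ algebraMap W Rb a)
  (hunr : ∀ P : Ideal Rb, P.IsMaximal → ∀ a : W, r0 (h - algebraMap W R a) ∈ P →
    ∀ x, r0 x ∈ P → ∃ s, r0 s ∉ P ∧ s * x ∈ Ideal.span {(q : R), h - algebraMap W R a})

omit [IsLocalRing W] [Algebra.FiniteType W R] [IsAlgClosed (ResidueField W)] [IsDomain Rb] in
include hq in
theorem map_mem_span_of_mem {t : R} {z : R} (hz : z ∈ Ideal.span {(q : R), t}) :
    r0 t ∣ r0 z := by
  obtain ⟨a, b, rfl⟩ := Ideal.mem_span_pair.mp hz
  rw [map_add, map_mul, map_mul, map_natCast, hq, mul_zero, zero_add]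
  exact dvd_mul_left _ _

include hW hq hsurj hconst hunr in
/-- The local rings at closed points are discrete valuation rings. -/
theorem isDiscreteValuationRing_localization (P : Ideal Rb) [hP : P.IsMaximal] :
    IsDiscreteValuationRing (Localization.AtPrime P) := by
  have := isNoetherianRing_base hW hq r0 hsurj
  have : IsNoetherianRing (Localization.AtPrime P) :=
    IsLocalization.isNoetherianRing P.primeCompl _ inferInstance
  obtain ⟨a, ha⟩ := point_const hW hq r0 hsurj P hP (r0 h)
  set t : R := h - algebraMap W R a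
  have ht : r0 t = r0 h - algebraMap W Rb a := by rw [map_sub, r0.commutes]
  have htP : r0 t ∈ P := ht ▸ ha
  have ht0 : r0 t ≠ 0 := fun h0 => hconst a (sub_eq_zero.mp (ht ▸ h0))
  set f := algebraMap Rb (Localization.AtPrime P)
  have hmax : maximalIdeal (Localization.AtPrime P) = Ideal.span {f (r0 t)} := by
    refine le_antisymm (fun z hz => ?_) ?_
    · obtain ⟨x, s, rfl⟩ := IsLocalization.exists_mk'_eq P.primeCompl z
      rw [IsLocalization.AtPrime.mk'_mem_maximal_iff (Localization.AtPrime P) P] at hz
      obtain ⟨y, rfl⟩ := hsurj x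
      obtain ⟨u, hu, huy⟩ := hunr P hP a htP y hz
      obtain ⟨c, hc⟩ := map_mem_span_of_mem hq r0 huy
      have hunit : IsUnit (f (r0 u)) := IsLocalization.map_units _ (⟨r0 u, hu⟩ : P.primeCompl)
      rw [IsLocalization.mk'_eq_mul_mk'_one, Ideal.mem_span_singleton]
      refine dvd_mul_of_dvd_left ((hunit.dvd_mul_left).mp ?_) _
      rw [← map_mul, ← map_mul, hc, map_mul f]
      exact dvd_mul_right _ _
    · rw [Ideal.span_le, Set.singleton_subset_iff]
      exact (IsLocalization.AtPrime.to_map_mem_maximal_iff (Localization.AtPrime P) P _).mpr htP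
  have hnf : ¬ IsField (Localization.AtPrime P) :=
    IsLocalization.AtPrime.not_isField Rb (fun hb => ht0 (Ideal.mem_bot.mp (hb ▸ htP))) _
  refine ((IsDiscreteValuationRing.TFAE (Localization.AtPrime P) hnf).out 0 4).mpr ?_
  exact ⟨⟨_, hmax⟩⟩

include hW hq hsurj hconst hunr in
/-- The base level is a Dedekind domain. -/
theorem isDedekindDomain_base : IsDedekindDomain Rb := by
  have := isNoetherianRing_base hW hq r0 hsurj
  have hdvr := fun (P : Ideal Rb) (hP : P.IsMaximal) =>
    isDiscreteValuationRing_localization (hP := hP) hW hq r0 hsurj h hconst hunr P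
  have : IsIntegrallyClosed Rb := IsIntegrallyClosed.of_localization_maximal fun P _ hP => by
    have := hdvr P hP
    infer_instance
  have : Ring.DimensionLEOne Rb := ⟨fun {Q} hQ0 hQ => by
    obtain ⟨P, hP, hQP⟩ := Ideal.exists_le_maximal Q hQ.ne_top
    have := hdvr P hP
    have hdisj : Disjoint (P.primeCompl : Set Rb) (Q : Set Rb) :=
      Set.disjoint_left.2 fun z hz hzQ => hz (hQP hzQ)
    have hQ' := IsLocalization.isPrime_of_isPrime_disjoint P.primeCompl (Localization.AtPrime P) Q
      hQ hdisj
    have hne : Ideal.map (algebraMap Rb (Localization.AtPrime P)) Q ≠ ⊥ := by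
      rw [Ne, Ideal.map_eq_bot_iff_of_injective
        (IsLocalization.injective _ P.primeCompl_le_nonZeroDivisors)]
      exact hQ0
    have heq := IsLocalRing.eq_maximalIdeal (hQ'.isMaximal hne)
    rwa [← IsLocalization.under_map_of_isPrime_disjoint P.primeCompl (Localization.AtPrime P)
      hQ hdisj, heq, IsLocalization.AtPrime.under_maximalIdeal (Localization.AtPrime P) P]⟩
  exact {}

omit [IsDomain Rb] in
include hW hq hsurj hconst in
/-- The reduced base is not a field. -/
theorem not_isField_base : ¬ IsField Rb := by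
  intro hF
  let := hF.toField
  obtain ⟨a, ha⟩ := point_const hW hq r0 hsurj ⊥ Ideal.bot_isMaximal (r0 h)
  exact hconst a (sub_eq_zero.mp ((Ideal.mem_bot).mp ha))

end generic

section concrete

open Fermat.Agent.GaloisBasics (Qbar)
open Fermat.Agent.Carayol.Local

variable {A : ValuationSubring Qbar} {q : ℕ}

/-- The residue field of the unramified integers is algebraically closed. -/
theorem isAlgClosed_residueField_unramInt (hA : A.LiesOverPrime q) (hq : q.Prime) :
    haveI := isDiscreteValuationRing_unramInt hA hq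
    IsAlgClosed (ResidueField (unramInt A)) := by
  have := isDiscreteValuationRing_unramInt hA hq
  have : IsAlgClosed (ResidueField A) := GaloisBasics.residueField_isAlgClosed A
  let g : unramInt A →+* A :=
    (unramInt A).subtype.codRestrict A fun c => (mem_unramInt_iff.mp c.2).1
  have : IsLocalHom g := ⟨fun c hc => by
    rw [isUnit_unramInt_iff]
    exact (A.valuation_eq_one_iff (g c)).mp hc⟩
  let e : ResidueField (unramInt A) →+* ResidueField A := ResidueField.map g
  have hbij : Function.Bijective e := ⟨e.injective, fun y => by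
    obtain ⟨x, hx, rfl⟩ := exists_unramInt_residue hA hq y
    exact ⟨residue _ (⟨x, hx⟩ : unramInt A), rfl⟩⟩
  exact IsAlgClosed.of_ringEquiv _ _ (RingEquiv.ofBijective e hbij).symm

/-- Every residue of `W` has an `n`-th root. -/
theorem exists_residue_root (hA : A.LiesOverPrime q) (hq : q.Prime) {n : ℕ} (hn : 0 < n)
    (a : unramInt A) : ∃ b : unramInt A, (q : unramInt A) ∣ b ^ n - a := by
  have := isDiscreteValuationRing_unramInt hA hq
  have : IsAlgClosed (ResidueField (unramInt A)) := isAlgClosed_residueField_unramInt hA hq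
  obtain ⟨z, hz⟩ := IsAlgClosed.exists_pow_nat_eq (residue (unramInt A) a) hn
  obtain ⟨b, rfl⟩ := residue_surjective z
  refine ⟨b, Ideal.mem_span_singleton.mp ((mem_span_natCast_iff hA hq).mpr ?_)⟩
  rw [← map_pow, ← sub_eq_zero, ← map_sub, residue_eq_zero_iff, mem_maximalIdeal,
    mem_nonunits_iff, isUnit_unramInt_iff] at hz
  exact lt_of_le_of_ne
    ((A.valuation_le_one_iff _).2 (mem_unramInt_iff.1 (b ^ n - a).2).1) hz

/-- Primitive `n`-th roots of unity of `W`, with unit differences from `1`. -/
theorem exists_primitiveRoot_unramInt (hA : A.LiesOverPrime q) (hq : q.Prime) {n : ℕ}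
    (hn : ¬ q ∣ n) :
    ∃ ζ : unramInt A, IsPrimitiveRoot ζ n ∧ ∀ k, 0 < k → k < n → IsUnit (ζ ^ k - 1) := by
  have : NeZero n := ⟨fun h => hn (h ▸ dvd_zero q)⟩
  obtain ⟨z, hz⟩ := HasEnoughRootsOfUnity.exists_primitiveRoot Qbar n
  refine ⟨⟨z, rootOfUnity_mem_unramInt hA hq hn hz.pow_eq_one⟩,
    IsPrimitiveRoot.coe_submonoidClass_iff.mp hz, fun k hk0 hkn => ?_⟩
  rw [isUnit_unramInt_iff]
  exact valuation_rootOfUnity_sub hA hq hn (by rw [SubmonoidClass.coe_pow, ← pow_mul, mul_comm, pow_mul, hz.pow_eq_one,
    one_pow]) (one_pow n) (hz.pow_ne_one_of_pos_of_lt hk0.ne' hkn)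

end concrete

end Fermat.Agent.Carayol.BaseGeneric
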