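import Fermat.Agent.CarayolFF.Criterion
import Fermat.Agent.Carayol.Local.ModelFinite
import Mathlib.LinearAlgebra.Matrix.Charpoly.Coeff
import Mathlib.LinearAlgebra.Charpoly.ToMatrix
import Mathlib.RingTheory.Trace.Basic
import Mathlib.LinearAlgebra.BilinearForm.Properties
import Mathlib.Data.Matrix.Mul

/-!
# A basis in the model dual to a family under the embeddings

Sums over the embeddings over `j` are traces, hence polynomials in `j` for model elements, and a
basis consisting of model elements has a dual family.
-/

set_option autoImplicit false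

noncomputable section

open ModularCurve Polynomial
open Fermat.Agent.CarayolFF

namespace Fermat.Agent.Carayol

local notation "Qb" => AlgebraicClosure ℚ

variable {M : ℕ} [NeZero M]

omit [NeZero M] in
theorem free_baseJ : Module.Free (baseJ M) (modularFunctionFieldBar M) :=
  Module.Free.of_divisionRing (baseJ M) (modularFunctionFieldBar M)

-- shortcuts: the search through the algebra structures of an intermediate field is slow
attribute [local instance high] free_baseJ

omit [NeZero M] in
theorem isTorsionFree_baseJ : Module.IsTorsionFree (baseJ M) (modularFunctionFieldBar M) :=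
  Module.Free.instIsTorsionFree (baseJ M) (modularFunctionFieldBar M)

attribute [local instance high] isTorsionFree_baseJ

theorem isAlgebraic_baseJ : Algebra.IsAlgebraic (baseJ M) (modularFunctionFieldBar M) :=
  Algebra.IsAlgebraic.of_finite (baseJ M) (modularFunctionFieldBar M)

attribute [local instance high] isAlgebraic_baseJ

/-- The sum over the embeddings is minus the next coefficient of the characteristic polynomial. -/
theorem sum_emb_eq_neg_nextCoeff (x : modularFunctionFieldBar M) :
    ∑ ι : Emb M, ι.1 x = -bigJ M (charPolyJ M x).nextCoeff := by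
  have h := congrArg Polynomial.nextCoeff (charPolyJ_map x)
  rw [Polynomial.prod_X_sub_C_nextCoeff, Polynomial.nextCoeff_map (f := (bigJ M : baseJ M →+* LaurentSeries Qb))
      (bigJ M).toRingHom.injective] at h
  rw [show (bigJ M) (charPolyJ M x).nextCoeff =
    (bigJ M : baseJ M →+* LaurentSeries Qb) (charPolyJ M x).nextCoeff from rfl, h, neg_neg]

/-- The sum over the embeddings is the trace to `Qb(j)`. -/
theorem sum_emb_eq_trace (x : modularFunctionFieldBar M) :
    ∑ ι : Emb M, ι.1 x = bigJ M (Algebra.trace (baseJ M) (modularFunctionFieldBar M) x) := by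
  classical
  rw [sum_emb_eq_neg_nextCoeff, ← map_neg]
  congr 1
  let b := Module.finBasis (baseJ M) (modularFunctionFieldBar M)
  rw [Algebra.trace_eq_matrix_trace b x, Matrix.trace_eq_neg_charpoly_nextCoeff,
    Algebra.leftMulMatrix_apply, LinearMap.charpoly_toMatrix]
  rfl

/-- The sum over the embeddings of an element integral over `Qb[j]` is a polynomial in `j`. -/
theorem exists_poly_sum_emb {x : modularFunctionFieldBar M} (hx : IsPolyIntegral M x) :
    ∃ P : Qb[X], ∑ ι : Emb M, ι.1 x = aeval (qExpand Qb M jBar) P := by
  rw [sum_emb_eq_neg_nextCoeff]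
  have hpos : 0 < (charPolyJ M x).natDegree := by
    rw [charPolyJ, LinearMap.charpoly_natDegree]
    exact Module.finrank_pos
  obtain ⟨P, hP⟩ := exists_charPolyJ_coeff_eq hx ((charPolyJ M x).natDegree - 1)
  refine ⟨-P, ?_⟩
  rw [Polynomial.nextCoeff_of_natDegree_pos hpos, bigJ_apply, hP, map_neg, ← qExpandHom_apply,
    ← aeval_algHom_apply]
  rfl

variable {A : ValuationSubring Qb}

theorem gen_mem_model (d : ModCurveGenus.Dvs M) : ModCurveGenus.gen M d ∈ model A M := by
  refine (mem_model_iff A M).mpr ⟨?_, ?_⟩
  · exact Subfield.subset_closure (Or.inr ⟨_, ⟨d.1, inferInstance, d.dvd, rfl⟩, rfl⟩)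
  · exact Local.isIntegral_coeffEmb_jqd d.1

/-- Model elements span the function field over `Qb(j)`. -/
theorem span_model_eq_top :
    Submodule.span (baseJ M) (model A M : Set (modularFunctionFieldBar M)) = ⊤ := by
  set S := Algebra.adjoin (baseJ M) (model A M : Set (modularFunctionFieldBar M)) with hS
  have hspan : Subalgebra.toSubmodule S =
      Submodule.span (baseJ M) (model A M : Set (modularFunctionFieldBar M)) := by
    rw [hS, Algebra.adjoin_eq_span]
    congr 2
    exact Submonoid.closure_eq (model A M).toSubmonoid
  rw [← hspan, ← Algebra.top_toSubmodule]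
  congr 1
  refine eq_top_iff.2 fun x _ => ?_
  have hev : ∀ p, ModCurveGenus.ev M p ∈ S := by
    intro p
    induction p using MvPolynomial.induction_on with
    | C c =>
      rw [ModCurveGenus.ev, MvPolynomial.aeval_C,
        IsScalarTower.algebraMap_apply Qb (baseJ M) (modularFunctionFieldBar M)]
      exact S.algebraMap_mem _
    | add p r hp hr => rw [map_add]; exact add_mem hp hr
    | mul_X p d hp =>
      rw [map_mul, show ModCurveGenus.ev M (MvPolynomial.X d) = ModCurveGenus.gen M d from
        MvPolynomial.aeval_X _ d]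
      exact mul_mem hp (Algebra.subset_adjoin (gen_mem_model d))
  obtain ⟨r, s, -, rfl⟩ := ModCurveGenus.exists_frac M x
  rw [div_eq_mul_inv]
  have hinv : ∀ y : modularFunctionFieldBar M, y ∈ S → y⁻¹ ∈ S := fun y hy =>
    Subalgebra.inv_mem_of_algebraic S (x := ⟨y, hy⟩)
      (Algebra.IsAlgebraic.isAlgebraic (R := baseJ M) y)
  exact mul_mem (hev r) (hinv _ (hev s))

/-- A basis in the model and its dual family under the embeddings. -/
theorem exists_dual_family [DecidableEq (Emb M)] :
    ∃ (d : ℕ) (y y' : Fin d → modularFunctionFieldBar M), (∀ l, y l ∈ model A M) ∧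
      ∀ i k : Emb M, ∑ l, i.1 (y' l) * k.1 (y l) = if i = k then 1 else 0 := by
  classical
  let b₀ := Module.Basis.ofSpan (span_model_eq_top (A := A) (M := M)).ge
  have := FiniteDimensional.fintypeBasisIndex b₀
  let b := b₀.reindex (Fintype.equivFin _)
  have hb : ∀ l, b l ∈ model A M := fun l => by
    rw [Module.Basis.reindex_apply]
    exact Module.Basis.ofSpan_subset _ ⟨_, rfl⟩
  have hnd := traceForm_nondegenerate (baseJ M) (modularFunctionFieldBar M)
  let b' := LinearMap.BilinForm.dualBasis
    (Algebra.traceForm (baseJ M) (modularFunctionFieldBar M)) hnd b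
  refine ⟨_, b, b', hb, fun i k => ?_⟩
  let E : Matrix _ (Emb M) (LaurentSeries Qb) := fun l ι => ι.1 (b' l)
  let E' : Matrix (Emb M) _ (LaurentSeries Qb) := fun ι m => ι.1 (b m)
  have h1 : E * E' = 1 := by
    refine Matrix.ext fun l m => ?_
    rw [Matrix.mul_apply, Matrix.one_apply]
    have h := LinearMap.BilinForm.apply_dualBasis_left hnd b l m
    rw [Algebra.traceForm_apply] at h
    calc ∑ ι, E l ι * E' ι m = ∑ ι : Emb M, ι.1 (b' l * b m) :=
          Finset.sum_congr rfl fun ι _ => (map_mul ι.1 (b' l) (b m)).symm
      _ = bigJ M (Algebra.trace (baseJ M) (modularFunctionFieldBar M) (b' l * b m)) :=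
          sum_emb_eq_trace _
      _ = _ := by
        rw [h]
        rcases eq_or_ne l m with rfl | hlm
        · simp
        · rw [if_neg hlm, if_neg (Ne.symm hlm), map_zero]
  have h2 : E' * E = 1 := (Matrix.mul_eq_one_comm_of_card_eq (A := E) (B := E') _ _ _ (by
    rw [← Nat.card_eq_fintype_card (α := Emb M), natCard_emb_finrank,
      Module.finrank_eq_card_basis b])).1 h1
  have h3 := congrFun (congrFun h2 k) i
  rw [Matrix.mul_apply, Matrix.one_apply] at h3
  rw [Finset.sum_congr rfl fun l _ => mul_comm (i.1 (b' l)) (k.1 (b l)), h3]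
  exact if_congr eq_comm rfl rfl

end Fermat.Agent.Carayol
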