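import Fermat.Agent.Carayol.EngineRoots
import Fermat.Agent.Carayol.EngineDual
import Fermat.Agent.Conn.Targets
import Fermat.Agent.Conn.Completion

/-!
# The Kummer engine on the model

Locally consistent approximate `n`-th roots on the components, together with local roots at the
primes not containing `q`, give an `n`-th root in the function field over `ℚ̄`.
-/

set_option autoImplicit false

noncomputable section

open Fermat.Agent.GaloisBasics (Qbar)
open ModularCurve Fermat.Agent.CarayolFF Fermat.Agent.KummerReduction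
open scoped LaurentSeries

namespace Fermat.Agent.Carayol

variable {A : ValuationSubring Qbar} {q : ℕ} {M : ℕ} [NeZero M]

/-- Integral series over a subfield containing the inertia field, as a `W`-algebra. -/
def seriesAlg (A : ValuationSubring Qbar) (L : Subfield Qbar)
    (hEL : (inertiaField A).toSubfield ≤ L) : Subalgebra (unramInt A) (LaurentSeries Qbar) :=
  { Local.seriesOver (resData A) L with
    algebraMap_mem' := fun c => by
      refine (Local.mem_seriesOver _).2 fun m => ?_
      rw [algebraMap_unramInt_eq, HahnSeries.C_apply]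
      by_cases hm : m = 0
      · subst hm
        rw [HahnSeries.coeff_single_same]
        exact ⟨(mem_unramInt_iff.1 c.2).1,
          hEL (Local.mem_inertiaField_iff.2 (mem_unramInt_iff.1 c.2).2)⟩
      · rw [HahnSeries.coeff_single_of_ne hm]
        exact ⟨zero_mem _, zero_mem _⟩ }

theorem mem_seriesAlg_iff {L : Subfield Qbar} {hEL : (inertiaField A).toSubfield ≤ L}
    {x : LaurentSeries Qbar} :
    x ∈ seriesAlg A L hEL ↔ x ∈ Local.seriesOver (resData A) L := Iff.rfl

/-- Series with all coefficients small. -/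
def smallIdeal (A : ValuationSubring Qbar) (L : Subfield Qbar)
    (hEL : (inertiaField A).toSubfield ≤ L) : Ideal (seriesAlg A L hEL) :=
  (RingHom.ker (resData A).redSeries).comap
    ((seriesAlg A L hEL).val.toRingHom.codRestrict (resData A).intSeries fun x => x.2.1)

instance isPrime_smallIdeal (A : ValuationSubring Qbar) (L : Subfield Qbar)
    (hEL : (inertiaField A).toSubfield ≤ L) : (smallIdeal A L hEL).IsPrime :=
  (RingHom.ker_isPrime _).comap _

theorem mem_smallIdeal_iff {L : Subfield Qbar} {hEL : (inertiaField A).toSubfield ≤ L}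
    {x : seriesAlg A L hEL} :
    x ∈ smallIdeal A L hEL ↔ ∀ m, (x : LaurentSeries Qbar).coeff m ∈ A.nonunits := by
  rw [smallIdeal, Ideal.mem_comap, RingHom.mem_ker]
  constructor
  · intro h m
    have hm := congrArg (fun z : LaurentSeries (IsLocalRing.ResidueField A) => z.coeff m) h
    simp only [HahnSeries.coeff_zero] at hm
    rw [(resData A).redSeries_coeff] at hm
    exact ((resData A).π_eq_zero _).1 hm
  · intro h
    ext m
    rw [(resData A).redSeries_coeff, HahnSeries.coeff_zero]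
    exact ((resData A).π_eq_zero _).2 (h m)

/-- Small series have a power divisible by `q`. -/
theorem exists_pow_dvd_of_small (hq : q.Prime) {L : Subfield Qbar}
    {ϖ : Qbar} (hd : (resData A).Discrete L ϖ) {hEL : (inertiaField A).toSubfield ≤ L}
    {x : seriesAlg A L hEL} (hx : x ∈ smallIdeal A L hEL) :
    ∃ k : ℕ, algebraMap (unramInt A) (seriesAlg A L hEL) (q : unramInt A) ∣ x ^ k := by
  set R := resData A with hR
  let O := Local.intOver R L
  have hdvr : IsDiscreteValuationRing O := Local.isDiscreteValuationRing_intOver hd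
  obtain ⟨ϖ', hϖ'⟩ := IsDiscreteValuationRing.exists_irreducible O
  obtain ⟨y, hy⟩ : (x : LaurentSeries Qbar) ∈ (Local.toSeries R L).range := by
    rw [Local.range_toSeries]; exact x.2
  obtain ⟨z, rfl⟩ : (HahnSeries.C ϖ' : LaurentSeries O) ∣ y := by
    rw [← Ideal.mem_span_singleton, Local.mem_span_C_iff]
    intro m
    rw [← Ideal.mem_span_singleton, ← hϖ'.maximalIdeal_eq, IsLocalRing.mem_maximalIdeal,
      mem_nonunits_iff, Local.isUnit_intOver_iff]
    have h := A.mem_nonunits_iff.1 ((mem_smallIdeal_iff.1 hx) m)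
    rw [← hy] at h
    exact ne_of_lt h
  have hq0 : (q : O) ≠ 0 := fun h0 => hq.ne_zero (by
    exact_mod_cast (congrArg Subtype.val h0 : ((q : O) : Qbar) = 0))
  obtain ⟨k, u, hk⟩ := IsDiscreteValuationRing.eq_unit_mul_pow_irreducible hq0 hϖ'
  have hmem : Local.toSeries R L (HahnSeries.C (↑u⁻¹ : O) * z ^ k) ∈ seriesAlg A L hEL := by
    rw [mem_seriesAlg_iff, ← Local.range_toSeries]; exact ⟨_, rfl⟩
  refine ⟨k, ⟨_, hmem⟩, Subtype.ext ?_⟩
  show (x : LaurentSeries Qbar) ^ k =
    algebraMap (unramInt A) (LaurentSeries Qbar) (q : unramInt A) * _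
  rw [map_natCast, ← hy, ← map_natCast (Local.toSeries R L), ← map_pow, ← map_mul]
  congr 1
  rw [← map_natCast (HahnSeries.C : O →+* LaurentSeries O), hk, map_mul, map_pow, mul_pow,
    ← mul_assoc, mul_right_comm (HahnSeries.C (u : O)), ← map_mul, Units.mul_inv, map_one, one_mul]

/-- A denominator of `f` turns consistent roots of `f` into those of an element of the model. -/
theorem exists_integral_twist (hA : A.LiesOverPrime q) (hq : q.Prime) {n : ℕ} (hn : 0 < n)
    {J : Type} {Pi : J → Ideal (Local.modelAlg M A)} {f : levelField (inertiaField A) M}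
    (hdiv : ∀ p : Ideal (Local.modelAlg M A), p.IsPrime → (q : Local.modelAlg M A) ∉ p →
      ∃ (g : levelField (inertiaField A) M) (s t : Local.modelAlg M A), s ∉ p ∧ t ∉ p ∧
        (s : levelField (inertiaField A) M) * f = t * g ^ n)
    {G : J → levelField (inertiaField A) M}
    (hC : Conn.Consistent (Local.modelAlg M A) (q : unramInt A) Pi f n G) :
    ∃ bF : levelField (inertiaField A) M, bF ≠ 0 ∧ f * bF ^ n ∈ Local.modelAlg M A ∧
      Conn.Consistent (Local.modelAlg M A) (q : unramInt A) Pi (f * bF ^ n) n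
        (fun i => G i * bF) ∧
      ∀ p : Ideal (Local.modelAlg M A), p.IsPrime → (q : Local.modelAlg M A) ∉ p →
        ∃ (g : levelField (inertiaField A) M) (s t : Local.modelAlg M A), s ∉ p ∧ t ∉ p ∧
          (s : levelField (inertiaField A) M) * (f * bF ^ n) = t * g ^ n := by
  obtain ⟨b, hb, hbf⟩ := Local.exists_mul_mem_modelAlg M hA hq f
  set bF : levelField (inertiaField A) M := (b : levelField (inertiaField A) M) with hbF
  have hb0 : bF ≠ 0 := fun h => hb (Subtype.ext h)
  set f' := f * bF ^ n with hf'def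
  have hf'B : f' ∈ Local.modelAlg M A := by
    rw [hf'def, ← Nat.succ_pred_eq_of_pos hn, pow_succ, ← mul_assoc, mul_comm f, mul_assoc,
      mul_comm f bF]
    exact mul_mem (pow_mem b.2 _) hbf
  set G' : J → levelField (inertiaField A) M := fun i => G i * bF with hG'
  have hrat : ∀ g : levelField (inertiaField A) M, f' / (g * bF) ^ n = f / g ^ n := fun g => by
    rw [hf'def, mul_pow, mul_div_mul_right _ _ (pow_ne_zero n hb0)]
  have hC' : Conn.Consistent (Local.modelAlg M A) (q : unramInt A) Pi f' n G' := by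
    refine ⟨fun i => mul_ne_zero (hC.root_ne i) hb0, fun i => ?_, fun m hm hqm => ?_⟩
    · rw [hG', hrat]; exact hC.root_near i
    · obtain ⟨g, c, hg, hc, hloc, hdata⟩ := hC.local_data m hm hqm
      refine ⟨g * bF, c, mul_ne_zero hg hb0, hc, by rw [hrat]; exact hloc, fun i hi => ?_⟩
      obtain ⟨a, ha, h1, h2⟩ := hdata i hi
      refine ⟨a, ha, ?_, h2⟩
      rwa [hG', mul_div_mul_right _ _ hb0]
  have hdiv' : ∀ p : Ideal (Local.modelAlg M A), p.IsPrime → (q : Local.modelAlg M A) ∉ p →
      ∃ (g : levelField (inertiaField A) M) (s t : Local.modelAlg M A), s ∉ p ∧ t ∉ p ∧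
        (s : levelField (inertiaField A) M) * f' = t * g ^ n := by
    intro p hp hqp
    obtain ⟨g, s, t, hs, ht, e⟩ := hdiv p hp hqp
    exact ⟨g * bF, s, t, hs, ht, by rw [hf'def, ← mul_assoc, e, mul_pow, mul_assoc]⟩
  exact ⟨bF, hb0, hf'B, hC', hdiv'⟩

/-- Consistent roots give `f` the shape `unit · gⁿ`, the unit near `1`, on every component. -/
theorem exists_near_of_consistent {n : ℕ} {J : Type} {Pi : J → Ideal (Local.modelAlg M A)}
    {f : levelField (inertiaField A) M} {G : J → levelField (inertiaField A) M}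
    (hC : Conn.Consistent (Local.modelAlg M A) (q : unramInt A) Pi f n G) (j : J) :
    ∃ (g : levelField (inertiaField A) M) (s t : Local.modelAlg M A),
      s ∉ Pi j ∧ t ∉ Pi j ∧ s - t ∈ Pi j ∧
        (s : levelField (inertiaField A) M) * f = t * g ^ n := by
  obtain ⟨s, hs, r, hr, e⟩ := hC.root_near j
  refine ⟨G j, s, s + r, hs, fun h => hs ?_, ?_, ?_⟩
  · simpa using (Pi j).sub_mem h hr
  · simpa using (Pi j).neg_mem hr
  · change (s : levelField (inertiaField A) M) * (f / G j ^ n - 1) = r at e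
    rw [AddMemClass.coe_add, ← e, mul_sub, mul_one, add_sub_cancel, mul_assoc,
      div_mul_cancel₀ _ (pow_ne_zero n (hC.root_ne j))]

/-- A discretely valued coefficient field containing `n`-th roots of all conjugates of `f`. -/
theorem exists_root_fracOver (hA : A.LiesOverPrime q) (hq : q.Prime) {n : ℕ} (hn : 0 < n)
    (hqn : ¬ q ∣ n) {J : Type} {Pi : J → Ideal (Local.modelAlg M A)}
    (hker : ∀ ι : Emb M, ∃ j, ∀ x : Local.modelAlg M A,
      (∀ m, (ι.1 (Local.levelToBar M A (x : levelField (inertiaField A) M))).coeff m ∈ A.nonunits)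
        ↔ x ∈ Pi j)
    (f : Local.modelAlg M A) (hf : f ≠ 0)
    (hdiv : ∀ p : Ideal (Local.modelAlg M A), p.IsPrime → (q : Local.modelAlg M A) ∉ p →
      ∃ (g : levelField (inertiaField A) M) (s t : Local.modelAlg M A), s ∉ p ∧ t ∉ p ∧
        (s : levelField (inertiaField A) M) * f = t * g ^ n)
    (hnear : ∀ j, ∃ (g : levelField (inertiaField A) M) (s t : Local.modelAlg M A),
      s ∉ Pi j ∧ t ∉ Pi j ∧ s - t ∈ Pi j ∧
        (s : levelField (inertiaField A) M) * f = t * g ^ n) :
    ∃ (L : Subfield Qbar) (ϖ : Qbar) (hd : (resData A).Discrete L ϖ),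
      (inertiaField A).toSubfield ≤ L ∧ (∀ z : Qbar, z ^ M = 1 → z ∈ L) ∧
      ∃ z : Emb M → LaurentSeries Qbar,
        (∀ ι, z ι ∈ (resData A).fracOver L ϖ ((resData A).A.nonunits_le hd.nonunit)) ∧
        ∀ ι, z ι ^ n = embLevel A ι (f : levelField (inertiaField A) M) := by
  classical
  obtain ⟨L₀, hfin₀, hroots⟩ := Local.exists_finite_extension (A := A)
    (Polynomial.nthRoots M (1 : Qbar)).toFinset
  obtain ⟨ϖ₀, hd₀⟩ := Local.exists_discrete hA hq L₀
  have hEL₀ : (inertiaField A).toSubfield ≤ L₀.toSubfield := fun c hc => L₀.algebraMap_mem ⟨c, hc⟩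
  have hζ₀ : ∀ z : Qbar, z ^ M = 1 → z ∈ L₀.toSubfield := fun z hz =>
    hroots z (Multiset.mem_toFinset.mpr
      ((Polynomial.mem_nthRoots (Nat.pos_of_ne_zero (NeZero.ne M))).mpr hz))
  have hroot := fun ι : Emb M =>
    exists_series_root hA hq hn hqn hd₀ hEL₀ hζ₀ ι (hker ι) f hf hdiv hnear
  choose γ u hu hγu using hroot
  obtain ⟨L₁, hfin₁, hγ⟩ := Local.exists_finite_extension (A := A) (Finset.univ.image γ)
  obtain ⟨ϖ, hd⟩ := Local.exists_discrete hA hq (L₀ ⊔ L₁)
  set L := (L₀ ⊔ L₁).toSubfield with hL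
  have hLL : L₀.toSubfield ≤ L := fun c hc => (le_sup_left : L₀ ≤ L₀ ⊔ L₁) hc
  have hEL : (inertiaField A).toSubfield ≤ L := hEL₀.trans hLL
  have hζL : ∀ z : Qbar, z ^ M = 1 → z ∈ L := fun z hz => hLL (hζ₀ z hz)
  have hγL : ∀ ι, γ ι ∈ L := fun ι => (le_sup_right : L₁ ≤ L₀ ⊔ L₁)
    (hγ _ (Finset.mem_image_of_mem γ (Finset.mem_univ ι)))
  set Fr := (resData A).fracOver L ϖ ((resData A).A.nonunits_le hd.nonunit)
  have hzmem : ∀ ι, HahnSeries.C (γ ι) * u ι ∈ Fr := by
    intro ι
    refine mul_mem (Subfield.subset_closure ?_) (fracOver_mono hd₀ hd hLL (hu ι))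
    obtain ⟨j, hj⟩ := hd.archimedean (γ ι)
    refine ⟨ResidueData.mem_overSubfield.mpr fun m => ?_, j, ?_⟩
    · by_cases hm : m = 0
      · subst hm; simpa [HahnSeries.C_apply] using hγL ι
      · simp [HahnSeries.C_apply, HahnSeries.coeff_single_of_ne hm]
    · rw [← map_mul, mul_comm]
      exact (resData A).C_mem_intSeries hj
  exact ⟨L, ϖ, hd, hEL, hζL, fun ι => HahnSeries.C (γ ι) * u ι, hzmem, hγu⟩

/-- For `n` prime to `q` there is a primitive `n`-th root of unity in `W`, whose nontrivial powers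
differ from `1` by units. -/
theorem exists_primitiveRoot_unramInt (hA : A.LiesOverPrime q) (hq : q.Prime) {n : ℕ} (hn : 0 < n)
    (hqn : ¬ q ∣ n) :
    ∃ ζ : unramInt A, IsPrimitiveRoot ζ n ∧ ∀ k : ℕ, 0 < k → k < n → IsUnit (ζ ^ k - 1) := by
  have : NeZero n := ⟨hn.ne'⟩
  obtain ⟨z₀, hz₀⟩ := HasEnoughRootsOfUnity.exists_primitiveRoot Qbar n
  set ζ : unramInt A := ⟨z₀, Local.rootOfUnity_mem_unramInt hA hq hqn hz₀.pow_eq_one⟩
  refine ⟨ζ, IsPrimitiveRoot.of_map_of_injective (f := (unramInt A).subtype) hz₀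
    Subtype.val_injective, fun k hk hkn => ?_⟩
  rw [Local.isUnit_unramInt_iff]
  refine Local.valuation_rootOfUnity_sub hA hq hqn ?_ (one_pow n)
    (hz₀.pow_ne_one_of_pos_of_lt hk.ne' hkn)
  show (z₀ ^ k) ^ n = 1
  rw [← pow_mul, mul_comm, pow_mul, hz₀.pow_eq_one, one_pow]

omit [NeZero M] in
/-- `A` is separated for the `q`-adic topology. -/
theorem separated_natCast (hA : A.LiesOverPrime q) (hq : q.Prime) :
    Conn.Separated A (q : Qbar) := by
  intro x hx
  by_contra hx0
  obtain ⟨j, hj⟩ := (Local.inertiaDiscrete hA hq).archimedean x⁻¹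
  obtain ⟨a, ha, hxa⟩ := hx (j + 1)
  have hq0 : (q : Qbar) ≠ 0 := Nat.cast_ne_zero.2 hq.ne_zero
  have h1 : x⁻¹ * (q : Qbar) ^ j * a = (q : Qbar)⁻¹ := by
    have ha0 : a ≠ 0 := fun h0 => hx0 (by rw [hxa, h0, mul_zero])
    rw [hxa]
    field_simp
    ring
  have h2 : (q : Qbar)⁻¹ ∈ A := h1 ▸ mul_mem hj ha
  exact ((A.inv_mem_nonunits_iff (x := (q : Qbar)⁻¹)).1 (by rwa [inv_inv])).elim
    (fun h => inv_ne_zero hq0 h) fun h => h h2

/-- `j(Mτ)` has a simple pole in `qᴹ`. -/
theorem qExpand_jBar_coeff_neg : (qExpand Qbar M jBar).coeff (-(M : ℤ)) = 1 := by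
  have h := coeff_jBar_pow_self 1
  rw [pow_one] at h
  rw [show -(M : ℤ) = (M : ℤ) * (-((1 : ℕ) : ℤ)) by push_cast; ring, qExpand_coeff_mul]
  exact h

/-- `j(Mτ)` has no terms below its pole. -/
theorem qExpand_jBar_coeff_of_lt {m : ℤ} (hm : m < -(M : ℤ)) :
    (qExpand Qbar M jBar).coeff m = 0 := by
  by_cases hdm : (M : ℤ) ∣ m
  · obtain ⟨k, rfl⟩ := hdm
    rw [qExpand_coeff_mul]
    have h := coeff_jBar_pow_of_lt (n := 1) (m := k) (by push_cast; nlinarith)
    rwa [pow_one] at h
  · exact qExpand_coeff_of_not_dvd (hk := hdm) ..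

/-- The engine on the model. -/
theorem exists_root_of_consistent (hA : A.LiesOverPrime q) (hq : q.Prime) {n : ℕ} (hn : 0 < n)
    (hqn : ¬ q ∣ n) {J : Type} [Finite J] (Pi : J → Ideal (Local.modelAlg M A))
    (hker : ∀ ι : Emb M, ∃ j, ∀ x : Local.modelAlg M A,
      (∀ m, (ι.1 (Local.levelToBar M A (x : levelField (inertiaField A) M))).coeff m ∈ A.nonunits)
        ↔ x ∈ Pi j)
    (hB : Conn.Components (Local.modelAlg M A) (q : unramInt A) Pi)
    (f : levelField (inertiaField A) M) (hf : f ≠ 0)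
    (hdiv : ∀ p : Ideal (Local.modelAlg M A), p.IsPrime → (q : Local.modelAlg M A) ∉ p →
      ∃ (g : levelField (inertiaField A) M) (s t : Local.modelAlg M A), s ∉ p ∧ t ∉ p ∧
        (s : levelField (inertiaField A) M) * f = t * g ^ n)
    (G : J → levelField (inertiaField A) M)
    (hC : Conn.Consistent (Local.modelAlg M A) (q : unramInt A) Pi f n G) :
    ∃ g : modularFunctionFieldBar M,
      (g : LaurentSeries Qbar) ^ n = (f : LaurentSeries Qbar) := by
  classical
  obtain ⟨bF, hb0, hf'B, hC', hdiv'⟩ := exists_integral_twist hA hq hn hdiv hC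
  set f' := f * bF ^ n with hf'def
  have hf' : f' ≠ 0 := mul_ne_zero hf (pow_ne_zero n hb0)
  obtain ⟨L, ϖ, hd, hEL, hζL, z, hzmem, hz⟩ := exists_root_fracOver hA hq hn hqn hker
    ⟨f', hf'B⟩ (fun h => hf' (congrArg Subtype.val h)) hdiv' (exists_near_of_consistent hC')
  obtain ⟨ζ, hζW, hζu⟩ := exists_primitiveRoot_unramInt hA hq hn hqn
  have hinjW : Function.Injective (algebraMap (unramInt A) (levelField (inertiaField A) M)) :=
    fun a c h => Subtype.ext (HahnSeries.C_injective
      (congrArg (fun w : levelField (inertiaField A) M => (w : LaurentSeries Qbar)) h))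
  have hnF : (n : levelField (inertiaField A) M) ≠ 0 := by
    rw [← map_natCast (algebraMap (unramInt A) (levelField (inertiaField A) M)),
      map_ne_zero_iff _ hinjW]
    intro h
    exact hn.ne' (by exact_mod_cast (congrArg Subtype.val h : ((n : unramInt A) : Qbar) = 0))
  have hBS : ∀ (ι : Emb M), ∀ x ∈ Local.modelAlg M A, embLevel A ι x ∈ seriesAlg A L hEL :=
    fun ι x hx => embLevel_mem_seriesOver hA hq hd hEL hζL ι ⟨x, hx⟩
  have hker' : ∀ ι : Emb M, ∃ j, ∀ x : Local.modelAlg M A,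
      (⟨embLevel A ι x, hBS ι x x.2⟩ : seriesAlg A L hEL) ∈ smallIdeal A L hEL ↔ x ∈ Pi j := by
    intro ι
    obtain ⟨j, hj⟩ := hker ι
    exact ⟨j, fun x => mem_smallIdeal_iff.trans (hj x)⟩
  have hS : ∀ ι : Emb M, ∀ x ∈ Subfield.closure (Set.range (embLevel A ι) ∪ {z ι}),
      IsIntegral (seriesAlg A L hEL) x → x ∈ seriesAlg A L hEL := by
    intro ι x hx hint
    refine Local.mem_seriesOver_of_isIntegral hd (Subfield.closure_le.2 ?_ hx) hint
    rintro y (⟨w, rfl⟩ | rfl)
    · exact emb_mem_fracOver hd hEL hζL ι w.2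
    · exact hzmem ι
  have : Nonempty (Emb M) := ⟨idEmb M⟩
  obtain ⟨T, hT, hT0, happ⟩ := Conn.exists_targets (embLevel A) (seriesAlg A L hEL)
    (smallIdeal A L hEL) hn hnF (hζW.map_of_injective hinjW) hζW.pow_eq_one hζu hB hf' hf'B hC'
    hBS (fun s hs => exists_pow_dvd_of_small hq hd hs) hker' z hz hS
  -- descend
  obtain ⟨d, y, y', hy, hdual⟩ := exists_dual_family (A := A) (M := M)
  obtain ⟨g, hg⟩ := Conn.exists_root_of_targets (K := Qbar) (A := A) (J := qExpand Qbar M jBar)
    (e := M) (Nat.pos_of_ne_zero (NeZero.ne M)) qExpand_jBar_coeff_neg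
    (fun m => qExpand_jBar_coeff_of_lt)
    (fun m => qExpand_jBar_coeff_mem A.toSubring M m) (separated_natCast hA hq)
    (fun ι : Emb M => ι.1) (jElem M) (fun ι => ι.2) y y' hdual
    (fun ι l m => ((resData A).mem_intSeries.1 (emb_mem_intSeries_of_model hA hq (hy l) ι)) m)
    (Local.levelToBar M A f') T hT hT0
    (fun r => by
      obtain ⟨x, hx, hxT⟩ := happ r
      refine ⟨Local.levelToBar M A x, fun l => exists_poly_sum_emb (isPolyIntegral_of_mem_model
        (mul_mem (hy l) (Local.mem_model_iff_mem_modelSubring.2 hx))), fun ι m => ?_⟩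
      obtain ⟨s, hs, e⟩ := hxT ι
      refine ⟨s.coeff m, ((Local.mem_seriesOver _).1 hs m).1, ?_⟩
      show (embLevel A ι x - T ι).coeff m = _
      rw [e, ← map_pow, algebraMap_unramInt_eq, ResidueData.coeff_C_mul, SubmonoidClass.coe_pow,
        Subring.coe_natCast])
  refine ⟨g / Local.levelToBar M A bF, ?_⟩
  have h : (g / Local.levelToBar M A bF) ^ n = Local.levelToBar M A f := by
    rw [div_pow, hg, hf'def, map_mul, map_pow, mul_div_cancel_right₀]
    exact pow_ne_zero n ((map_ne_zero_iff _ (Local.levelToBar M A).injective).2 hb0)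
  have h' := congrArg (fun w : modularFunctionFieldBar M => (w : LaurentSeries Qbar)) h
  exact h'

end Fermat.Agent.Carayol
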