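import Fermat.Agent.CarayolFF.Criterion
import Fermat.Agent.Carayol.Local.Level
import Fermat.Agent.Carayol.Local.Divisible
import Fermat.Agent.Carayol.Local.SeriesRoot
import Fermat.Agent.Conn.Kummer

/-!
# Roots of the embedded series

For an element of the model that is locally an `n`-th power up to units at the primes not
containing `q` and near an `n`-th power on the components, each embedded series is a constant times
the `n`-th power of a quotient of bounded series.
-/

set_option autoImplicit false

noncomputable section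

open Fermat.Agent.GaloisBasics (Qbar)
open ModularCurve Fermat.Agent.CarayolFF Fermat.Agent.KummerReduction
open scoped LaurentSeries

namespace Fermat.Agent.Carayol

variable {A : ValuationSubring Qbar} {q : ℕ} {M : ℕ} [NeZero M]

/-- `W` maps to series as constants. -/
theorem algebraMap_unramInt_eq (c : unramInt A) :
    algebraMap (unramInt A) (LaurentSeries Qbar) c = HahnSeries.C (c : Qbar) := by
  rw [HahnSeries.algebraMap_apply' ℤ, PowerSeries.algebraMap_apply, HahnSeries.ofPowerSeries_C]
  rfl

/-- An embedding restricted to the level field, as a homomorphism over `W`. -/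
def embLevel (A : ValuationSubring Qbar) (ι : Emb M) :
    levelField (inertiaField A) M →ₐ[unramInt A] LaurentSeries Qbar where
  toRingHom := ι.1.toRingHom.comp (Local.levelToBar M A)
  commutes' c := by
    show ι.1 (Local.levelToBar M A (algebraMap (unramInt A) _ c)) = _
    have h : Local.levelToBar M A (algebraMap (unramInt A) _ c) =
        algebraMap Qbar (modularFunctionFieldBar M) (c : Qbar) :=
      Subtype.ext ((Local.coe_algebraMap_level M c).trans (Local.algebraMap_eq_C _).symm)
    rw [h, AlgHom.commutes, algebraMap_unramInt_eq]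
    exact Local.algebraMap_eq_C _

/-- Quotients of bounded series over `L` have coefficients in `L`. -/
theorem fracOver_le_overSubfield {L : Subfield Qbar} {ϖ : Qbar} (hϖ : ϖ ∈ (resData A).A) :
    (resData A).fracOver L ϖ hϖ ≤ ResidueData.overSubfield L :=
  Subfield.closure_le.2 fun _ hx => hx.1

/-- Model elements embed into the integral series over `L`. -/
theorem embLevel_mem_seriesOver (hA : A.LiesOverPrime q) (hq : q.Prime) {L : Subfield Qbar}
    {ϖ : Qbar} (hd : (resData A).Discrete L ϖ) (hEL : (inertiaField A).toSubfield ≤ L)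
    (hζ : ∀ z : Qbar, z ^ M = 1 → z ∈ L) (ι : Emb M) (b : Local.modelAlg M A) :
    embLevel A ι (b : levelField (inertiaField A) M) ∈ Local.seriesOver (resData A) L := by
  have hb : Local.levelToBar M A (b : levelField (inertiaField A) M) ∈ model A M :=
    Local.mem_model_iff_mem_modelSubring.2 b.2
  exact ⟨emb_mem_intSeries_of_model hA hq hb ι, fracOver_le_overSubfield _
    (emb_mem_fracOver hd hEL hζ ι (b : levelField (inertiaField A) M).2)⟩

theorem seriesOver_mem_fracOver {L : Subfield Qbar} {ϖ : Qbar} {hϖ : ϖ ∈ (resData A).A}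
    {x : LaurentSeries Qbar} (hx : x ∈ Local.seriesOver (resData A) L) :
    x ∈ (resData A).fracOver L ϖ hϖ :=
  Subfield.subset_closure ⟨hx.2, 0, by rw [pow_zero, map_one, one_mul]; exact hx.1⟩

/-- Quotients of bounded series over `L` are quotients of bounded series over a larger field. -/
theorem fracOver_mono {L L' : Subfield Qbar} {ϖ ϖ' : Qbar} (hd : (resData A).Discrete L ϖ)
    (hd' : (resData A).Discrete L' ϖ') (hLL : L ≤ L') :
    (resData A).fracOver L ϖ ((resData A).A.nonunits_le hd.nonunit) ≤
      (resData A).fracOver L' ϖ' ((resData A).A.nonunits_le hd'.nonunit) := by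
  refine Subfield.closure_le.2 ?_
  rintro x ⟨hxL, j, hj⟩
  obtain ⟨i, hi⟩ := hd'.archimedean (ϖ ^ j)⁻¹
  refine Subfield.subset_closure ⟨ResidueData.overSubfield_mono hLL hxL, i, ?_⟩
  have h : HahnSeries.C ((ϖ ^ j)⁻¹ * ϖ' ^ i) * (HahnSeries.C (ϖ ^ j) * x) ∈ (resData A).intSeries :=
    mul_mem ((resData A).C_mem_intSeries hi) hj
  rwa [← mul_assoc, ← map_mul, mul_comm ((ϖ ^ j)⁻¹) (ϖ' ^ i), mul_assoc,
    inv_mul_cancel₀ (pow_ne_zero j hd.ne_zero), mul_one] at h

/-- The `n`-th root of an embedded series, up to a constant. -/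
theorem exists_series_root (hA : A.LiesOverPrime q) (hq : q.Prime) {n : ℕ} (hn : 0 < n)
    (hqn : ¬ q ∣ n) {L : Subfield Qbar} {ϖ : Qbar} (hd : (resData A).Discrete L ϖ)
    (hEL : (inertiaField A).toSubfield ≤ L) (hζ : ∀ z : Qbar, z ^ M = 1 → z ∈ L)
    (ι : Emb M) {J : Type} {Pi : J → Ideal (Local.modelAlg M A)}
    (hker : ∃ j, ∀ x : Local.modelAlg M A,
      (∀ m, (embLevel A ι (x : levelField (inertiaField A) M)).coeff m ∈ A.nonunits) ↔ x ∈ Pi j)
    (f : Local.modelAlg M A) (hf : f ≠ 0)
    (hdiv : ∀ p : Ideal (Local.modelAlg M A), p.IsPrime → (q : Local.modelAlg M A) ∉ p →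
      ∃ (g : levelField (inertiaField A) M) (s t : Local.modelAlg M A), s ∉ p ∧ t ∉ p ∧
        (s : levelField (inertiaField A) M) * f = t * g ^ n)
    (hnear : ∀ j, ∃ (g : levelField (inertiaField A) M) (s t : Local.modelAlg M A),
      s ∉ Pi j ∧ t ∉ Pi j ∧ s - t ∈ Pi j ∧
        (s : levelField (inertiaField A) M) * f = t * g ^ n) :
    ∃ (γ : Qbar) (u : LaurentSeries Qbar),
      u ∈ (resData A).fracOver L ϖ ((resData A).A.nonunits_le hd.nonunit) ∧
        (HahnSeries.C γ * u) ^ n = embLevel A ι (f : levelField (inertiaField A) M) := by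
  classical
  set R := resData A with hR
  let O := Local.intOver R L
  have hdvr : IsDiscreteValuationRing O := Local.isDiscreteValuationRing_intOver hd
  obtain ⟨ϖ', hϖ'⟩ := IsDiscreteValuationRing.exists_irreducible O
  have hnonunit : ∀ x : O, (x : Qbar) ∈ A.nonunits ↔ ϖ' ∣ x := by
    intro x
    rw [← Ideal.mem_span_singleton, ← hϖ'.maximalIdeal_eq, IsLocalRing.mem_maximalIdeal,
      mem_nonunits_iff, Local.isUnit_intOver_iff, A.mem_nonunits_iff]
    exact lt_iff_le_and_ne.trans
      (and_iff_right ((A.valuation_le_one_iff _).2 ((Local.mem_intOver R).1 x.2).1))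
  -- the embedding of the model into series over `O`
  have hinj : Function.Injective (Local.toSeries R L) := Local.toSeries_injective
  let e := RingEquiv.ofBijective (Local.toSeries R L).rangeRestrict
    ⟨fun a b h => hinj (congrArg Subtype.val h), (Local.toSeries R L).rangeRestrict_surjective⟩
  let φ₀ : Local.modelAlg M A →+* (Local.toSeries R L).range :=
    ((embLevel A ι).toRingHom.comp (Local.modelAlg M A).val.toRingHom).codRestrict _ fun b => by
      rw [Local.range_toSeries]
      exact embLevel_mem_seriesOver hA hq hd hEL hζ ι b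
  let φ : Local.modelAlg M A →+* LaurentSeries O := e.symm.toRingHom.comp φ₀
  have hφ : ∀ b, Local.toSeries R L (φ b) = embLevel A ι (b : levelField (inertiaField A) M) :=
    fun b => congrArg Subtype.val (e.apply_symm_apply (φ₀ b))
  have hφinj : Function.Injective φ := fun a b h => by
    have h' := congrArg (Local.toSeries R L) h
    rw [hφ, hφ] at h'
    exact Subtype.ext ((embLevel A ι).toRingHom.injective h')
  have hφ0 : ∀ {b}, b ≠ 0 → φ b ≠ 0 := fun hb h => hb (hφinj (h.trans (map_zero φ).symm))
  -- clear denominators in the local equations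
  have hclear : ∀ {p : Ideal (Local.modelAlg M A)} (g : levelField (inertiaField A) M)
      (s t : Local.modelAlg M A), (s : levelField (inertiaField A) M) * f = t * g ^ n →
      ∃ a b : Local.modelAlg M A, b ≠ 0 ∧ s * f * b ^ n = t * a ^ n := by
    intro p g s t e'
    obtain ⟨b, hb, hbg⟩ := Local.exists_mul_mem_modelAlg M hA hq g
    refine ⟨⟨_, hbg⟩, b, hb, Subtype.ext ?_⟩
    simp only [MulMemClass.coe_mul, SubmonoidClass.coe_pow, mul_pow]
    linear_combination (b : levelField (inertiaField A) M) ^ n * e'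
  obtain ⟨j, hj⟩ := hker
  set E : LaurentSeries O := HahnSeries.C ϖ' with hE
  have hkerφ : ∀ x : Local.modelAlg M A, E ∣ φ x ↔ x ∈ Pi j := by
    intro x
    rw [hE, ← Ideal.mem_span_singleton, Local.mem_span_C_iff, ← hj x]
    refine forall_congr' fun m => ?_
    rw [← hnonunit, ← hφ]
    rfl
  have hqO : (HahnSeries.C (q : O) : LaurentSeries O) = φ (q : Local.modelAlg M A) := by
    rw [map_natCast, map_natCast]
  obtain ⟨o, v, X, Y, hv, hY, heq⟩ := Local.exists_monomial_mul_pow hn (φ f) (hφ0 hf)
    (fun π hπ => by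
      let P := (Ideal.span {π}).comap φ
      have hP : P.IsPrime := ((Ideal.span_singleton_prime hπ.ne_zero).2 hπ).comap φ
      have hmemP : ∀ x, x ∈ P ↔ π ∣ φ x := fun x =>
        Ideal.mem_comap.trans Ideal.mem_span_singleton
      obtain ⟨g, s, t, hs, ht, e'⟩ : ∃ (g : levelField (inertiaField A) M)
          (s t : Local.modelAlg M A), s ∉ P ∧ t ∉ P ∧
            (s : levelField (inertiaField A) M) * f = t * g ^ n := by
        by_cases hqP : (q : Local.modelAlg M A) ∈ P
        · have hπq : π ∣ HahnSeries.C (q : O) := hqO ▸ (hmemP _).1 hqP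
          have hq0 : (q : O) ≠ 0 := fun h0 => hq.ne_zero (by
            exact_mod_cast (congrArg Subtype.val h0 : ((q : O) : Qbar) = 0))
          obtain ⟨k, u, hk⟩ := IsDiscreteValuationRing.eq_unit_mul_pow_irreducible hq0 hϖ'
          rw [hk, map_mul, map_pow] at hπq
          have hπE : π ∣ E := by
            rcases hπ.dvd_or_dvd hπq with h | h
            · exact absurd (isUnit_of_dvd_unit h (u.isUnit.map _)) hπ.not_isUnit
            · exact hπ.dvd_of_dvd_pow h
          have hass : Associated π E :=
            hπ.irreducible.associated_of_dvd (Local.prime_C hϖ').irreducible hπE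
          obtain ⟨g, s, t, hs, ht, -, e'⟩ := hnear j
          refine ⟨g, s, t, ?_, ?_, e'⟩
          · rw [hmemP, hass.dvd_iff_dvd_left, hkerφ]; exact hs
          · rw [hmemP, hass.dvd_iff_dvd_left, hkerφ]; exact ht
        · exact hdiv P hP hqP
      obtain ⟨a, b, hb, e''⟩ := hclear (p := P) g s t e'
      refine ⟨φ a, φ b, φ s, φ t, hφ0 hb, fun h => hs ((hmemP _).2 h),
        fun h => ht ((hmemP _).2 h), ?_⟩
      have h := congrArg φ e''
      simpa only [map_mul, map_pow] using h)
  have hnO : IsUnit (n : O) := by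
    rw [Local.isUnit_intOver_iff]
    have hle : A.valuation (n : Qbar) ≤ 1 := (A.valuation_le_one_iff _).2 (natCast_mem A n)
    have hnu : ¬ A.valuation (n : Qbar) < 1 := fun h =>
      hqn ((GaloisBasics.natCast_mem_nonunits_iff hA hq n).1 (A.mem_nonunits_iff.2 h))
    rw [Subring.coe_natCast]
    exact le_antisymm hle (not_lt.1 hnu)
  obtain ⟨c, w, -, hvw⟩ := Local.exists_C_mul_pow hnO hv
  -- the monomial is an `n`-th power
  obtain ⟨o', rfl⟩ : (n : ℤ) ∣ o := by
    obtain ⟨g, s, t, hs, -, hst, e'⟩ := hnear j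
    obtain ⟨a, b, hb, e''⟩ := hclear (p := Pi j) g s t e'
    have hX : X ≠ 0 := by
      rintro rfl
      rw [zero_pow hn.ne', mul_zero] at heq
      exact mul_ne_zero (hφ0 hf) (pow_ne_zero n hY) heq
    refine Local.dvd_of_mul_pow_eq hϖ' hn (s := φ s) (t := φ t) (P := X * φ b) (Q := Y * φ a) hv
      (fun h => hs ((hkerφ s).1 h)) (by rw [← map_sub]; exact (hkerφ _).2 hst)
      (mul_ne_zero hX (hφ0 hb)) ?_
    have h := congrArg φ e''
    simp only [map_mul, map_pow] at h
    linear_combination Y ^ n * h - φ s * φ b ^ n * heq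
  obtain ⟨γ, hγ⟩ := IsAlgClosed.exists_pow_nat_eq (c : Qbar) hn
  set u₀ := Local.toSeries R L
    (HahnSeries.single o' 1 * HahnSeries.ofPowerSeries ℤ O w * X) with hu₀
  have hY' : Local.toSeries R L Y ≠ 0 := fun h => hY (hinj (h.trans (map_zero _).symm))
  refine ⟨γ, u₀ / Local.toSeries R L Y, ?_, ?_⟩
  · refine div_mem (seriesOver_mem_fracOver ?_) (seriesOver_mem_fracOver ?_) <;>
      rw [← Local.range_toSeries] <;> exact ⟨_, rfl⟩
  · have hCc : Local.toSeries R L (HahnSeries.C c) = HahnSeries.C (c : Qbar) := by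
      rw [HahnSeries.C_apply, HahnSeries.C_apply, Local.toSeries, coeffMap_single]
      rfl
    have hps : HahnSeries.ofPowerSeries ℤ O v =
        HahnSeries.C c * HahnSeries.ofPowerSeries ℤ O w ^ n := by
      rw [hvw, map_mul, map_pow, HahnSeries.ofPowerSeries_C]
    have hmono : (HahnSeries.single ((n : ℤ) * o') (1 : O)) = HahnSeries.single o' 1 ^ n := by
      rw [HahnSeries.single_pow, one_pow, nsmul_eq_mul]
    have h1 := congrArg (Local.toSeries R L) heq
    rw [hps, hmono] at h1
    simp only [map_mul, map_pow, hCc, hφ] at h1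
    rw [mul_pow, ← map_pow, hγ, div_pow, ← mul_div_assoc, div_eq_iff (pow_ne_zero n hY'), h1, hu₀]
    simp only [map_mul, mul_pow]
    ring

end Fermat.Agent.Carayol
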