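import Fermat.Agent.CarayolReduction.Core
import Fermat.Agent.Carayol.Local.Divisible
import Fermat.Agent.Conn.SheetsConsistent
import Fermat.Agent.Carayol.EngineInputs
import Fermat.Agent.Carayol.BaseGeneric
import Fermat.Agent.CarayolFF.Descend

/-!
# The finite level theorem from the three-component model

`exists_pow_eq_of_model` assembles the normalisation on the three components, local divisibility
away from `q` and the root extraction engine into the statement on functions of level `q²N`.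
-/

set_option autoImplicit false

noncomputable section

open ModularCurve AlgebraicCurve
open Fermat.Agent.Conn (ThreeSheet)
open Fermat.Agent.CarayolReduction (dilHom nmAlong flipEquiv)

namespace Fermat.Agent.Carayol

local notation "Qb" => AlgebraicClosure ℚ

variable {A : ValuationSubring Qb} {q : ℕ} {M : ℕ} [NeZero M]

omit [NeZero M] in
theorem leadCoeff_mem_inertiaField (y : levelField (inertiaField A) M) :
    CarayolReduction.leadCoeff (Local.levelToBar M A y) ∈ inertiaField A := by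
  rw [CarayolReduction.leadCoeff, Local.coe_levelToBar, HahnSeries.leadingCoeff_eq]
  exact CarayolFF.coeff_mem_of_mem_levelField y.2 _

/-- A nonzero constant of the inertia field is a power of `q` times a unit of `W`. -/
theorem exists_zpow_unit (hA : A.LiesOverPrime q) (hq : q.Prime) {c : Qb}
    (hc : c ∈ inertiaField A) (hc0 : c ≠ 0) :
    ∃ (j : ℤ) (u : unramInt A), IsUnit u ∧ c = (q : Qb) ^ j * (u : Qb) := by
  have hq0 : (q : Qb) ≠ 0 := Nat.cast_ne_zero.mpr hq.ne_zero
  have key : ∀ x : Qb, x ∈ inertiaField A → x ≠ 0 → x ∈ A →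
      ∃ (j : ℤ) (u : unramInt A), IsUnit u ∧ x = (q : Qb) ^ j * (u : Qb) := by
    intro x hx hx0 hxA
    have hxW : x ∈ unramInt A :=
      mem_unramInt_iff.mpr ⟨hxA, Local.mem_inertiaField_iff.mp hx⟩
    obtain ⟨n, u, hu⟩ := Local.exists_eq_pow_mul hA hq (x := ⟨x, hxW⟩)
      fun h => hx0 (congrArg Subtype.val h)
    exact ⟨n, u, u.isUnit, by simpa using congrArg Subtype.val hu⟩
  rcases A.mem_or_inv_mem c with h | h
  · exact key c hc hc0 h
  · obtain ⟨j, u, hu, e⟩ := key c⁻¹ (inv_mem hc) (inv_ne_zero hc0) h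
    refine ⟨-j, (hu.unit⁻¹ : (unramInt A)ˣ), Units.isUnit _, ?_⟩
    have h1 : ((hu.unit⁻¹ : (unramInt A)ˣ) : unramInt A) * u = 1 := by simp
    have h2 : (((hu.unit⁻¹ : (unramInt A)ˣ) : unramInt A) : Qb) * (u : Qb) = 1 := by
      exact_mod_cast congrArg Subtype.val h1
    rw [← inv_inv c, e, mul_inv, ← zpow_neg, eq_inv_of_mul_eq_one_left h2]

/-- An element of the level field which is a constant times an `n`-th power over `ℚ̄` is one over
the inertia field. -/
theorem isConstPow_of_eq (hA : A.LiesOverPrime q) (hq : q.Prime) {n : ℕ} (hn : n ≠ 0)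
    {y : levelField (inertiaField A) M} (hy : y ≠ 0) {c : Qb} {G : modularFunctionFieldBar M}
    (hG : G ≠ 0) (heq : Local.levelToBar M A y = algebraMap Qb _ c * G ^ n) :
    ThreeSheet.IsConstPow (W := unramInt A) (q := q) n y := by
  set l := CarayolReduction.leadCoeff G
  have hl : l ≠ 0 := CarayolReduction.leadCoeff_ne_zero hG
  set G₁ := G * algebraMap Qb (modularFunctionFieldBar M) l⁻¹
  have hG₁l : CarayolReduction.leadCoeff G₁ = 1 := by
    rw [CarayolReduction.leadCoeff_mul, CarayolReduction.leadCoeff_algebraMap,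
      mul_inv_cancel₀ hl]
  have heq₁ : Local.levelToBar M A y = algebraMap Qb _ (c * l ^ n) * G₁ ^ n := by
    rw [heq, mul_pow, ← map_pow, inv_pow, map_mul]
    rw [show algebraMap Qb (modularFunctionFieldBar M) c * algebraMap Qb _ (l ^ n) *
        (G ^ n * algebraMap Qb _ (l ^ n)⁻¹) =
        algebraMap Qb (modularFunctionFieldBar M) c * G ^ n *
          (algebraMap Qb _ (l ^ n) * algebraMap Qb _ (l ^ n)⁻¹) by ring,
      ← map_mul, mul_inv_cancel₀ (pow_ne_zero n hl), map_one, mul_one]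
  have hlc : CarayolReduction.leadCoeff (Local.levelToBar M A y) = c * l ^ n := by
    rw [heq₁, CarayolReduction.leadCoeff_mul, CarayolReduction.leadCoeff_algebraMap,
      CarayolReduction.leadCoeff_pow, hG₁l, one_pow, mul_one]
  have hc₁ : c * l ^ n ∈ inertiaField A := hlc ▸ leadCoeff_mem_inertiaField y
  have hy' : Local.levelToBar M A y ≠ 0 := fun h =>
    hy ((Local.levelToBar M A).injective (h.trans (map_zero _).symm))
  have hc₁0 : c * l ^ n ≠ 0 := hlc ▸ CarayolReduction.leadCoeff_ne_zero hy'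
  have hfix : ∀ σ ∈ A.inertiaSubgroupIn ℚ,
      coeffMap (σ : Qb →+* Qb) (G₁ : LaurentSeries Qb) = G₁ := by
    intro σ hσ
    rw [← CarayolReduction.coe_galAct]
    congr 1
    refine CarayolReduction.eq_of_pow_eq hn ?_
      (by rw [CarayolReduction.leadCoeff_galAct, hG₁l, map_one]) hG₁l
    have hyfix : CarayolReduction.galAct M σ • Local.levelToBar M A y = Local.levelToBar M A y :=
      Subtype.ext <| by
        rw [CarayolReduction.coe_galAct, Local.coe_levelToBar]
        ext k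
        rw [coeffMap_coeff]
        exact Local.mem_inertiaField_iff.mp (CarayolFF.coeff_mem_of_mem_levelField y.2 k) σ hσ
    rw [heq₁, smul_mul', smul_pow', CarayolReduction.galAct_algebraMap,
      Local.mem_inertiaField_iff.mp hc₁ σ hσ] at hyfix
    exact mul_left_cancel₀ ((map_ne_zero _).mpr hc₁0) hyfix
  have hg : (G₁ : LaurentSeries Qb) ∈ levelField (inertiaField A) M :=
    CarayolReduction.mem_levelField_of_fixed M (A.inertiaSubgroupIn ℚ) G₁ hfix
  obtain ⟨j, u, hu, e⟩ := exists_zpow_unit hA hq hc₁ hc₁0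
  refine ⟨u, j, ⟨_, hg⟩, hu, fun h => ?_, ?_⟩
  · have hG₁0 : (G₁ : LaurentSeries Qb) = 0 := congrArg Subtype.val h
    exact mul_ne_zero hG ((map_ne_zero _).mpr (inv_ne_zero hl)) (Subtype.ext hG₁0)
  · refine (Local.levelToBar M A).injective ?_
    have hu' : Local.levelToBar M A (algebraMap (unramInt A) _ u) =
        algebraMap Qb (modularFunctionFieldBar M) (u : Qb) :=
      Subtype.ext (by
        rw [Local.coe_levelToBar, Local.coe_algebraMap_level]
        exact (algebraMap_laurentSeries_eq_single Qb _).symm)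
    have hg' : Local.levelToBar M A ⟨_, hg⟩ = G₁ := Subtype.ext rfl
    rw [map_mul, map_mul, map_zpow₀, map_natCast, map_pow, hu', hg', heq₁, e, map_mul, map_zpow₀,
      map_natCast]
    ring

section Norms

variable {N L : ℕ} [NeZero q] [NeZero N] [NeZero L]

/-- A norm condition along `f(t) ↦ f(t^q)` turns into one along the inclusion for the flipped
function. -/
theorem exists_nmAlong_flip (hq : q.Prime) (hqN : ¬ q ∣ N) (h₁ : q * N * 1 ∣ q ^ 2 * N)
    (h₂ : q * N * q ∣ q ^ 2 * N) {n : ℕ} {z : modularFunctionFieldBar (q ^ 2 * N)}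
    (hz : ∃ (c : Qb) (g : modularFunctionFieldBar (q * N)), g ≠ 0 ∧ c ≠ 0 ∧
      nmAlong (dilHom (q * N) (q ^ 2 * N) q h₂) z = algebraMap Qb _ c * g ^ n) :
    ∃ (c : Qb) (g : modularFunctionFieldBar (q * N)), g ≠ 0 ∧ c ≠ 0 ∧
      nmAlong (dilHom (q * N) (q ^ 2 * N) 1 h₁) (flipEquiv hq hqN z) =
        algebraMap Qb _ c * g ^ n := by
  obtain ⟨c, g, hg, hc, e⟩ := hz
  set φ := dilHom (q * N) (q ^ 2 * N) 1 h₁
  set ψ := dilHom (q * N) (q ^ 2 * N) q h₂
  let w : modularFunctionFieldBar (q ^ 2 * N) →ₐ[Qb] modularFunctionFieldBar (q ^ 2 * N) :=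
    (flipEquiv hq hqN).toAlgHom
  let v : modularFunctionFieldBar (q * N) →ₐ[Qb] modularFunctionFieldBar (q * N) :=
    (AlgEquiv.ofInjectiveField φ).symm.toAlgHom.comp ((w.comp ψ).codRestrict φ.range fun x =>
      (CarayolReduction.dilHom_mem_range hq hqN h₁ h₂ x).2)
  have hsq : ∀ x, w (ψ x) = φ (v x) := fun x => by
    have h := (AlgEquiv.ofInjectiveField φ).apply_symm_apply
      ⟨w (ψ x), (CarayolReduction.dilHom_mem_range hq hqN h₁ h₂ x).2⟩
    exact (congrArg Subtype.val h).symm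
  have key := CarayolReduction.nmAlong_comm ψ φ v w hsq
    (Hecke.finiteAlong_of_isFunctionField ψ) (Hecke.finiteAlong_of_isFunctionField φ)
    ((CarayolReduction.finrank_dilHom_q hq hqN rfl rfl h₂).trans
      (CarayolReduction.finrank_dilHom_one hq hqN rfl rfl h₁).symm)
    (top_unique fun x _ => IntermediateField.subset_adjoin Qb _
      (Or.inl ⟨(flipEquiv hq hqN).symm x, (flipEquiv hq hqN).apply_symm_apply x⟩)) z
  refine ⟨c, v g, (_root_.map_ne_zero v).mpr hg, hc, ?_⟩
  rw [show flipEquiv hq hqN z = w z from rfl, key, e, map_mul, map_pow, AlgHom.commutes]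

variable {R Rb : Type} [CommRing R] [Algebra (unramInt A) R] [CommRing Rb]
  [Algebra (unramInt A) Rb] [IsLocalRing (unramInt A)] [IsNoetherianRing (unramInt A)]
  (T : ThreeSheet (unramInt A) (levelField (inertiaField A) M) R Rb q)

omit [NeZero q] [IsNoetherianRing (unramInt A)] in
theorem levelToBar_NAF (h₁ : L * 1 ∣ M)
    (hNA : ∀ b : T.B, Local.levelToBar M A (T.NA b) =
      dilHom L M 1 h₁ (nmAlong (dilHom L M 1 h₁) (Local.levelToBar M A b)))
    (x : levelField (inertiaField A) M) :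
    Local.levelToBar M A (T.NAF x) =
      dilHom L M 1 h₁ (nmAlong (dilHom L M 1 h₁) (Local.levelToBar M A x)) := by
  obtain ⟨b, hb, hbx⟩ := T.frac x
  have h0 : Local.levelToBar M A (T.NA b : levelField (inertiaField A) M) ≠ 0 := fun h =>
    T.NA_ne_zero hb ((Local.levelToBar M A).injective (h.trans (map_zero _).symm))
  rw [T.NAF_eq (c := ⟨_, hbx⟩) hb rfl, map_div₀, div_eq_iff h0, hNA, hNA]
  simp only [map_mul]
  ring

omit [NeZero q] [IsNoetherianRing (unramInt A)] in
theorem levelToBar_wF (σ : modularFunctionFieldBar M →ₐ[Qb] modularFunctionFieldBar M)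
    (hw : ∀ b : T.B, Local.levelToBar M A (T.w b) = σ (Local.levelToBar M A b))
    (x : levelField (inertiaField A) M) :
    Local.levelToBar M A (T.wF x) = σ (Local.levelToBar M A x) := by
  obtain ⟨b, hb, hbx⟩ := T.frac x
  have h0 : Local.levelToBar M A (T.w b : levelField (inertiaField A) M) ≠ 0 := fun h =>
    T.w_ne hb ((Local.levelToBar M A).injective (h.trans (map_zero _).symm))
  rw [T.wF_eq (c := ⟨_, hbx⟩) hb rfl, map_div₀, div_eq_iff h0, hw, hw]
  simp only [map_mul]
  ring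

omit [NeZero q] [IsNoetherianRing (unramInt A)] in
theorem isConstPow_NAF (hA : A.LiesOverPrime q) (hq : q.Prime) (h₁ : L * 1 ∣ M)
    (hNA : ∀ b : T.B, Local.levelToBar M A (T.NA b) =
      dilHom L M 1 h₁ (nmAlong (dilHom L M 1 h₁) (Local.levelToBar M A b)))
    {n : ℕ} (hn : n ≠ 0) {x : levelField (inertiaField A) M} (hx : x ≠ 0)
    (hnorm : ∃ (c : Qb) (g : modularFunctionFieldBar L), g ≠ 0 ∧ c ≠ 0 ∧
      nmAlong (dilHom L M 1 h₁) (Local.levelToBar M A x) = algebraMap Qb _ c * g ^ n) :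
    ThreeSheet.IsConstPow (W := unramInt A) (q := q) n (T.NAF x) := by
  obtain ⟨c, g, hg, -, e⟩ := hnorm
  refine isConstPow_of_eq hA hq hn (T.NAF_ne_zero hx) (c := c) (G := dilHom L M 1 h₁ g)
    ((_root_.map_ne_zero _).mpr hg) ?_
  rw [levelToBar_NAF T h₁ hNA, e, map_mul, map_pow, AlgHom.commutes]

end Norms

/-- The root extraction engine, for a subalgebra equal to the model. -/
theorem exists_root_of_engine (hA : A.LiesOverPrime q) (hq : q.Prime)
    {B : Subalgebra (unramInt A) (levelField (inertiaField A) M)} (hB : B = Local.modelAlg M A)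
    {n : ℕ} (hn : 0 < n) (hqn : ¬ q ∣ n) (Pi : Fin 3 → Ideal B)
    (hker : ∀ ι : Emb M, ∃ j, ∀ x : B,
      (∀ k : ℤ, (ι.1 (Local.levelToBar M A x)).coeff k ∈ A.nonunits) ↔ x ∈ Pi j)
    (hcomp : Conn.Components B (q : unramInt A) Pi) {f : levelField (inertiaField A) M}
    (hf : f ≠ 0)
    (hord : ∀ v : Place Qb (modularFunctionFieldBar M), (n : ℤ) ∣ v.ord (Local.levelToBar M A f))
    {G : Fin 3 → levelField (inertiaField A) M}
    (hC : Conn.Consistent B (q : unramInt A) Pi f n G) :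
    ∃ g : modularFunctionFieldBar M, g ^ n = Local.levelToBar M A f := by
  subst hB
  obtain ⟨g, hg⟩ := exists_root_of_consistent hA hq hn hqn Pi hker hcomp f hf
    (fun p _ hqp => Local.exists_mul_eq_mul_pow M hA hq hn f hord p hqp) G hC
  exact ⟨g, Subtype.ext (by rw [SubmonoidClass.coe_pow, Local.coe_levelToBar]; exact hg)⟩

section Assembly

variable {N : ℕ} [NeZero q] [NeZero N]

/-- **The finite level theorem at one place**, from the three-component model, the consistency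
of the residues and the engine. -/
theorem exists_pow_eq_of_model {R Rb : Type} [CommRing R] [Algebra (unramInt A) R] [CommRing Rb]
    [Algebra (unramInt A) Rb] [IsLocalRing (unramInt A)] [IsNoetherianRing (unramInt A)]
    (hA : A.LiesOverPrime q) (hq : q.Prime) (hqN : ¬ q ∣ N)
    (h₁ : q * N * 1 ∣ q ^ 2 * N) (h₂ : q * N * q ∣ q ^ 2 * N)
    (T : ThreeSheet (unramInt A) (levelField (inertiaField A) (q ^ 2 * N)) R Rb q)
    (hB : T.B = Local.modelAlg (q ^ 2 * N) A)
    (hNA : ∀ b : T.B, Local.levelToBar (q ^ 2 * N) A (T.NA b) =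
      dilHom (q * N) (q ^ 2 * N) 1 h₁
        (nmAlong (dilHom (q * N) (q ^ 2 * N) 1 h₁) (Local.levelToBar (q ^ 2 * N) A b)))
    (hw : ∀ b : T.B, Local.levelToBar (q ^ 2 * N) A (T.w b) =
      flipEquiv hq hqN (Local.levelToBar (q ^ 2 * N) A b))
    (hker : ∀ ι : Emb (q ^ 2 * N), ∃ j, ∀ x : T.B,
      (∀ k : ℤ, (ι.1 (Local.levelToBar (q ^ 2 * N) A x)).coeff k ∈ A.nonunits) ↔
        x ∈ RingHom.ker (T.r j))
    {n : ℕ} (hn : 0 < n) (hqn : ¬ q ∣ n)
    {f : modularFunctionFieldBar (q ^ 2 * N)} (hf : f ≠ 0)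
    (hfE : (f : LaurentSeries Qb) ∈ levelField (inertiaField A) (q ^ 2 * N))
    (hord : ∀ v : Place Qb (modularFunctionFieldBar (q ^ 2 * N)), (n : ℤ) ∣ v.ord f)
    (hfA : ∃ (c : Qb) (g : modularFunctionFieldBar (q * N)), g ≠ 0 ∧ c ≠ 0 ∧
      nmAlong (dilHom (q * N) (q ^ 2 * N) 1 h₁) f = algebraMap Qb _ c * g ^ n)
    (hfB : ∃ (c : Qb) (g : modularFunctionFieldBar (q * N)), g ≠ 0 ∧ c ≠ 0 ∧
      nmAlong (dilHom (q * N) (q ^ 2 * N) q h₂) f = algebraMap Qb _ c * g ^ n) :
    ∃ (c : Qb) (h : modularFunctionFieldBar (q ^ 2 * N)),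
      f ^ ((q + 1) * (q - 1) * (q - 1) * (q ^ 2 - 1)) = algebraMap Qb _ c * h ^ n := by
  set m := (q + 1) * (q - 1) * (q - 1) * (q ^ 2 - 1)
  set x : levelField (inertiaField A) (q ^ 2 * N) := ⟨_, hfE⟩
  have hxf : Local.levelToBar (q ^ 2 * N) A x = f := Subtype.ext rfl
  have hx : x ≠ 0 := fun h => hf (by rw [← hxf, h, map_zero])
  have hA₁ := isConstPow_NAF T hA hq h₁ hNA hn.ne' hx (by rw [hxf]; exact hfA)
  have hwx : Local.levelToBar (q ^ 2 * N) A (T.wF x) = flipEquiv hq hqN f := by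
    rw [levelToBar_wF T (flipEquiv hq hqN).toAlgHom hw, hxf]
    rfl
  have hA₂ := isConstPow_NAF T hA hq h₁ hNA hn.ne' (T.wF_ne_zero hx)
    (by rw [hwx]; exact exists_nmAlong_flip hq hqN h₁ h₂ hfB)
  obtain ⟨ζ, hζ, hζu⟩ := BaseGeneric.exists_primitiveRoot_unramInt hA hq hqn
  have hroot : ∀ a : IsLocalRing.ResidueField (unramInt A), ∃ b, b ^ n = a := fun a => by
    obtain ⟨a, rfl⟩ := IsLocalRing.residue_surjective a
    obtain ⟨b, hb⟩ := BaseGeneric.exists_residue_root hA hq hn a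
    refine ⟨IsLocalRing.residue _ b, ?_⟩
    rw [← map_pow, ← sub_eq_zero, ← map_sub, IsLocalRing.residue_eq_zero_iff, T.maximal_W]
    exact Ideal.mem_span_singleton.mpr hb
  have hdiv : ∀ p : Ideal T.B, p.IsPrime → (q : T.B) ∉ p →
      ∃ (g : levelField (inertiaField A) (q ^ 2 * N)) (s t : T.B), s ∉ p ∧ t ∉ p ∧
        (s : levelField (inertiaField A) (q ^ 2 * N)) * x =
          (t : levelField (inertiaField A) (q ^ 2 * N)) * g ^ n := by
    rw [hB]
    intro p hp hqp
    exact Local.exists_mul_eq_mul_pow (q ^ 2 * N) hA hq hn x (fun v => by rw [hxf]; exact hord v)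
      p hqp
  obtain ⟨k, y, G, hy, hC⟩ := T.exists_consistent hn (hq.coprime_iff_not_dvd.mpr hqn)
    hζ.pow_eq_one hζu hroot hx hdiv hA₁ hA₂
  have hy' : Local.levelToBar (q ^ 2 * N) A y ≠ 0 := fun h =>
    hy ((Local.levelToBar (q ^ 2 * N) A).injective (h.trans (map_zero _).symm))
  have hqb : (q : Qb) ^ k ≠ 0 := zpow_ne_zero k (Nat.cast_ne_zero.mpr hq.ne_zero)
  have himage : Local.levelToBar (q ^ 2 * N) A
      (x ^ m * (q : levelField (inertiaField A) (q ^ 2 * N)) ^ k * y ^ n) =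
      f ^ m * algebraMap Qb _ ((q : Qb) ^ k) * Local.levelToBar (q ^ 2 * N) A y ^ n := by
    rw [map_mul, map_mul, map_pow, map_pow, hxf, map_zpow₀, map_natCast, map_zpow₀, map_natCast]
  have hf' : x ^ m * (q : levelField (inertiaField A) (q ^ 2 * N)) ^ k * y ^ n ≠ 0 :=
    mul_ne_zero (mul_ne_zero (pow_ne_zero _ hx) (zpow_ne_zero _ T.q_ne)) (pow_ne_zero _ hy)
  obtain ⟨g, hg⟩ := exists_root_of_engine hA hq hB hn hqn _ hker T.components hf'
    (fun v => by
      rw [himage, v.ord_mul (mul_ne_zero (pow_ne_zero _ hf) ((_root_.map_ne_zero _).mpr hqb))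
          (pow_ne_zero _ hy'), v.ord_mul (pow_ne_zero _ hf) ((_root_.map_ne_zero _).mpr hqb),
        FunctionField.ord_pow, FunctionField.ord_pow, FunctionField.ord_algebraMap, add_zero]
      exact dvd_add ((hord v).mul_left _) (dvd_mul_right _ _))
    hC
  refine ⟨((q : Qb) ^ k)⁻¹, g / Local.levelToBar (q ^ 2 * N) A y, ?_⟩
  have hc : algebraMap Qb (modularFunctionFieldBar (q ^ 2 * N)) ((q : Qb) ^ k) ≠ 0 :=
    (_root_.map_ne_zero _).mpr hqb
  rw [div_pow, hg, himage, map_inv₀, mul_div_assoc, div_self (pow_ne_zero n hy'), mul_one,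
    mul_comm (f ^ m), inv_mul_cancel_left₀ hc]

/-- `FiniteLevel` from its form at the literal levels `q²N`, `qN` for a fixed exponent. -/
theorem finiteLevel_of_forall (hq : q.Prime) {lam : ℕ} (hlam : lam.Prime) (hql : q ≠ lam) {m : ℕ}
    (hm : 0 < m)
    (h : ∀ (h₁ : q * N * 1 ∣ q ^ 2 * N) (h₂ : q * N * q ∣ q ^ 2 * N) (A : ValuationSubring Qb),
      A.LiesOverPrime q → ∀ n : ℕ, 0 < n → ¬ q ∣ n →
      ∀ f : modularFunctionFieldBar (q ^ 2 * N), f ≠ 0 →
        (f : LaurentSeries Qb) ∈ levelField (inertiaField A) (q ^ 2 * N) →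
        (∀ v : Place Qb (modularFunctionFieldBar (q ^ 2 * N)), (n : ℤ) ∣ v.ord f) →
        (∃ (c : Qb) (g : modularFunctionFieldBar (q * N)), g ≠ 0 ∧ c ≠ 0 ∧
          nmAlong (dilHom (q * N) (q ^ 2 * N) 1 h₁) f = algebraMap Qb _ c * g ^ n) →
        (∃ (c : Qb) (g : modularFunctionFieldBar (q * N)), g ≠ 0 ∧ c ≠ 0 ∧
          nmAlong (dilHom (q * N) (q ^ 2 * N) q h₂) f = algebraMap Qb _ c * g ^ n) →
        ∃ (c : Qb) (h : modularFunctionFieldBar (q ^ 2 * N)),
          f ^ m = algebraMap Qb _ c * h ^ n) :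
    CarayolReduction.FiniteLevel q N lam := by
  intro M L _ _ hM hL
  subst hM hL
  intro h₁ h₂
  refine ⟨m, hm, fun A hA k f hf hfE hord hfA hfB => ?_⟩
  refine h h₁ h₂ A hA (lam ^ k) (pow_pos hlam.pos k) (fun hdvd => ?_) f hf hfE hord hfA hfB
  exact hql ((Nat.prime_dvd_prime_iff_eq hq hlam).mp (hq.dvd_of_dvd_pow hdvd))

end Assembly

end Fermat.Agent.Carayol
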