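import Fermat.Agent.Carayol.FiniteLevel
import Fermat.Agent.CarayolFF.Compat
import Fermat.Agent.CarayolFF.EmbKernel
import Fermat.Agent.CarayolFF.NormOrd

/-!
# The three-component structure on the model of level `q²N`

`threeSheet` assembles `Conn.ThreeSheet` on `Local.modelAlg (q²N) A`, with base the model of level
`N` and its reduction, from the data of the base level and of the supersingular points.
-/

set_option autoImplicit false

noncomputable section

open ModularCurve
open Fermat.Agent.CarayolFF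
open Fermat.Agent.CarayolReduction (dilHom nmAlong flipEquiv)

namespace Fermat.Agent.Carayol

local notation "Qb" => AlgebraicClosure ℚ

/-- The constants of the model. -/
instance algebraModel (A : ValuationSubring Qb) (M : ℕ) [NeZero M] :
    Algebra (unramInt A) (model A M) := (constModel A M).toAlgebra

/-- `W` maps to the model as constants. -/
theorem coe_algebraMap_model {A : ValuationSubring Qb} {M : ℕ} [NeZero M] (c : unramInt A) :
    ((algebraMap (unramInt A) (model A M) c : model A M) : modularFunctionFieldBar M) =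
      algebraMap Qb _ (c : Qb) := rfl

/-- The two descriptions of the model. -/
def toModel (A : ValuationSubring Qb) (M : ℕ) [NeZero M] :
    Local.modelAlg M A ≃ₐ[unramInt A] model A M where
  toFun x := ⟨Local.levelToBar M A x, Local.mem_model_iff_mem_modelSubring.mpr x.2⟩
  invFun x := ⟨⟨(x : modularFunctionFieldBar M), ((mem_model_iff A M).mp x.2).1⟩,
    Local.mem_model_iff_mem_modelSubring.mp x.2⟩
  left_inv _ := rfl
  right_inv _ := rfl
  map_mul' _ _ := rfl
  map_add' _ _ := rfl
  commutes' c := by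
    refine Subtype.ext (Subtype.ext ?_)
    show ((algebraMap (unramInt A) (levelField (inertiaField A) M) c :
      levelField (inertiaField A) M) : LaurentSeries Qb) = _
    rw [Local.coe_algebraMap_level, coe_algebraMap_model]
    exact (algebraMap_laurentSeries_eq_single Qb (c : Qb)).symm

/-- `toModel` does not change the underlying function. -/
theorem coe_toModel {A : ValuationSubring Qb} {M : ℕ} [NeZero M] (x : Local.modelAlg M A) :
    ((toModel A M x : model A M) : modularFunctionFieldBar M) = Local.levelToBar M A x := rfl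

section Maps

variable (A : ValuationSubring Qb) (q N : ℕ) [NeZero q] [NeZero N]

/-- `x(τ) ↦ x(qⁱτ)` into the model of level `q²N`. -/
def eModel (i : Fin 3) : model A N →ₐ[unramInt A] Local.modelAlg (q ^ 2 * N) A :=
  (toModel A (q ^ 2 * N)).symm.toAlgHom.comp
    { toRingHom := raiseModel A q N i
      commutes' := fun c => Subtype.ext ((raiseHom q N i).commutes (c : Qb)) }

/-- `eModel` is `raiseModel` under the identification `toModel`. -/
theorem toModel_eModel (i : Fin 3) (x : model A N) :
    toModel A (q ^ 2 * N) (eModel A q N i x) = raiseModel A q N i x :=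
  (toModel A (q ^ 2 * N)).apply_symm_apply _

variable {A q N} (hA : A.LiesOverPrime q) (hq : q.Prime) (hqN : ¬ q ∣ N)

/-- The Atkin–Lehner involution as an endomorphism of the model over its constants. -/
def atkinAlg : model A (q ^ 2 * N) →ₐ[unramInt A] model A (q ^ 2 * N) where
  toRingHom := atkinModel A hq hqN
  commutes' c := Subtype.ext ((atkin hq hqN).commutes (c : Qb))

/-- The Atkin–Lehner involution of the model. -/
def wModel : Local.modelAlg (q ^ 2 * N) A ≃ₐ[unramInt A] Local.modelAlg (q ^ 2 * N) A :=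
  (toModel A (q ^ 2 * N)).trans <|
    (AlgEquiv.ofAlgHom (atkinAlg hq hqN) (atkinAlg hq hqN)
      (AlgHom.ext fun x => atkinModel_atkinModel hq hqN x)
      (AlgHom.ext fun x => atkinModel_atkinModel hq hqN x)).trans
    (toModel A (q ^ 2 * N)).symm

/-- `wModel` is the Atkin–Lehner involution under the identification `toModel`. -/
theorem toModel_wModel (x : Local.modelAlg (q ^ 2 * N) A) :
    toModel A (q ^ 2 * N) (wModel hq hqN x) = atkinModel A hq hqN (toModel A (q ^ 2 * N) x) :=
  (toModel A (q ^ 2 * N)).apply_symm_apply _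

/-- The norm to level `qN` on the model. -/
def naModel : Local.modelAlg (q ^ 2 * N) A →* Local.modelAlg (q ^ 2 * N) A :=
  (toModel A (q ^ 2 * N)).symm.toAlgHom.toRingHom.toMonoidHom.comp
    ((normLevel A hq hqN).comp (toModel A (q ^ 2 * N)).toAlgHom.toRingHom.toMonoidHom)

theorem toModel_naModel (x : Local.modelAlg (q ^ 2 * N) A) :
    toModel A (q ^ 2 * N) (naModel hq hqN x) = normLevel A hq hqN (toModel A (q ^ 2 * N) x) :=
  (toModel A (q ^ 2 * N)).apply_symm_apply _

/-- The reductions on the three components. -/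
def rModel [IsIntegrallyClosed (redBase A N)] (i : Fin 3) :
    Local.modelAlg (q ^ 2 * N) A →ₐ[unramInt A] redBase A N :=
  AlgHom.comp
    ({ toRingHom := resBase hA hq hqN i
       commutes' := fun c => Subtype.ext (by
        show (resBase hA hq hqN i (constModel A (q ^ 2 * N) c) :
          LaurentSeries (IsLocalRing.ResidueField A)) = _
        rw [coe_resBase]
        exact resHom_constModel hA hq hqN i c) } :
      model A (q ^ 2 * N) →ₐ[unramInt A] redBase A N)
    (toModel A (q ^ 2 * N)).toAlgHom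

/-- `rModel` is the residue map `resHom`. -/
theorem coe_rModel [IsIntegrallyClosed (redBase A N)] (i : Fin 3)
    (x : Local.modelAlg (q ^ 2 * N) A) :
    (rModel hA hq hqN i x : LaurentSeries (IsLocalRing.ResidueField A)) =
      resHom hA hq hqN i (toModel A (q ^ 2 * N) x) := rfl

/-- `rModel` and `resHom` have the same kernel. -/
theorem rModel_eq_zero_iff [IsIntegrallyClosed (redBase A N)] (i : Fin 3)
    (x : Local.modelAlg (q ^ 2 * N) A) :
    rModel hA hq hqN i x = 0 ↔ resHom hA hq hqN i (toModel A (q ^ 2 * N) x) = 0 := by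
  rw [Subtype.ext_iff, coe_rModel]
  rfl

/-- Reduction of the model of level `N` as an algebra map. -/
def r0Model : model A N →ₐ[unramInt A] redBase A N where
  toRingHom := redModel hA hq
  commutes' c := Subtype.ext (by
    show (redModel hA hq (algebraMap (unramInt A) (model A N) c) :
      LaurentSeries (IsLocalRing.ResidueField A)) = _
    rw [coe_redModel, coe_algebraMap_redBase]
    refine (CarayolFF.redSeries_congr ?_ _ ((resData A).C_mem_intSeries
      (mem_unramInt_iff.mp c.2).1)).trans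
      ((resData A).redSeries_C ⟨(c : Qb), (mem_unramInt_iff.mp c.2).1⟩ _)
    rw [coe_algebraMap_model]
    exact algebraMap_laurentSeries_eq_single Qb (c : Qb))

omit [NeZero q] in
theorem r0Model_apply (x : model A N) : r0Model hA hq x = redModel hA hq x := rfl

end Maps

section Generation

variable {A : ValuationSubring Qb} {q N : ℕ} [NeZero q] [NeZero N]

/-- The subalgebra generated by the images of the three maps from level `N`. -/
abbrev genAlg (A : ValuationSubring Qb) (q N : ℕ) [NeZero q] [NeZero N] :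
    Subalgebra (unramInt A) (Local.modelAlg (q ^ 2 * N) A) :=
  Algebra.adjoin (unramInt A) (⋃ i, Set.range (eModel A q N i))

theorem jModel_mem_genAlg : Local.jModel (q ^ 2 * N) A ∈ genAlg A q N := by
  refine Algebra.subset_adjoin (Set.mem_iUnion.mpr ⟨0, ⟨jElem N, jElem_mem_model A N⟩, ?_⟩)
  refine (toModel A (q ^ 2 * N)).injective (Subtype.ext (Subtype.ext ?_))
  rw [toModel_eModel]
  exact (qExpand_congr (pow_zero q) _).trans (qExpand_one_apply _)

/-- For `d ∣ M` the function `j(dτ)` lies in the model of level `M`. -/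
theorem coeffEmb_qExpand_jq_mem_model (A : ValuationSubring Qb) {M d : ℕ} [NeZero M] [NeZero d]
    (hd : d ∣ M) :
    (⟨coeffEmb Qb (qExpand ℚ d jq),
      coeffEmb_mem_laurentBaseChange Qb (jqd_mem_full M hd)⟩ : modularFunctionFieldBar M) ∈
      model A M := by
  refine mem_model_of_integral (Subfield.subset_closure (Or.inr ⟨_, ⟨d, inferInstance, hd, rfl⟩,
    rfl⟩)) ?_
  show IsIntegral _ (coeffEmb Qb (qExpand ℚ d jq))
  rw [coeffEmb, ModularFunctionField.coeffMap_qExpand']
  exact isIntegral_qExpand_jBar _ d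

/-- Every element of the level field is a quotient of elements of `genAlg`. -/
theorem exists_mul_mem_genAlg (hA : A.LiesOverPrime q) (hq : q.Prime) {z : LaurentSeries Qb}
    (hz : z ∈ levelField (inertiaField A) (q ^ 2 * N)) :
    ∃ a ∈ genAlg A q N, ∃ b ∈ genAlg A q N, b ≠ 0 ∧
      z * ((b : levelField (inertiaField A) (q ^ 2 * N)) : LaurentSeries Qb) =
        ((a : levelField (inertiaField A) (q ^ 2 * N)) : LaurentSeries Qb) := by
  have hq0 : (q : Local.modelAlg (q ^ 2 * N) A) ≠ 0 := fun h => by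
    have := congrArg Subtype.val h
    push_cast at this
    exact Local.natCast_ne_zero_level (q ^ 2 * N) hq this
  induction hz using Subfield.closure_induction with
  | mem y hy =>
    rcases hy with ⟨c, hc, rfl⟩ | ⟨_, ⟨e, he0, he, rfl⟩, rfl⟩
    · obtain ⟨k, hk⟩ := Local.exists_mul_pow_mem hA hq c
      have hcW : c * (q : Qb) ^ k ∈ unramInt A := mem_unramInt_iff.mpr ⟨hk, fun σ hσ => by
        rw [map_mul, map_pow, map_natCast, Local.mem_inertiaField_iff.mp hc σ hσ]⟩
      refine ⟨algebraMap (unramInt A) _ ⟨_, hcW⟩, Subalgebra.algebraMap_mem _ _,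
        (q : Local.modelAlg (q ^ 2 * N) A) ^ k, pow_mem (natCast_mem _ q) k,
        pow_ne_zero k hq0, ?_⟩
      show _ = ((algebraMap (unramInt A) (levelField (inertiaField A) (q ^ 2 * N)) ⟨_, hcW⟩ :
        levelField (inertiaField A) (q ^ 2 * N)) : LaurentSeries Qb)
      rw [Local.coe_algebraMap_level, map_mul, map_pow, map_natCast, Local.algebraMap_eq_C]
      push_cast
      rfl
    · obtain ⟨a, d, ha, hd, rfl⟩ := exists_dvd_and_dvd_of_dvd_mul he
      obtain ⟨i, hi, rfl⟩ := (Nat.dvd_prime_pow hq).mp ha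
      have : NeZero d := ⟨right_ne_zero_of_mul (NeZero.ne (q ^ i * d))⟩
      refine ⟨eModel A q N ⟨i, by omega⟩ ⟨_, coeffEmb_qExpand_jq_mem_model A hd⟩,
        Algebra.subset_adjoin (Set.mem_iUnion.mpr ⟨_, _, rfl⟩), 1, one_mem _, one_ne_zero, ?_⟩
      rw [OneMemClass.coe_one, OneMemClass.coe_one, mul_one]
      show _ = ((raiseModel A q N ⟨i, by omega⟩ ⟨_, coeffEmb_qExpand_jq_mem_model A hd⟩ :
        model A (q ^ 2 * N)) : modularFunctionFieldBar (q ^ 2 * N)).1
      show _ = qExpand Qb (q ^ i) (coeffEmb Qb (qExpand ℚ d jq))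
      rw [coeffEmb, ModularFunctionField.coeffMap_qExpand',
        ModularFunctionField.coeffMap_qExpand', qExpand_qExpand]
  | one => exact ⟨1, one_mem _, 1, one_mem _, one_ne_zero, one_mul _⟩
  | add x y _ _ hx hy =>
    obtain ⟨a, ha, b, hb, hb0, e⟩ := hx
    obtain ⟨a', ha', b', hb', hb0', e'⟩ := hy
    refine ⟨a * b' + a' * b, add_mem (mul_mem ha hb') (mul_mem ha' hb), b * b', mul_mem hb hb',
      mul_ne_zero hb0 hb0', ?_⟩
    push_cast
    rw [← e, ← e']
    ring
  | neg x _ hx =>
    obtain ⟨a, ha, b, hb, hb0, e⟩ := hx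
    exact ⟨-a, neg_mem ha, b, hb, hb0, by push_cast; rw [← e, neg_mul]⟩
  | inv x _ hx =>
    obtain ⟨a, ha, b, hb, hb0, e⟩ := hx
    rcases eq_or_ne x 0 with rfl | hx0
    · exact ⟨0, zero_mem _, 1, one_mem _, one_ne_zero, by simp⟩
    refine ⟨b, hb, a, ha, fun h => ?_, by rw [← e, inv_mul_cancel_left₀ hx0]⟩
    rw [h] at e
    simp only [ZeroMemClass.coe_zero, mul_eq_zero, hx0, false_or] at e
    exact hb0 (Subtype.ext (Subtype.ext e))
  | mul x y _ _ hx hy =>
    obtain ⟨a, ha, b, hb, hb0, e⟩ := hx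
    obtain ⟨a', ha', b', hb', hb0', e'⟩ := hy
    refine ⟨a * a', mul_mem ha ha', b * b', mul_mem hb hb', mul_ne_zero hb0 hb0', ?_⟩
    push_cast
    rw [← e, ← e']
    ring

theorem gen_frac_model (hA : A.LiesOverPrime q) (hq : q.Prime)
    (x : Local.modelAlg (q ^ 2 * N) A) :
    ∃ c ∈ genAlg A q N, c ≠ 0 ∧ c * x ∈ genAlg A q N := by
  obtain ⟨a, ha, b, hb, hb0, e⟩ := exists_mul_mem_genAlg hA hq (x.1.2)
  refine ⟨b, hb, hb0, ?_⟩
  have : b * x = a := Subtype.ext (Subtype.ext (by rw [← e]; push_cast; ring))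
  rwa [this]

end Generation

/-- The data of the base level. -/
structure BaseData (A : ValuationSubring Qb) (q N : ℕ) [NeZero q] [NeZero N]
    (hA : A.LiesOverPrime q) (hq : q.Prime) : Type where
  /-- The coordinate. -/
  h : model A N
  frob_mem : ∀ y ∈ redBase A N, frobSeries A q y ∈ redBase A N
  frob_pow : ∀ y ∈ redBase A N, ∃ x ∈ redBase A N, frobSeries A q x = y ^ q
  frob_h : frobSeries A q (redModel hA hq h : LaurentSeries (IsLocalRing.ResidueField A)) =
    (redModel hA hq h : LaurentSeries (IsLocalRing.ResidueField A)) ^ q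
  h_ne_const : ∀ a : unramInt A, redModel hA hq h ≠ algebraMap (unramInt A) (redBase A N) a
  unramified : ∀ P : Ideal (redBase A N), P.IsMaximal → ∀ a : unramInt A,
    redModel hA hq (h - algebraMap (unramInt A) (model A N) a) ∈ P → ∀ x, redModel hA hq x ∈ P →
      ∃ s, redModel hA hq s ∉ P ∧
        s * x ∈ Ideal.span {(q : model A N), h - algebraMap (unramInt A) (model A N) a}

section Base

variable {A : ValuationSubring Qb} {q N : ℕ} [NeZero q] [NeZero N]
  {hA : A.LiesOverPrime q} {hq : q.Prime}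

omit [NeZero q] [NeZero N] in
/-- The reduced base has characteristic `q`. -/
theorem natCast_eq_zero_redBase (hA : A.LiesOverPrime q) : (q : redBase A N) = 0 := by
  refine Subtype.ext ?_
  rw [Subring.coe_natCast, ZeroMemClass.coe_zero,
    ← map_natCast (HahnSeries.C : IsLocalRing.ResidueField A →+* LaurentSeries _),
    residue_natCast_self hA, map_zero]

omit [NeZero q] in
/-- The model of level `N` is of finite type over `W`. -/
theorem finiteType_model (hA : A.LiesOverPrime q) (hq : q.Prime) :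
    Algebra.FiniteType (unramInt A) (model A N) := by
  have := Local.finiteType_modelAlg N hA hq
  exact Algebra.FiniteType.equiv this (toModel A N)

/-- The reduction of the model of level `N` is a Dedekind domain. -/
theorem BaseData.isDedekindDomain (D : BaseData A q N hA hq) : IsDedekindDomain (redBase A N) := by
  have := Local.isDiscreteValuationRing_unramInt hA hq
  have := BaseGeneric.isAlgClosed_residueField_unramInt hA hq
  have := finiteType_model (N := N) hA hq
  exact BaseGeneric.isDedekindDomain_base (Local.maximalIdeal_unramInt hA hq)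
    (natCast_eq_zero_redBase hA) (r0Model hA hq) (redModel_surjective hA hq) D.h D.h_ne_const
    D.unramified

/-- The reduction of the model of level `N` is integrally closed. -/
theorem BaseData.isIntegrallyClosed (D : BaseData A q N hA hq) :
    IsIntegrallyClosed (redBase A N) := by
  have := D.isDedekindDomain
  infer_instance

/-- `t ↦ t^q` on the reduction. -/
def BaseData.frob (D : BaseData A q N hA hq) : redBase A N →ₐ[unramInt A] redBase A N where
  toRingHom := ((frobSeries A q).comp (redBase A N).subtype).codRestrict _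
    fun y => D.frob_mem y y.2
  commutes' c := Subtype.ext (by
    show frobSeries A q (algebraMap (unramInt A) (redBase A N) c : redBase A N) = _
    rw [coe_algebraMap_redBase, frobSeries, qExpand_C])

theorem BaseData.coe_frob (D : BaseData A q N hA hq) (y : redBase A N) :
    (D.frob y : LaurentSeries (IsLocalRing.ResidueField A)) =
      qExpand (IsLocalRing.ResidueField A) q (y : LaurentSeries (IsLocalRing.ResidueField A)) :=
  rfl

end Base

/-- The data at the supersingular points. -/
structure UpperData {A : ValuationSubring Qb} {q N : ℕ} [NeZero q] [NeZero N]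
    {hA : A.LiesOverPrime q} {hq : q.Prime} (hqN : ¬ q ∣ N) (D : BaseData A q N hA hq)
    [IsIntegrallyClosed (redBase A N)] : Type where
  /-- The function with divisor supported on the special fibre. -/
  u : Local.modelAlg (q ^ 2 * N) A
  u_unit : ∃ (v : Local.modelAlg (q ^ 2 * N) A) (k : ℕ),
    u * v = (q : Local.modelAlg (q ^ 2 * N) A) ^ k
  /-- The supersingular polynomial. -/
  p12 : redBase A N
  p12_ne : p12 ≠ 0
  r20_u : rModel hA hq hqN 0 u = p12 ^ q
  r11_u : rModel hA hq hqN 1 u = 0
  r02_u : rModel hA hq hqN 2 u = 0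
  e0h_ne : eModel A q N 0 D.h ≠ eModel A q N 2 D.h
  /-- The remainder in the Kronecker congruence. -/
  ρ : Polynomial (Polynomial (unramInt A))
  kronecker : (eModel A q N 1 D.h - eModel A q N 0 D.h ^ q) *
      (eModel A q N 1 D.h ^ q - eModel A q N 0 D.h) +
    (q : Local.modelAlg (q ^ 2 * N) A) *
      (ρ.map (Polynomial.aeval (eModel A q N 1 D.h)).toRingHom).eval (eModel A q N 0 D.h) = 0
  kronecker' : (eModel A q N 1 D.h - eModel A q N 2 D.h ^ q) *
      (eModel A q N 1 D.h ^ q - eModel A q N 2 D.h) +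
    (q : Local.modelAlg (q ^ 2 * N) A) *
      (ρ.map (Polynomial.aeval (eModel A q N 1 D.h)).toRingHom).eval (eModel A q N 2 D.h) = 0
  ρ_ne : ∀ P : Ideal (redBase A N), P.IsMaximal → p12 ∈ P →
    rModel hA hq hqN 0
      ((ρ.map (Polynomial.aeval (eModel A q N 1 D.h)).toRingHom).eval (eModel A q N 0 D.h)) ∉ P
  ordinary : ∃ P : Ideal (redBase A N), P.IsMaximal ∧ p12 ∉ P
  mid : ∀ P : Ideal (redBase A N), P.IsMaximal → p12 ∉ P → ∃ s b,
    rModel hA hq hqN 1 s ∉ P ∧ rModel hA hq hqN 1 b ∉ P ∧
      s * (eModel A q N 2 D.h - eModel A q N 0 D.h) ^ (q - 1) =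
        (q : Local.modelAlg (q ^ 2 * N) A) * b

section Norm

variable {A : ValuationSubring Qb} {q N : ℕ} [NeZero q] [NeZero N]
  (hA : A.LiesOverPrime q) (hq : q.Prime) (hqN : ¬ q ∣ N) [IsIntegrallyClosed (redBase A N)]

theorem rModel_symm_ne_zero_iff (i : Fin 3) (x : model A (q ^ 2 * N)) :
    rModel hA hq hqN i ((toModel A (q ^ 2 * N)).symm x) ≠ 0 ↔ resHom hA hq hqN i x ≠ 0 := by
  rw [Ne, rModel_eq_zero_iff, AlgEquiv.apply_symm_apply]

theorem resHom_toModel_ne_zero {i : Fin 3} {x : Local.modelAlg (q ^ 2 * N) A}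
    (hx : rModel hA hq hqN i x ≠ 0) : resHom hA hq hqN i (toModel A (q ^ 2 * N) x) ≠ 0 :=
  fun h => hx ((rModel_eq_zero_iff hA hq hqN i x).mpr h)

theorem exists_ker_rModel_le (p : Ideal (Local.modelAlg (q ^ 2 * N) A)) (hp : p.IsPrime)
    (hqp : (q : Local.modelAlg (q ^ 2 * N) A) ∈ p) :
    ∃ i, RingHom.ker (rModel hA hq hqN i) ≤ p := by
  obtain ⟨i, hi⟩ := exists_ker_le hA hq hqN (p.comap (toModel A (q ^ 2 * N)).symm)
    (Ideal.comap_isPrime _ _) (by rw [Ideal.mem_comap, map_natCast]; exact hqp)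
  refine ⟨i, fun x hx => ?_⟩
  rw [RingHom.mem_ker] at hx
  have := hi (show toModel A (q ^ 2 * N) x ∈ RingHom.ker (resHom hA hq hqN i) from
    (rModel_eq_zero_iff hA hq hqN i x).mp hx)
  rwa [Ideal.mem_comap, AlgEquiv.symm_apply_apply] at this

theorem eq_of_ker_rModel_le (i j : Fin 3)
    (h : RingHom.ker (rModel hA hq hqN i) ≤ RingHom.ker (rModel hA hq hqN j)) : i = j :=
  eq_of_ker_le hA hq hqN fun x hx => by
    have h1 : (toModel A (q ^ 2 * N)).symm x ∈ RingHom.ker (rModel hA hq hqN i) := by
      rw [RingHom.mem_ker, rModel_eq_zero_iff, AlgEquiv.apply_symm_apply]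
      exact hx
    have h2 := h h1
    rw [RingHom.mem_ker, rModel_eq_zero_iff, AlgEquiv.apply_symm_apply] at h2
    exact h2

theorem exists_dvd_of_rModel_zero_eq_zero (x : Local.modelAlg (q ^ 2 * N) A)
    (hx : rModel hA hq hqN 0 x = 0) :
    ∃ s, rModel hA hq hqN 0 s ≠ 0 ∧ (q : Local.modelAlg (q ^ 2 * N) A) ∣ s * x := by
  obtain ⟨s, hs, hd⟩ := exists_dvd_of_resHom_eq_zero hA hq hqN (i := 0) (by decide)
    ((rModel_eq_zero_iff hA hq hqN 0 x).mp hx)
  refine ⟨(toModel A (q ^ 2 * N)).symm s, ?_, ?_⟩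
  · rwa [Ne, rModel_eq_zero_iff, AlgEquiv.apply_symm_apply]
  · have := map_dvd (toModel A (q ^ 2 * N)).symm hd
    rwa [map_natCast, map_mul, AlgEquiv.symm_apply_apply] at this

theorem exists_dvd_pow_of_rModel_one_eq_zero (x : Local.modelAlg (q ^ 2 * N) A)
    (hx : rModel hA hq hqN 1 x = 0) :
    ∃ s, rModel hA hq hqN 1 s ≠ 0 ∧ (q : Local.modelAlg (q ^ 2 * N) A) ∣ s * x ^ (q - 1) := by
  obtain ⟨s, hs, hd⟩ := exists_dvd_pow_of_resHom_one_eq_zero hA hq hqN
    ((rModel_eq_zero_iff hA hq hqN 1 x).mp hx)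
  refine ⟨(toModel A (q ^ 2 * N)).symm s, ?_, ?_⟩
  · rwa [Ne, rModel_eq_zero_iff, AlgEquiv.apply_symm_apply]
  · have := map_dvd (toModel A (q ^ 2 * N)).symm hd
    rwa [map_natCast, map_mul, map_pow, AlgEquiv.symm_apply_apply] at this

theorem natCast_dvd_of_rModel (b : Local.modelAlg (q ^ 2 * N) A)
    (hb : ∀ i, ∃ s, rModel hA hq hqN i s ≠ 0 ∧
      (q : Local.modelAlg (q ^ 2 * N) A) ∣ s * b) :
    (q : Local.modelAlg (q ^ 2 * N) A) ∣ b := by
  have := natCast_dvd_of_components hA hq hqN (toModel A (q ^ 2 * N) b) fun i => by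
    obtain ⟨s, hs, hd⟩ := hb i
    refine ⟨toModel A (q ^ 2 * N) s, fun h0 => hs ((rModel_eq_zero_iff hA hq hqN i s).mpr h0), ?_⟩
    have := map_dvd (toModel A (q ^ 2 * N)) hd
    rwa [map_natCast, map_mul] at this
  have := map_dvd (toModel A (q ^ 2 * N)).symm this
  rwa [map_natCast, AlgEquiv.symm_apply_apply] at this

theorem rModel_naModel (x : Local.modelAlg (q ^ 2 * N) A) :
    rModel hA hq hqN 0 (naModel hq hqN x) =
        rModel hA hq hqN 0 x * rModel hA hq hqN 1 x ^ (q - 1) ∧
      rModel hA hq hqN 1 (naModel hq hqN x) =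
        rModel hA hq hqN 0 x * rModel hA hq hqN 1 x ^ (q - 1) ∧
      rModel hA hq hqN 2 (naModel hq hqN x) = rModel hA hq hqN 2 x ^ q := by
  refine ⟨Subtype.ext ?_, Subtype.ext ?_, Subtype.ext ?_⟩
  · push_cast
    rw [coe_rModel, coe_rModel, coe_rModel, toModel_naModel, resHom_zero_normLevel]
  · push_cast
    rw [coe_rModel, coe_rModel, coe_rModel, toModel_naModel, resHom_one_normLevel,
      resHom_zero_normLevel]
  · push_cast
    rw [coe_rModel, coe_rModel, toModel_naModel, resHom_two_normLevel]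

theorem naModel_ord (x : Local.modelAlg (q ^ 2 * N) A) (a b c : ℕ)
    (ha : ∃ s t, rModel hA hq hqN 0 s ≠ 0 ∧ rModel hA hq hqN 0 t ≠ 0 ∧
      s * x = t * (q : Local.modelAlg (q ^ 2 * N) A) ^ a)
    (hb : ∃ s t, rModel hA hq hqN 1 s ≠ 0 ∧ rModel hA hq hqN 1 t ≠ 0 ∧
      s * x ^ (q - 1) = t * (q : Local.modelAlg (q ^ 2 * N) A) ^ b)
    (hc : ∃ s t, rModel hA hq hqN 2 s ≠ 0 ∧ rModel hA hq hqN 2 t ≠ 0 ∧
      s * x = t * (q : Local.modelAlg (q ^ 2 * N) A) ^ c) :
    (∃ s t, rModel hA hq hqN 0 s ≠ 0 ∧ rModel hA hq hqN 0 t ≠ 0 ∧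
      s * naModel hq hqN x = t * (q : Local.modelAlg (q ^ 2 * N) A) ^ (a + b)) ∧
      ∃ s t, rModel hA hq hqN 2 s ≠ 0 ∧ rModel hA hq hqN 2 t ≠ 0 ∧
        s * naModel hq hqN x = t * (q : Local.modelAlg (q ^ 2 * N) A) ^ (q * c) := by
  obtain ⟨s, t, hs, ht, e⟩ := ha
  obtain ⟨s', t', hs', ht', e'⟩ := hb
  obtain ⟨s'', t'', hs'', ht'', e''⟩ := hc
  have tr : ∀ {y z : Local.modelAlg (q ^ 2 * N) A}, y = z →
      toModel A (q ^ 2 * N) y = toModel A (q ^ 2 * N) z := fun h => congrArg _ h
  obtain ⟨⟨S, T, hS, hT, E⟩, ⟨S', T', hS', hT', E'⟩⟩ := normLevel_ord hA hq hqN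
    (toModel A (q ^ 2 * N) x) a b c
    ⟨_, _, resHom_toModel_ne_zero hA hq hqN hs, resHom_toModel_ne_zero hA hq hqN ht,
      by simpa using tr e⟩
    ⟨_, _, resHom_toModel_ne_zero hA hq hqN hs', resHom_toModel_ne_zero hA hq hqN ht',
      by simpa using tr e'⟩
    ⟨_, _, resHom_toModel_ne_zero hA hq hqN hs'', resHom_toModel_ne_zero hA hq hqN ht'',
      by simpa using tr e''⟩
  refine ⟨⟨_, _, (rModel_symm_ne_zero_iff hA hq hqN 0 S).mpr hS,
      (rModel_symm_ne_zero_iff hA hq hqN 0 T).mpr hT, ?_⟩,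
    ⟨_, _, (rModel_symm_ne_zero_iff hA hq hqN 2 S').mpr hS',
      (rModel_symm_ne_zero_iff hA hq hqN 2 T').mpr hT', ?_⟩⟩
  · refine (toModel A (q ^ 2 * N)).injective ?_
    simpa [toModel_naModel] using E
  · refine (toModel A (q ^ 2 * N)).injective ?_
    simpa [toModel_naModel] using E'

theorem naModel_mid (x s b : Local.modelAlg (q ^ 2 * N) A) (hx : rModel hA hq hqN 0 x ≠ 0)
    (hs : rModel hA hq hqN 1 s ≠ 0) (hb : rModel hA hq hqN 1 b ≠ 0)
    (h : s * x ^ (q - 1) = (q : Local.modelAlg (q ^ 2 * N) A) * b) :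
    ∃ c : unramInt A, IsUnit c ∧ ∀ i, i ≠ 2 → ∃ s' b', rModel hA hq hqN i s' ≠ 0 ∧
      s' * naModel hq hqN x = (q : Local.modelAlg (q ^ 2 * N) A) * b' ∧
      rModel hA hq hqN i b' * rModel hA hq hqN 1 s =
        algebraMap (unramInt A) (redBase A N) c * rModel hA hq hqN i s' * rModel hA hq hqN 0 x *
          rModel hA hq hqN 1 b := by
  refine ⟨-1, isUnit_one.neg, fun i hi => ?_⟩
  obtain ⟨S, B, hS, hE, hR⟩ := exists_normLevel_div hA hq hqN
    (resHom_toModel_ne_zero hA hq hqN hx) (resHom_toModel_ne_zero hA hq hqN hs)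
    (resHom_toModel_ne_zero hA hq hqN hb)
    (by simpa using congrArg (toModel A (q ^ 2 * N)) h) hi
  refine ⟨_, (toModel A (q ^ 2 * N)).symm B, (rModel_symm_ne_zero_iff hA hq hqN i S).mpr hS,
    (toModel A (q ^ 2 * N)).injective (by simpa [toModel_naModel] using hE), Subtype.ext ?_⟩
  rw [map_neg, map_one]
  push_cast
  simp only [coe_rModel, AlgEquiv.apply_symm_apply]
  rw [hR]
  ring

end Norm

section Sheet

variable {A : ValuationSubring Qb} {q N : ℕ} [NeZero q] [NeZero N]
  {hA : A.LiesOverPrime q} {hq : q.Prime} {hqN : ¬ q ∣ N} (D : BaseData A q N hA hq)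
  [IsIntegrallyClosed (redBase A N)] (U : UpperData hqN D) [IsLocalRing (unramInt A)]

/-- The three-component model of level `q²N`. -/
def threeSheet : Conn.ThreeSheet (unramInt A) (levelField (inertiaField A) (q ^ 2 * N))
    (model A N) (redBase A N) q where
  prime_q := hq
  maximal_W := Local.maximalIdeal_unramInt hA hq
  q_ne := Local.natCast_ne_zero_level (q ^ 2 * N) hq
  teich _ ha := Local.exists_teichmuller hA hq two_pos ha
  finiteType := finiteType_model hA hq
  isDomain_Rb := inferInstance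
  dedekind := D.isDedekindDomain
  notField := by
    have := BaseGeneric.isAlgClosed_residueField_unramInt hA hq
    have := finiteType_model (N := N) hA hq
    exact BaseGeneric.not_isField_base (Local.maximalIdeal_unramInt hA hq)
      (natCast_eq_zero_redBase hA) (r0Model hA hq) (redModel_surjective hA hq) D.h D.h_ne_const
  point_const P hP x := by
    have := BaseGeneric.isAlgClosed_residueField_unramInt hA hq
    have := finiteType_model (N := N) hA hq
    exact BaseGeneric.point_const (Local.maximalIdeal_unramInt hA hq)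
      (natCast_eq_zero_redBase hA) (r0Model hA hq) (redModel_surjective hA hq) P hP x
  q_zero := natCast_eq_zero_redBase hA
  r0 := r0Model hA hq
  r0_surj := redModel_surjective hA hq
  Fr := D.frob
  Fr_inj _ _ h := Subtype.ext (frobSeries_injective A q (congrArg Subtype.val h))
  Fr_pow y := by
    obtain ⟨x, hx, e⟩ := D.frob_pow y y.2
    exact ⟨⟨x, hx⟩, Subtype.ext e⟩
  h := D.h
  Fr_h := Subtype.ext D.frob_h
  unramified := D.unramified
  B := Local.modelAlg (q ^ 2 * N) A
  noetherian := Local.isNoetherianRing_modelAlg (q ^ 2 * N) hA hq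
  closed _ hx := Local.mem_modelAlg_of_isIntegral (q ^ 2 * N) hx
  frac := Local.exists_mul_mem_modelAlg (q ^ 2 * N) hA hq
  w := wModel hq hqN
  w_w x := (toModel A (q ^ 2 * N)).injective (by
    rw [toModel_wModel, toModel_wModel, atkinModel_atkinModel])
  e := eModel A q N
  w_e x := by
    constructor
    · refine (toModel A (q ^ 2 * N)).injective ?_
      rw [toModel_wModel, toModel_eModel, toModel_eModel, atkinModel_raiseModel]
      rfl
    · refine (toModel A (q ^ 2 * N)).injective ?_
      rw [toModel_wModel, toModel_eModel, atkinModel_raiseModel]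
      rfl
  gen_frac x := gen_frac_model hA hq x
  gen_int x := Local.isIntegral_of_jModel_mem (q ^ 2 * N) hA hq jModel_mem_genAlg x
  r := rModel hA hq hqN
  r20_e x := by
    refine ⟨Subtype.ext ?_, Subtype.ext ?_, Subtype.ext ?_⟩
    · rw [coe_rModel, toModel_eModel, resHom_zero_raiseModel, r0Model_apply]
      exact (qExpand_congr (pow_zero q) _).trans (qExpand_one_apply _)
    · rw [coe_rModel, toModel_eModel, resHom_zero_raiseModel, D.coe_frob, r0Model_apply]
      exact qExpand_congr (pow_one q) _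
    · rw [coe_rModel, toModel_eModel, resHom_zero_raiseModel, D.coe_frob, D.coe_frob,
        r0Model_apply, qExpand_qExpand]
      exact qExpand_congr (sq q) _
  r11_e x := by
    refine ⟨Subtype.ext ?_, Subtype.ext ?_, Subtype.ext ?_⟩
    · rw [coe_rModel, toModel_eModel, resHom_one_raiseModel hA hq hqN (by decide), r0Model_apply]
      exact (qExpand_congr (pow_zero q) _).trans (qExpand_one_apply _)
    · rw [coe_rModel, toModel_eModel, resHom_one_raiseModel hA hq hqN (by decide), D.coe_frob,
        r0Model_apply]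
      exact qExpand_congr (pow_one q) _
    · rw [coe_rModel, toModel_eModel, resHom_one_raiseModel_two, r0Model_apply]
  r02_eq x := Subtype.ext (by rw [coe_rModel, coe_rModel, toModel_wModel, resHom_two])
  r11_w x := Subtype.ext (by rw [coe_rModel, coe_rModel, toModel_wModel, resHom_one_atkinModel])
  cover := exists_ker_rModel_le hA hq hqN
  antichain := eq_of_ker_rModel_le hA hq hqN
  ram20 := exists_dvd_of_rModel_zero_eq_zero hA hq hqN
  ram11 := exists_dvd_pow_of_rModel_one_eq_zero hA hq hqN
  q_dvd := natCast_dvd_of_rModel hA hq hqN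
  u := U.u
  u_unit := U.u_unit
  p12 := U.p12
  p12_ne := U.p12_ne
  r20_u := U.r20_u
  r11_u := U.r11_u
  r02_u := U.r02_u
  e0h_ne := U.e0h_ne
  ρ := U.ρ
  kronecker := U.kronecker
  kronecker' := U.kronecker'
  ρ_ne := U.ρ_ne
  ordinary := U.ordinary
  mid := U.mid
  NA := naModel hq hqN
  NA_dvd x := by
    have := map_dvd (toModel A (q ^ 2 * N)).symm
      (dvd_normLevel hq hqN (toModel A (q ^ 2 * N) x))
    rwa [← toModel_naModel, AlgEquiv.symm_apply_apply, AlgEquiv.symm_apply_apply] at this
  NA_const c := (toModel A (q ^ 2 * N)).injective (by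
    rw [toModel_naModel, map_pow, AlgEquiv.commutes]
    exact normLevel_constModel hq hqN c)
  NA_res x _ := rModel_naModel hA hq hqN x
  NA_ord := naModel_ord hA hq hqN
  NA_mid := naModel_mid hA hq hqN

end Sheet

/-- The finite level theorem from the two bundles of data at every place over `q`. -/
theorem finiteLevel_of_data {q N : ℕ} [NeZero q] [NeZero N] (hq : q.Prime) (hqN : ¬ q ∣ N)
    {lam : ℕ} (hlam : lam.Prime) (hql : q ≠ lam)
    (data : ∀ (A : ValuationSubring Qb) (hA : A.LiesOverPrime q),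
      ∃ D : BaseData A q N hA hq,
        haveI := D.isIntegrallyClosed
        Nonempty (UpperData hqN D)) :
    CarayolReduction.FiniteLevel q N lam := by
  have hm : 0 < (q + 1) * (q - 1) * (q - 1) * (q ^ 2 - 1) := by
    have h2 := hq.two_le
    have h4 : 4 ≤ q ^ 2 := by nlinarith
    exact Nat.mul_pos (Nat.mul_pos (Nat.mul_pos (by omega) (by omega)) (by omega)) (by omega)
  refine finiteLevel_of_forall hq hlam hql hm
    fun h₁ h₂ A hA n hn hqn f hf hfE hord hfA hfB => ?_
  obtain ⟨D, hU⟩ := data A hA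
  have := D.isIntegrallyClosed
  obtain ⟨U⟩ := hU
  have := Local.isDiscreteValuationRing_unramInt hA hq
  refine exists_pow_eq_of_model hA hq hqN h₁ h₂ (threeSheet D U) rfl
    (fun (b : Local.modelAlg (q ^ 2 * N) A) => ?_) (fun (b : Local.modelAlg (q ^ 2 * N) A) => ?_)
    (fun ι => ?_) hn hqn hf hfE hord hfA hfB
  · show ((toModel A (q ^ 2 * N) (naModel hq hqN b) : model A (q ^ 2 * N)) :
      modularFunctionFieldBar (q ^ 2 * N)) = _
    rw [toModel_naModel, coe_normLevel, coe_toModel]
    exact normFun_eq_nmAlong h₁ _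
  · show ((toModel A (q ^ 2 * N) (wModel hq hqN b) : model A (q ^ 2 * N)) :
      modularFunctionFieldBar (q ^ 2 * N)) = _
    rw [toModel_wModel]
    exact atkin_eq_flipEquiv hq hqN _
  · obtain ⟨j, hj⟩ := exists_smallKer_eq hA hq hqN ι
    refine ⟨j, fun x => ?_⟩
    show (∀ k : ℤ, (ι.1 ((toModel A (q ^ 2 * N) x : model A (q ^ 2 * N)) :
      modularFunctionFieldBar (q ^ 2 * N))).coeff k ∈ A.nonunits) ↔ _
    rw [hj, RingHom.mem_ker, RingHom.mem_ker]
    exact (rModel_eq_zero_iff hA hq hqN j x).symm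

end Fermat.Agent.Carayol
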