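import Fermat.Prelude.Def_ModularCurve_HeckeModule
import Fermat.Prelude.Def_ModularCurve_ArithmeticGalois
import Mathlib.FieldTheory.Galois.Basic

/-!
# The inertia field, level fields and the torsion bound at `q²N`

The inertia field of a place, the function field of `X₀(M)` over it and the normal model of `Y₀(M)`,
all inside `LaurentSeries (AlgebraicClosure ℚ)`, and the bound on inertia-fixed torsion of
`J₀(q²N)` killed by both pushforwards to level `qN`.
-/

set_option autoImplicit false

noncomputable section

namespace Fermat.Agent.Carayol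

open ModularCurve

local notation "Qb" => AlgebraicClosure ℚ

/-- The inertia field of a place `A` of `ℚ̄`. -/
def inertiaField (A : ValuationSubring Qb) : IntermediateField ℚ Qb :=
  IntermediateField.fixedField (A.inertiaSubgroupIn ℚ)

/-- The integers of the inertia field. -/
def unramInt (A : ValuationSubring Qb) : Subring Qb :=
  A.toSubring ⊓ (inertiaField A).toSubalgebra.toSubring

/-- The function field of `X₀(M)` with constants in `E`, inside `ℚ̄((q))`. -/
def levelField (E : IntermediateField ℚ Qb) (M : ℕ) : Subfield (LaurentSeries Qb) :=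
  Subfield.closure (algebraMap Qb (LaurentSeries Qb) '' (E : Set Qb) ∪
    coeffEmb Qb '' divisorExpansions M)

/-- `j` in `ℚ̄((q))`. -/
def jBar : LaurentSeries Qb := coeffEmb Qb jq

/-- The subring `O[j]` for a subring `O` of constants. -/
def jPolyRing (O : Subring Qb) : Subring (LaurentSeries Qb) :=
  Subring.closure (algebraMap Qb (LaurentSeries Qb) '' (O : Set Qb) ∪ {jBar})

/-- Elements of the level `M` field (constants in `E`) integral over `O[j]`: the normal model of
`Y₀(M)` over `O`. -/
def modelRing (O : Subring Qb) (E : IntermediateField ℚ Qb) (M : ℕ) :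
    Set (LaurentSeries Qb) :=
  {x | x ∈ levelField E M ∧ IsIntegral (jPolyRing O) x}

/-- The core of Carayol's theorem at squared primes: inertia-fixed `lam`-power torsion of `J₀(q²N)` killed by the two
pushforwards to level `qN` is killed by a fixed integer. -/
def CoreStatement (q N lam : ℕ) : Prop :=
  ∀ (M L : ℕ) [NeZero M] [NeZero L], M = q ^ 2 * N → L = q * N →
    ∃ (f f' : JZero M →+ JZero L),
      (∀ (ℓ : Nat.Primes) (x : JZero M), ¬ (ℓ : ℕ) ∣ M →
        f (heckeOperatorBar M ℓ x) = heckeOperatorBar L ℓ (f x) ∧
          f' (heckeOperatorBar M ℓ x) = heckeOperatorBar L ℓ (f' x)) ∧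
      ∃ m : ℕ, 0 < m ∧ ∀ (A : ValuationSubring Qb), A.LiesOverPrime q →
        ∀ (n : ℕ) (x : JZero M), lam ^ n • x = 0 →
          (∀ σ ∈ A.inertiaSubgroupIn ℚ, σ • x = x) → f x = 0 → f' x = 0 → m • x = 0

/-- `W` consists of the integral elements fixed by inertia. -/
theorem mem_unramInt_iff {A : ValuationSubring Qb} {x : Qb} :
    x ∈ unramInt A ↔ x ∈ A ∧ ∀ σ ∈ A.inertiaSubgroupIn ℚ, σ x = x := by
  rw [unramInt, Subring.mem_inf]
  exact Iff.rfl.and (IntermediateField.mem_fixedField_iff _ _)

end Fermat.Agent.Carayol
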