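import Fermat.Agent.CarayolFF.Range
import Fermat.Agent.Hauptmodul.Supersingular

/-!
# The supersingular polynomial in the reduction of level `N`

`p12Base` is `P₁₂(j)`; its expansion is `Δ^(1-q)`.
-/

set_option autoImplicit false

noncomputable section

open ModularCurve
open Fermat.Agent.ModularFunctionField Fermat.Agent.KummerReduction

namespace Fermat.Agent.Carayol

open CarayolFF

local notation "Qb" => AlgebraicClosure ℚ

variable {A : ValuationSubring Qb} {q N : ℕ} [NeZero q] [NeZero N]
  (hA : A.LiesOverPrime q) (hq : q.Prime)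

/-- `j` in the reduction of level `N`. -/
def jRed : redBase A N := redModel hA hq ⟨jElem N, jElem_mem_model A N⟩

omit [NeZero q] in
/-- `jRed` is the series of `j` in characteristic `q`. -/
theorem coe_jRed : (jRed (N := N) hA hq : LaurentSeries (IsLocalRing.ResidueField A)) =
    jqModC (IsLocalRing.ResidueField A) := coe_redModel_jElem hA hq

/-- `P₁₂(j)` in the reduction of level `N`. -/
def p12Base : redBase A N :=
  haveI := Fact.mk hq
  (-(Hauptmodul.vPoly q).coeff q).eval₂ (Int.castRingHom _) (jRed hA hq)

omit [NeZero q] in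
/-- `P₁₂(j)` is the value of `ssPoly` at `j`. -/
theorem map_p12Base [Fact q.Prime] {κ : Type*} [CommRing κ] [Algebra (ZMod q) κ]
    (φ : redBase A N →+* κ) :
    φ (p12Base hA hq) =
      (Hauptmodul.ssPoly q).eval₂ (algebraMap (ZMod q) κ) (φ (jRed hA hq)) := by
  rw [p12Base, Hauptmodul.ssPoly, Polynomial.eval₂_map, Polynomial.hom_eval₂]
  exact congrArg (fun ψ => Polynomial.eval₂ ψ _ _) (RingHom.ext_int _ _)

omit [NeZero q] in
/-- `P₁₂(j) Δ^(q-1) = 1` in series. -/
theorem coe_p12Base_mul :
    (p12Base (N := N) hA hq : LaurentSeries (IsLocalRing.ResidueField A)) *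
      deltaC (IsLocalRing.ResidueField A) ^ (q - 1) = 1 := by
  have := Fact.mk hq
  have := CarayolFF.charP_residue hA hq
  let : Algebra (ZMod q) (IsLocalRing.ResidueField A) := ZMod.algebra _ q
  let : Algebra (ZMod q) (LaurentSeries (IsLocalRing.ResidueField A)) :=
    ((HahnSeries.C : IsLocalRing.ResidueField A →+* _).comp (algebraMap (ZMod q) _)).toAlgebra
  have h := map_p12Base (κ := LaurentSeries (IsLocalRing.ResidueField A)) hA hq
    (redBase A N).subtype
  rw [Subring.subtype_apply, Subring.subtype_apply, coe_jRed] at h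
  rw [h]
  exact Hauptmodul.aeval_ssPoly_mul q (IsLocalRing.ResidueField A)

omit [NeZero q] in
/-- `P₁₂(j)` is nonzero in the reduced base. -/
theorem p12Base_ne : p12Base (N := N) hA hq ≠ 0 := fun h => by
  have h' := coe_p12Base_mul (N := N) hA hq
  rw [h, ZeroMemClass.coe_zero, zero_mul] at h'
  exact zero_ne_one h'

end Fermat.Agent.Carayol
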