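import Fermat.Agent.Carayol.MidField
import Fermat.Agent.Carayol.BaseFrobH
import Fermat.Agent.Carayol.SSPoint
import Fermat.Agent.Hauptmodul.Key
import Fermat.Agent.Hauptmodul.BaseHauptmodul

/-!
# The Kronecker congruence of the Hauptmodul on the model of level `q²N`

`kronTail` is the remainder of Kronecker's congruence with the two variables exchanged; it does not
vanish at the supersingular points.
-/

set_option autoImplicit false

noncomputable section

open ModularCurve Polynomial
open Fermat.Agent.ModularFunctionField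
open Fermat.Agent.CarayolFF Fermat.Agent.Hauptmodul

namespace Fermat.Agent.Carayol

local notation "Qb" => AlgebraicClosure ℚ

variable {A : ValuationSubring Qb} {q M N' : ℕ} [NeZero q] [NeZero M] [NeZero N'] [Fact q.Prime]

omit [NeZero q] [NeZero M] [NeZero N'] [Fact (Nat.Prime q)] in
theorem not_dvd_sq_level (H : BaseHyp q A M N') : ¬ q ∣ M * M := fun h =>
  H.coprime (h.trans H.sq_dvd)

/-- The remainder in Kronecker's congruence, with the variables exchanged. -/
def kronTail (H : BaseHyp q A M N') : Polynomial (Polynomial (unramInt A)) :=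
  (kronRem H.level_sq (not_dvd_sq_level H)).eval₂
    (Polynomial.eval₂RingHom (Int.castRingHom (Polynomial (Polynomial (unramInt A)))) Polynomial.X)
    (Polynomial.C Polynomial.X)

omit [NeZero q] [NeZero N'] in
theorem eval_kronTail (H : BaseHyp q A M N') {S : Type*} [CommRing S] [Algebra (unramInt A) S]
    (x z : S) :
    ((kronTail H).map (Polynomial.aeval z).toRingHom).eval x =
      (kronRem H.level_sq (not_dvd_sq_level H)).eval₂
        (Polynomial.eval₂RingHom (Int.castRingHom S) x) z := by
  rw [Polynomial.eval_map, kronTail, ← Polynomial.coe_eval₂RingHom (Polynomial.aeval z).toRingHom,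
    Polynomial.hom_eval₂]
  congr 1
  · exact Polynomial.ringHom_ext' (RingHom.ext_int _ _) (by simp)
  · simp

/-- `x ↦ x(τ)` from the model to Laurent series. -/
def expHom (A : ValuationSubring Qb) (L : ℕ) [NeZero L] :
    Local.modelAlg L A →+* LaurentSeries Qb :=
  ((modularFunctionFieldBar L).val.toRingHom.comp (model A L).subtype).comp
    (toModel A L).toAlgHom.toRingHom

theorem expHom_injective (A : ValuationSubring Qb) (L : ℕ) [NeZero L] :
    Function.Injective (expHom A L) := fun _ _ h =>
  (toModel A L).injective (Subtype.ext (Subtype.ext h))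

omit [Fact (Nat.Prime q)] in
theorem expHom_eModel (H : BaseHyp q A M N') (i : Fin 3) :
    expHom A (q ^ 2 * (M * N')) (eModel A q (M * N') i (hElem H)) =
      qExpand Qb (q ^ (i : ℕ)) (uC Qb (M * M)) := by
  show ((toModel A _ (eModel A q (M * N') i (hElem H)) : model A _) :
    modularFunctionFieldBar (q ^ 2 * (M * N'))).1 = _
  rw [toModel_eModel]
  rfl

/-- The Kronecker congruence for the Hauptmodul at the images of `x(τ)` and `x(qτ)`. -/
theorem kronecker_hElem (H : BaseHyp q A M N') :
    (eModel A q (M * N') 1 (hElem H) - eModel A q (M * N') 0 (hElem H) ^ q) *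
      (eModel A q (M * N') 1 (hElem H) ^ q - eModel A q (M * N') 0 (hElem H)) +
    (q : Local.modelAlg (q ^ 2 * (M * N')) A) *
      ((kronTail H).map (Polynomial.aeval (eModel A q (M * N') 1 (hElem H))).toRingHom).eval
        (eModel A q (M * N') 0 (hElem H)) = 0 := by
  have h0 : expHom A _ (eModel A q (M * N') 0 (hElem H)) = uC Qb (M * M) := by
    rw [expHom_eModel]; exact (qExpand_congr (pow_zero q) _).trans (qExpand_one_apply _)
  have h1 : expHom A _ (eModel A q (M * N') 1 (hElem H)) = qExpand Qb q (uC Qb (M * M)) := by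
    rw [expHom_eModel]; exact qExpand_congr (pow_one q) _
  refine expHom_injective A _ ?_
  rw [eval_kronTail, map_zero]
  simp only [map_add, map_mul, map_sub, map_pow, map_natCast, Polynomial.hom_eval₂, h0, h1]
  rw [show (expHom A _).comp (Polynomial.eval₂RingHom
      (Int.castRingHom (Local.modelAlg (q ^ 2 * (M * N')) A))
      (eModel A q (M * N') 0 (hElem H))) = atU Qb (M * M) from
    Polynomial.ringHom_ext' (RingHom.ext_int _ _) (by simp [h0, atU_X])]
  have h := kronPoly_root H.level_sq (not_dvd_sq_level H) Qb
  rw [kronPoly_eq, Polynomial.eval₂_add, Polynomial.eval₂_mul, Polynomial.eval₂_mul,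
    Polynomial.eval₂_sub, Polynomial.eval₂_sub, Polynomial.eval₂_X, Polynomial.eval₂_X_pow,
    Polynomial.eval₂_C, Polynomial.eval₂_C, Polynomial.eval₂_C, map_pow, atU_X, atU_C] at h
  simpa using h

omit [Fact (Nat.Prime q)] in
theorem wModel_eModel (H : BaseHyp q A M N') (i : Fin 3) (x : model A (M * N')) :
    wModel H.prime H.coprime (eModel A q (M * N') i x) = eModel A q (M * N') (Fin.rev i) x :=
  (toModel A (q ^ 2 * (M * N'))).injective (by
    rw [toModel_wModel, toModel_eModel, toModel_eModel, atkinModel_raiseModel])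

/-- The Kronecker congruence for the Hauptmodul at the images of `x(qτ)` and `x(q²τ)`. -/
theorem kronecker_hElem' (H : BaseHyp q A M N') :
    (eModel A q (M * N') 1 (hElem H) - eModel A q (M * N') 2 (hElem H) ^ q) *
      (eModel A q (M * N') 1 (hElem H) ^ q - eModel A q (M * N') 2 (hElem H)) +
    (q : Local.modelAlg (q ^ 2 * (M * N')) A) *
      ((kronTail H).map (Polynomial.aeval (eModel A q (M * N') 1 (hElem H))).toRingHom).eval
        (eModel A q (M * N') 2 (hElem H)) = 0 := by
  have h := congrArg (wModel H.prime H.coprime) (kronecker_hElem H)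
  have e0 : wModel H.prime H.coprime (eModel A q (M * N') 0 (hElem H)) =
      eModel A q (M * N') 2 (hElem H) := wModel_eModel H 0 _
  have e1 : wModel H.prime H.coprime (eModel A q (M * N') 1 (hElem H)) =
      eModel A q (M * N') 1 (hElem H) := wModel_eModel H 1 _
  rw [eval_kronTail] at h ⊢
  simp only [map_add, map_mul, map_sub, map_pow, map_natCast, map_zero, e0, e1] at h
  refine Eq.trans ?_ h
  congr 2
  show _ = (wModel H.prime H.coprime).toRingHom _
  rw [Polynomial.hom_eval₂]
  congr 1
  · exact Polynomial.ringHom_ext' (RingHom.ext_int _ _) (by simpa using e0.symm)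
  · exact e1.symm

omit [Fact (Nat.Prime q)] in
/-- The Hauptmodul at `τ` and at `q²τ` are different. -/
theorem eModel_hElem_ne (H : BaseHyp q A M N') :
    eModel A q (M * N') 0 (hElem H) ≠ eModel A q (M * N') 2 (hElem H) := by
  intro h
  have h' := congrArg (fun x => (expHom A _ x).coeff (-1)) h
  simp only [expHom_eModel] at h'
  rw [show ((0 : Fin 3) : ℕ) = 0 from rfl, show ((2 : Fin 3) : ℕ) = 2 from rfl,
    qExpand_congr (M := q ^ 0) (K := 1) (pow_zero q), qExpand_one_apply, uC_coeff_neg_one,
    qExpand_coeff_of_not_dvd (q ^ 2)] at h'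
  · exact one_ne_zero h'
  · rw [dvd_neg, Int.natCast_dvd]
    have := H.prime.two_le
    intro hd
    have := Nat.le_of_dvd one_pos hd
    nlinarith

omit [NeZero q] [Fact (Nat.Prime q)] in
/-- `j B(h) = A(h)³` in the model. -/
theorem jElem_mul_polyB (H : BaseHyp q A M N') :
    (⟨jElem (M * N'), jElem_mem_model A _⟩ : model A (M * N')) * polyB (M * M) (hElem H) =
      polyA (M * M) (hElem H) ^ 3 := by
  refine Subtype.ext (Subtype.ext ?_)
  let θ : model A (M * N') →+* LaurentSeries Qb :=
    (modularFunctionFieldBar (M * N')).val.toRingHom.comp (model A (M * N')).subtype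
  show θ (_ * polyB (M * M) (hElem H)) = θ (polyA (M * M) (hElem H) ^ 3)
  rw [map_mul, map_pow, polyA_map, polyB_map]
  show jBar * polyB (M * M) (uC Qb (M * M)) = polyA (M * M) (uC Qb (M * M)) ^ 3
  rw [← jqModC_mul_polyB H.level_sq Qb, jBar_eq]

/-- The remainder does not vanish at a field-valued supersingular point. -/
theorem kronTail_ne_of_hom (H : BaseHyp q A M N') [IsIntegrallyClosed (redBase A (M * N'))]
    {K : Type*} [Field K] (π : redBase A (M * N') →+* K)
    (hp : π (p12Base H.liesOver H.prime) = 0) :
    π (rModel H.liesOver H.prime H.coprime 0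
      (((kronTail H).map (Polynomial.aeval (eModel A q (M * N') 1 (hElem H))).toRingHom).eval
        (eModel A q (M * N') 0 (hElem H)))) ≠ 0 := by
  have hK : (q : K) = 0 := by
    rw [← map_natCast π, natCast_eq_zero_redBase (N := M * N') H.liesOver, map_zero]
  have : CharP K q := (CharP.charP_iff_prime_eq_zero H.prime).mpr hK
  let : Algebra (ZMod q) K := ZMod.algebra K q
  set hb := redModel H.liesOver H.prime (hElem H) with hhb
  set φ : Local.modelAlg (q ^ 2 * (M * N')) A →+* K :=
    π.comp (rModel H.liesOver H.prime H.coprime 0).toRingHom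
  have h0 : φ (eModel A q (M * N') 0 (hElem H)) = π hb :=
    congrArg π (rModel_zero_eModel_zero _)
  have h1 : φ (eModel A q (M * N') 1 (hElem H)) = π hb ^ q := by
    rw [← map_pow]
    refine congrArg π (Subtype.ext ?_)
    show ((rModel H.liesOver H.prime H.coprime 0) (eModel A q (M * N') 1 (hElem H))).1 = _
    rw [coe_rModel, toModel_eModel, resHom_zero_raiseModel, SubmonoidClass.coe_pow, hhb,
      ← frob_hElem H]
    exact qExpand_congr (pow_one q) _
  have hB : polyB (M * M) (π hb) ≠ 0 := by
    rw [hhb, ← polyB_map, ← polyB_map]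
    exact (((isUnit_polyB_hElem H).map (redModel H.liesOver H.prime)).map π).ne_zero
  have hj : π (jRed H.liesOver H.prime) = polyA (M * M) (π hb) ^ 3 / polyB (M * M) (π hb) := by
    rw [eq_div_iff hB, hhb, ← polyB_map, ← polyB_map, ← polyA_map, ← polyA_map, ← map_pow,
      ← map_pow, ← map_mul]
    exact congrArg π ((map_mul _ _ _).symm.trans
      (congrArg (redModel H.liesOver H.prime) (jElem_mul_polyB H)))
  have hss : Polynomial.aeval (polyA (M * M) (π hb) ^ 3 / polyB (M * M) (π hb)) (ssPoly q) = 0 := by
    rw [← hj, Polynomial.aeval_def, ← map_p12Base H.liesOver H.prime π]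
    exact hp
  intro hmem
  apply kronRem_ne_zero H.level_sq (not_dvd_sq_level H) hB hss
  have h : φ _ = 0 := hmem
  rw [eval_kronTail, Polynomial.hom_eval₂, h1] at h
  rw [← h]
  congr 1
  exact Polynomial.ringHom_ext' (RingHom.ext_int _ _) (by simpa using h0.symm)

/-- At the supersingular points the remainder `kronTail` does not vanish on the first component. -/
theorem kronTail_ne (H : BaseHyp q A M N') [IsIntegrallyClosed (redBase A (M * N'))]
    (P : Ideal (redBase A (M * N'))) (hP : P.IsMaximal)
    (hp : p12Base H.liesOver H.prime ∈ P) :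
    rModel H.liesOver H.prime H.coprime 0
      (((kronTail H).map (Polynomial.aeval (eModel A q (M * N') 1 (hElem H))).toRingHom).eval
        (eModel A q (M * N') 0 (hElem H))) ∉ P := by
  have := hP.isPrime
  let K := FractionRing (redBase A (M * N') ⧸ P)
  let π : redBase A (M * N') →+* K :=
    (algebraMap (redBase A (M * N') ⧸ P) K).comp (Ideal.Quotient.mk P)
  have hπ : ∀ x, π x = 0 ↔ x ∈ P := fun x => by
    show algebraMap (redBase A (M * N') ⧸ P) K (Ideal.Quotient.mk P x) = 0 ↔ _
    rw [map_eq_zero_iff _ (IsFractionRing.injective _ K), Ideal.Quotient.eq_zero_iff_mem]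
  exact fun h => kronTail_ne_of_hom H π ((hπ _).mpr hp) ((hπ _).mpr h)

end Fermat.Agent.Carayol
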