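import Fermat.Agent.Carayol.Instance
import Fermat.Agent.Hauptmodul.BaseHauptmodul
import Fermat.Agent.Hauptmodul.Key
import Mathlib.Algebra.Algebra.ZMod

/-!
# The middle component away from the supersingular points

`(h(q²τ) - h(τ))^(q-1) / q` is a unit there: its residue is `-(θh)^(q-1)`, and
`(θh)^(6(q-1)) P₁₂` is a unit of the reduced base.
-/

set_option autoImplicit false

noncomputable section

open ModularCurve
open Fermat.Agent.CarayolFF
open Fermat.Agent.ModularFunctionField (theta twist twist_coeff theta_coeff)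

namespace Fermat.Agent.Carayol

local notation "Qb" => AlgebraicClosure ℚ

variable {A : ValuationSubring Qb} {q N : ℕ} [NeZero q] [NeZero N]

theorem redSeries_mul {x y : LaurentSeries Qb} (hx : x ∈ (resData A).intSeries)
    (hy : y ∈ (resData A).intSeries) (hxy : x * y ∈ (resData A).intSeries) :
    (resData A).redSeries ⟨x * y, hxy⟩ =
      (resData A).redSeries ⟨x, hx⟩ * (resData A).redSeries ⟨y, hy⟩ := by
  rw [← map_mul]
  exact redSeries_congr rfl _ _

/-- On the middle component `x(q²τ) - x(τ)` is `ζ - 1` times a series with residue `θx`. -/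
theorem exists_middle_diff (hA : A.LiesOverPrime q) (hq : q.Prime) (hqN : ¬ q ∣ N)
    (h : model A N) :
    ∃ η : (resData A).intSeries, (resData A).redSeries η =
        theta (redModel hA hq h : LaurentSeries (IsLocalRing.ResidueField A)) ∧
      compHom hq hqN 1 ((raiseModel A q N 2 h - raiseModel A q N 0 h : model A (q ^ 2 * N))) =
        HahnSeries.C ((zetaUnit q : Qb) - 1) * (η : LaurentSeries Qb) := by
  set y : LaurentSeries Qb := ((h : modularFunctionFieldBar N) : LaurentSeries Qb) with hy
  have hyi : y ∈ (resData A).intSeries := coe_mem_intSeries_of_model hA hq h.2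
  have hmid : compHom hq hqN 1 ((raiseModel A q N 2 h - raiseModel A q N 0 h :
      model A (q ^ 2 * N))) = twist (zetaUnit q) y - y := by
    show middle hq hqN (raiseHom q N 2 (h : modularFunctionFieldBar N) -
      raiseHom q N 0 (h : modularFunctionFieldBar N)) = _
    rw [map_sub, middle_raiseHom_two, middle_raiseHom hq hqN (show (0 : Fin 3) ≠ 2 by decide),
      qExpand_congr (M := q ^ ((0 : Fin 3) : ℕ)) (K := 1) (pow_zero q), qExpand_one_apply]
  choose g hg hres using fun n : ℤ => exists_geo_int (A := A) hA hq n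
  have h0 := zeta_sub_one_ne_zero (q := q) hq
  set η := HahnSeries.C ((zetaUnit q : Qb) - 1)⁻¹ * (twist (zetaUnit q) y - y) with hη'
  have hη : ∀ n, η.coeff n = (g n : Qb) * y.coeff n := fun n => by
    rw [KummerReduction.ResidueData.coeff_C_mul, HahnSeries.coeff_sub, twist_coeff, ← sub_one_mul,
      hg, mul_assoc, ← mul_assoc, inv_mul_cancel₀ h0, one_mul]
  have hint : η ∈ (resData A).intSeries := (resData A).mem_intSeries.mpr fun n => by
    rw [hη]
    exact mul_mem (g n).2 ((resData A).mem_intSeries.mp hyi n)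
  refine ⟨⟨η, hint⟩, ?_, ?_⟩
  · ext n
    rw [coe_redModel, theta_coeff, KummerReduction.ResidueData.redSeries_coeff,
      KummerReduction.ResidueData.redSeries_coeff, ← hres]
    show IsLocalRing.residue A _ = IsLocalRing.residue A (g n) * IsLocalRing.residue A _
    exact (congrArg (IsLocalRing.residue A) (show _ =
      (g n * ⟨y.coeff n, (resData A).mem_intSeries.mp hyi n⟩ : A) from Subtype.ext (hη n))).trans
      (map_mul _ _ _)
  · show _ = HahnSeries.C _ * η
    rw [hmid, hη', ← mul_assoc, ← map_mul, mul_inv_cancel₀ h0, map_one, one_mul]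

variable {hA : A.LiesOverPrime q} {hq : q.Prime} {hqN : ¬ q ∣ N}
  [IsIntegrallyClosed (redBase A N)]

theorem rModel_one_eModel_zero (x : model A N) :
    rModel hA hq hqN 1 (eModel A q N 0 x) = redModel hA hq x := by
  refine Subtype.ext ?_
  rw [coe_rModel, toModel_eModel, resHom_one_raiseModel hA hq hqN (by decide)]
  exact (qExpand_congr (pow_zero q) _).trans (qExpand_one_apply _)

/-- On the first component `x(τ)` reduces to the reduction of `x`. -/
theorem rModel_zero_eModel_zero (x : model A N) :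
    rModel hA hq hqN 0 (eModel A q N 0 x) = redModel hA hq x := by
  refine Subtype.ext ?_
  rw [coe_rModel, toModel_eModel, resHom_zero_raiseModel]
  exact (qExpand_congr (pow_zero q) _).trans (qExpand_one_apply _)

/-- Off the supersingular points the middle component leaves both outer components. -/
theorem exists_off_outer {u : Local.modelAlg (q ^ 2 * N) A} {p : redBase A N}
    (hu0 : rModel hA hq hqN 0 u = p ^ q) (hu1 : rModel hA hq hqN 1 u = 0)
    {P : Ideal (redBase A N)} (hP : P.IsPrime) (hp : p ∉ P) :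
    ∃ s, rModel hA hq hqN 0 s = 0 ∧ rModel hA hq hqN 1 s ∉ P := by
  obtain ⟨x, hx⟩ := redModel_surjective hA hq p
  refine ⟨eModel A q N 0 x ^ q - u, ?_, ?_⟩
  · rw [map_sub, map_pow, rModel_zero_eModel_zero, hx, hu0, sub_self]
  · rw [map_sub, map_pow, rModel_one_eModel_zero, hx, hu1, sub_zero]
    exact fun h => hp (hP.mem_of_pow_mem q h)

omit [IsIntegrallyClosed (redBase A N)] in
/-- The residue on the middle component of `x · δ η^(q-1)` when `δ` has residue `-1`. -/
theorem resHom_one_eq_of_compHom (b x : model A (q ^ 2 * N)) (δ : A) (hδ : (resData A).π δ = -1)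
    (η : (resData A).intSeries) {t : LaurentSeries (IsLocalRing.ResidueField A)}
    (hη : (resData A).redSeries η = t)
    (h : compHom hq hqN 1 b = compHom hq hqN 1 x *
      (HahnSeries.C (δ : Qb) * (η : LaurentSeries Qb) ^ (q - 1))) :
    resHom hA hq hqN 1 b = resHom hA hq hqN 1 x * -(t ^ (q - 1)) := by
  rw [resHom_apply, resHom_apply]
  set v : (resData A).intSeries := ⟨_, (resData A).C_mem_intSeries δ.2⟩ * η ^ (q - 1) with hv
  have hx := compHom_mem_intSeries hA hq hqN 1 x.2
  have hv' : compHom hq hqN 1 b = compHom hq hqN 1 x * (v : LaurentSeries Qb) := by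
    rw [h, hv, Subring.coe_mul, SubmonoidClass.coe_pow]
  rw [redSeries_congr hv' _ (mul_mem hx v.2), redSeries_mul hx v.2, Subtype.coe_eta, hv,
    map_mul, map_pow, hη, (resData A).redSeries_C δ, hδ, map_neg, map_one, neg_one_mul]

/-- If `x = -y t^m` and `t^(6m) d = n` with `y` and `n` outside a prime, then so is `x`. -/
theorem not_mem_of_pow_identity {R L : Type*} [CommRing R] [CommRing L] (f : R →+* L)
    (hf : Function.Injective f) {P : Ideal R} (hP : P.IsPrime) {x y d n : R} {t : L} {m : ℕ}
    (hy : y ∉ P) (hn : n ∉ P) (hxy : f x = f y * -(t ^ m)) (hdn : t ^ (6 * m) * f d = f n) :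
    x ∉ P := fun hx => by
  have key : x ^ 6 * d = y ^ 6 * n := hf (by
    rw [map_mul, map_mul, map_pow, map_pow, hxy, ← hdn, mul_comm 6, pow_mul]
    ring)
  exact (hP.mem_or_mem (key ▸ Ideal.mul_mem_right d P (Ideal.pow_mem_of_mem P hx 6 (by norm_num)) :
    y ^ 6 * n ∈ P)).elim (fun h => hy (hP.mem_of_pow_mem 6 h)) hn

/-- The field `mid` of `UpperData`, from a function `u` with residues `(p^q, 0, 0)` and the
identity `(θh)^(6(q-1)) · d = n` with `n` a unit at `P`. -/
theorem mid_of_identity (h : model A N) (u : Local.modelAlg (q ^ 2 * N) A) (p : redBase A N)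
    (hu0 : rModel hA hq hqN 0 u = p ^ q) (hu1 : rModel hA hq hqN 1 u = 0)
    {P : Ideal (redBase A N)} (hP : P.IsPrime) (hp : p ∉ P)
    (hid : ∃ d n : redBase A N, n ∉ P ∧
      theta (redModel hA hq h : LaurentSeries (IsLocalRing.ResidueField A)) ^ (6 * (q - 1)) *
        (d : LaurentSeries (IsLocalRing.ResidueField A)) = n) :
    ∃ s b, rModel hA hq hqN 1 s ∉ P ∧ rModel hA hq hqN 1 b ∉ P ∧
      s * (eModel A q N 2 h - eModel A q N 0 h) ^ (q - 1) =
        (q : Local.modelAlg (q ^ 2 * N) A) * b := by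
  obtain ⟨s₀, hs0, hs1⟩ := exists_off_outer hu0 hu1 hP hp
  set e := toModel A (q ^ 2 * N) with he
  obtain ⟨S, hS⟩ : ∃ S : Local.modelAlg (q ^ 2 * N) A, S = s₀ * wModel hq hqN s₀ := ⟨_, rfl⟩
  have hwr : rModel hA hq hqN 1 (wModel hq hqN s₀) = rModel hA hq hqN 1 s₀ :=
    Subtype.ext (by rw [coe_rModel, coe_rModel, toModel_wModel, resHom_one_atkinModel])
  have hS1 : rModel hA hq hqN 1 S ∉ P := by
    rw [hS, map_mul, hwr]
    exact fun h' => (hP.mem_or_mem h').elim hs1 hs1
  obtain ⟨η, hη, hmid⟩ := exists_middle_diff hA hq hqN h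
  obtain ⟨δ, hδ, hπ⟩ := exists_zeta_pow_div (A := A) hA hq
  set Δ : model A (q ^ 2 * N) := raiseModel A q N 2 h - raiseModel A q N 0 h with hΔ
  have hint : ∀ (i : Fin 3) (z : model A (q ^ 2 * N)), compHom hq hqN i z ∈ (resData A).intSeries :=
    fun i z => compHom_mem_intSeries hA hq hqN i z.2
  have hz0 : resHom hA hq hqN 0 (e s₀) = 0 := (rModel_eq_zero_iff hA hq hqN 0 s₀).1 hs0
  have hpow : compHom hq hqN 1 (Δ ^ (q - 1) : model A (q ^ 2 * N)) =
      (q : LaurentSeries Qb) * (HahnSeries.C (δ : Qb) * (η : LaurentSeries Qb) ^ (q - 1)) := by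
    rw [SubmonoidClass.coe_pow, map_pow, hmid, mul_pow, ← map_pow, hπ, map_mul, map_natCast,
      mul_assoc]
  obtain ⟨b, hb⟩ := natCast_dvd_of_qDiv hA hq hqN (e S * Δ ^ (q - 1)) fun k => by
    rw [Subring.coe_mul, map_mul]
    by_cases hk1 : k = 1
    · subst hk1
      refine QDiv.mul_left (hint 1 _) ?_
      exact ⟨_, mul_mem ((resData A).C_mem_intSeries δ.2) (pow_mem η.2 _), by
        rw [hpow, ← map_natCast (HahnSeries.C : Qb →+* LaurentSeries Qb)]⟩
    refine QDiv.mul_right (hint k _) ?_
    rw [hS, map_mul, Subring.coe_mul, map_mul]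
    by_cases hk0 : k = 0
    · subst hk0
      exact (qDiv_of_resHom_eq_zero hA hq hqN hk1 hz0).mul_right (hint 0 _)
    · have hk2 : k = 2 := by omega
      subst hk2
      refine (qDiv_of_resHom_eq_zero hA hq hqN hk1 ?_).mul_left (hint 2 _)
      rw [he, toModel_wModel, resHom_two, atkinModel_atkinModel]
      exact hz0
  have hS0 : compHom hq hqN 1 b = compHom hq hqN 1 (e S) *
      (HahnSeries.C (δ : Qb) * (η : LaurentSeries Qb) ^ (q - 1)) := by
    have hq0 : (q : LaurentSeries Qb) ≠ 0 := by
      rw [← map_natCast (HahnSeries.C : Qb →+* LaurentSeries Qb)]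
      exact HahnSeries.C_ne_zero (Nat.cast_ne_zero.mpr hq.ne_zero)
    refine mul_left_cancel₀ hq0 ?_
    have h' := congrArg (fun z : model A (q ^ 2 * N) => compHom hq hqN 1 z) hb
    simp only [Subring.coe_mul, map_mul, Subring.coe_natCast, map_natCast, hpow] at h'
    rw [← h']
    ring
  have hres := resHom_one_eq_of_compHom (hA := hA) b (e S) δ hδ η hη hS0
  refine ⟨S, e.symm b, hS1, fun hbP => ?_, e.injective ?_⟩
  · obtain ⟨d, n, hn, hdn⟩ := hid
    refine not_mem_of_pow_identity (redBase A N).subtype Subtype.coe_injective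
      (m := q - 1) hP hS1 hn ?_ hdn hbP
    show (rModel hA hq hqN 1 (e.symm b)).1 = (rModel hA hq hqN 1 S).1 * _
    rw [coe_rModel, coe_rModel, ← he, AlgEquiv.apply_symm_apply, hres]
  · rw [map_mul, map_mul, map_natCast, map_pow, map_sub, toModel_eModel, toModel_eModel,
      AlgEquiv.apply_symm_apply]
    exact hb

end Fermat.Agent.Carayol

namespace Fermat.Agent.Carayol

open Fermat.Agent.Hauptmodul

local notation "Qb" => AlgebraicClosure ℚ

/-- `thetaNum` divides a power of `polyB`. -/
theorem thetaNum_dvd {R : Type*} [CommRing R] (r : ℕ) (x : R) : thetaNum r x ∣ polyB r x ^ 5 := by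
  unfold thetaNum polyB
  split_ifs
  · exact ⟨x ^ 18, by ring⟩
  · exact ⟨x ^ 45, by ring⟩

variable {A : ValuationSubring Qb} {q M N' : ℕ} [NeZero q] [NeZero M] [NeZero N']

omit [NeZero q] in
/-- The identity `(θh)^(6(q-1)) · d = n` for the Hauptmodul of level `M²`. -/
theorem theta_hElem_identity (H : BaseHyp q A M N') (P : Ideal (redBase A (M * N')))
    (hP : P.IsPrime) :
    ∃ d n : redBase A (M * N'), n ∉ P ∧
      theta (redModel H.liesOver H.prime (hElem H) :
          LaurentSeries (IsLocalRing.ResidueField A)) ^ (6 * (q - 1)) *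
        (d : LaurentSeries (IsLocalRing.ResidueField A)) = n := by
  have := charP_residue H.liesOver H.prime
  have := Fact.mk H.prime
  let _ : Algebra (ZMod q) (IsLocalRing.ResidueField A) := ZMod.algebra _ q
  set k := IsLocalRing.ResidueField A
  set hb := redModel H.liesOver H.prime (hElem H) with hhb
  have hu : (hb : LaurentSeries k) = uC k (M * M) := by
    rw [hhb, coe_redModel, ← coeffMap_uC (IsLocalRing.residue A) (M * M)]
    ext n
    rw [KummerReduction.ResidueData.redSeries_coeff, coeffMap_coeff]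
    show IsLocalRing.residue A _ = _
    refine congrArg _ (Subtype.ext ?_)
    show (uC Qb (M * M)).coeff n = _
    rw [← coeffMap_uC A.subtype (M * M), coeffMap_coeff]
    rfl
  have hS := aeval_jqModC_mem_redBase (N := M * N') H.liesOver H.prime
    ((ssPoly q).map (algebraMap (ZMod q) k))
  refine ⟨thetaDen (M * M) hb ^ (q - 1) * ⟨_, hS⟩, thetaNum (M * M) hb ^ (q - 1), fun h => ?_, ?_⟩
  · refine hP.ne_top (P.eq_top_of_isUnit_mem (hP.mem_of_pow_mem _ h) ?_)
    refine isUnit_of_dvd_unit (thetaNum_dvd (M * M) hb) (IsUnit.pow 5 ?_)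
    rw [hhb, ← polyB_map]
    exact (isUnit_polyB_hElem H).map _
  · have h6 := theta_uC_pow_six (R := k) H.level_sq
    have hP1 := aeval_ssPoly_mul q k
    rw [Subring.coe_mul, SubmonoidClass.coe_pow, SubmonoidClass.coe_pow,
      show ((thetaDen (M * M) hb : redBase A (M * N')) : LaurentSeries k) =
        thetaDen (M * M) (hb : LaurentSeries k) from thetaDen_map (redBase A _).subtype _ _,
      show ((thetaNum (M * M) hb : redBase A (M * N')) : LaurentSeries k) =
        thetaNum (M * M) (hb : LaurentSeries k) from thetaNum_map (redBase A _).subtype _ _, hu]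
    have haeval : Polynomial.aeval (jqModC k) ((ssPoly q).map (algebraMap (ZMod q) k)) =
        Polynomial.eval₂ ((HahnSeries.C).comp (algebraMap (ZMod q) k)) (jqModC k) (ssPoly q) := by
      rw [Polynomial.aeval_def, Polynomial.eval₂_map]
      congr 1
      exact RingHom.ext fun c => algebraMap_laurentSeries_eq_single k _
    show _ * (_ * Polynomial.aeval (jqModC k) _) = _
    rw [haeval, pow_mul]
    set S := Polynomial.eval₂ ((HahnSeries.C).comp (algebraMap (ZMod q) k)) (jqModC k) (ssPoly q)
    calc (theta (uC k (M * M)) ^ 6) ^ (q - 1) * (thetaDen (M * M) (uC k (M * M)) ^ (q - 1) * S)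
        = (theta (uC k (M * M)) ^ 6 * thetaDen (M * M) (uC k (M * M))) ^ (q - 1) * S := by ring
      _ = thetaNum (M * M) (uC k (M * M)) ^ (q - 1) * (S * ModularFunctionField.deltaC k ^ (q - 1)) := by
          rw [h6]; ring
      _ = _ := by rw [hP1, mul_one]

/-- The field `mid` for the Hauptmodul. -/
theorem mid_hElem (H : BaseHyp q A M N') [IsIntegrallyClosed (redBase A (M * N'))]
    (hqN : ¬ q ∣ M * N') (u : Local.modelAlg (q ^ 2 * (M * N')) A) (p : redBase A (M * N'))
    (hu0 : rModel H.liesOver H.prime hqN 0 u = p ^ q)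
    (hu1 : rModel H.liesOver H.prime hqN 1 u = 0)
    (P : Ideal (redBase A (M * N'))) (hP : P.IsMaximal) (hp : p ∉ P) :
    ∃ s b, rModel H.liesOver H.prime hqN 1 s ∉ P ∧ rModel H.liesOver H.prime hqN 1 b ∉ P ∧
      s * (eModel A q (M * N') 2 (hElem H) - eModel A q (M * N') 0 (hElem H)) ^ (q - 1) =
        (q : Local.modelAlg (q ^ 2 * (M * N')) A) * b :=
  mid_of_identity _ u p hu0 hu1 hP.isPrime hp (theta_hElem_identity H P hP.isPrime)

end Fermat.Agent.Carayol
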