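import Fermat.Agent.Carayol.Interface
import Fermat.Agent.KummerReduction.GaussSeries
import Mathlib.RingTheory.IntegralClosure.IsIntegralClosure.Basic

/-!
# The affine model and the embeddings into Laurent series

`model A M` is the normal affine model over `W = unramInt A`, inside the function field over `ℚ̄`;
`Emb M` is the type of the embeddings of that field into `ℚ̄((q^(1/M)))` over `j`.
-/

set_option autoImplicit false

noncomputable section

namespace Fermat.Agent.Carayol

open ModularCurve KummerReduction

local notation "Qb" => AlgebraicClosure ℚ

variable (A : ValuationSubring Qb) (M : ℕ) [NeZero M]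

/-- The residue map of `A`. -/
def resData : ResidueData Qb (IsLocalRing.ResidueField A) where
  A := A
  π := IsLocalRing.residue A
  π_surjective := IsLocalRing.residue_surjective
  π_eq_zero c := by rw [IsLocalRing.residue_eq_zero_iff, A.coe_mem_nonunits_iff]

omit [NeZero M] in
theorem jBar_mem : jBar ∈ modularFunctionFieldBar M :=
  coeffEmb_mem_laurentBaseChange _ (x := jq) (qExpand_one_apply jq ▸ jqd_mem_full M (one_dvd M))

/-- `j` as an element of the function field of level `M`. -/
def jElem : modularFunctionFieldBar M := ⟨jBar, jBar_mem M⟩

/-- The embeddings into Laurent series in `s = q^(1/M)` with `j(s^M)` as image of `j`. -/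
def Emb : Type :=
  {ι : modularFunctionFieldBar M →ₐ[Qb] LaurentSeries Qb // ι (jElem M) = qExpand Qb M jBar}

/-- The normal affine model of `Y₀(M)` over the ring of integers of the inertia field. -/
def model : Subring (modularFunctionFieldBar M) :=
  ((integralClosure (jPolyRing (unramInt A)) (LaurentSeries Qb)).toSubring ⊓
    (levelField (inertiaField A) M).toSubring).comap
      (modularFunctionFieldBar M).toSubalgebra.val.toRingHom

omit [NeZero M] in
/-- The model consists of the functions whose series lie in `modelRing`. -/
theorem mem_model_iff {x : modularFunctionFieldBar M} :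
    x ∈ model A M ↔ (x : LaurentSeries Qb) ∈ modelRing (unramInt A) (inertiaField A) M :=
  Iff.intro And.symm And.symm

end Fermat.Agent.Carayol
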