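import Fermat.Agent.Carayol.Instance
import Fermat.Agent.Carayol.SSPoint

/-!
# An ordinary point of the reduction of level `N`

The reduction is a finitely generated domain over an algebraically closed field, hence a Jacobson
ring, so `P₁₂(j) ≠ 0` avoids some maximal ideal.
-/

set_option autoImplicit false

noncomputable section

open Fermat.Agent.CarayolFF

namespace Fermat.Agent.Carayol

local notation "Qb" => AlgebraicClosure ℚ

variable {A : ValuationSubring Qb} {q N : ℕ} [NeZero q] [NeZero N]
  (hA : A.LiesOverPrime q) (hq : q.Prime)

omit [NeZero q] in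
/-- Some point of the reduction is ordinary. -/
theorem exists_isMaximal_p12Base_notMem :
    ∃ P : Ideal (redBase A N), P.IsMaximal ∧ p12Base hA hq ∉ P := by
  have := Local.isDiscreteValuationRing_unramInt hA hq
  have := finiteType_model (N := N) hA hq
  obtain ⟨_, _, _⟩ := BaseGeneric.exists_residueAlgebra (Local.maximalIdeal_unramInt hA hq)
    (natCast_eq_zero_redBase hA) (r0Model (N := N) hA hq) (redModel_surjective hA hq)
  have : IsJacobsonRing (redBase A N) :=
    isJacobsonRing_of_finiteType (A := IsLocalRing.ResidueField (unramInt A))
  by_contra! hall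
  refine p12Base_ne (N := N) hA hq ?_
  have hmem : p12Base hA hq ∈ (⊥ : Ideal (redBase A N)).jacobson :=
    Ideal.mem_sInf.mpr fun P hP => hall P hP.2
  rw [← Ideal.radical_eq_jacobson] at hmem
  exact eq_zero_of_pow_eq_zero (Ideal.mem_bot.mp hmem.choose_spec)

end Fermat.Agent.Carayol
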