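import Fermat.Agent.Carayol.Instance
import Fermat.Agent.Carayol.SSPoint
import Fermat.Agent.Hauptmodul.UnitFamily
import Fermat.Agent.CuspidalC.Unit
import Fermat.Agent.CarayolFF.EmbKernel
import Mathlib.Algebra.Algebra.ZMod

/-!
# The function `u` of the supersingular points

`V = q¹²Δ(qτ)/Δ(τ)` vanishes on `P20` and `P11`; a conjugate of it shows that it does not vanish
on `P02`, where its reduction is `P₁₂^q`.  The field `u` is its image under the involution.
-/

set_option autoImplicit false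

noncomputable section

open ModularCurve
open Fermat.Agent.CarayolFF Fermat.Agent.KummerReduction
open Fermat.Agent.ModularFunctionField (twist twist_coeff deltaC deltaInvC coeffMap_qExpand'
  coeffMap_deltaC coeffMap_deltaInvC jT evalJT coeffMap_C)

namespace Fermat.Agent.Carayol

local notation "Qb" => AlgebraicClosure ℚ

variable {A : ValuationSubring Qb} {q N : ℕ} [NeZero q] [NeZero N] [Fact q.Prime]

/-- A series with integer coefficients over a ring. -/
def intSer (R : Type*) [CommRing R] : LaurentSeries ℤ →+* LaurentSeries R :=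
  coeffMap (Int.castRingHom R)

theorem intSer_mem (s : LaurentSeries ℤ) : intSer Qb s ∈ (resData A).intSeries :=
  (resData A).mem_intSeries.mpr fun n => by
    rw [intSer, coeffMap_coeff]
    exact intCast_mem A _

theorem redSeries_intSer (s : LaurentSeries ℤ) :
    (resData A).redSeries ⟨intSer Qb s, intSer_mem s⟩ = intSer (IsLocalRing.ResidueField A) s := by
  ext n
  rw [ResidueData.redSeries_coeff]
  simp only [intSer, coeffMap_coeff]
  have h : (⟨(intSer Qb s).coeff n, (resData A).mem_intSeries.mp (intSer_mem s) n⟩ : A) =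
      ((s.coeff n : ℤ) : A) := Subtype.ext (by simp [intSer])
  show IsLocalRing.residue A _ = _
  exact (congrArg (IsLocalRing.residue A) h).trans (map_intCast _ _)

omit [NeZero q] in
theorem intSer_vInvC (R : Type*) [CommRing R] :
    intSer R (Hauptmodul.vInvC q ℤ) = Hauptmodul.vInvC q R := by
  simp [intSer, Hauptmodul.vInvC, coeffMap_qExpand']

/-- In characteristic `q` integral series satisfy `s(t^q) = s(t)^q`. -/
theorem qExpand_intSer {R : Type*} [CommRing R] [CharP R q] (s : LaurentSeries ℤ) :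
    qExpand R q (intSer R s) = intSer R s ^ q := by
  let : Algebra (ZMod q) R := ZMod.algebra R q
  have h := congrArg (coeffMap (algebraMap (ZMod q) R))
    (AtP.pow_eq_qExpand (coeffMap (Int.castRingHom (ZMod q)) s))
  rw [map_pow, coeffMap_qExpand', coeffMap_coeffMap,
    RingHom.ext_int ((algebraMap (ZMod q) R).comp (Int.castRingHom (ZMod q))) (Int.castRingHom R)]
    at h
  exact h.symm

variable (hA : A.LiesOverPrime q) (hq : q.Prime) (hqN : ¬ q ∣ N)

omit [NeZero q] in
theorem coe_p12Base :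
    (p12Base (N := N) hA hq : LaurentSeries (IsLocalRing.ResidueField A)) =
      Hauptmodul.vInvC q (IsLocalRing.ResidueField A) := by
  have := CarayolFF.charP_residue hA hq
  have h1 := coe_p12Base_mul (N := N) hA hq
  exact mul_right_cancel₀ (right_ne_zero_of_mul_eq_one h1)
    (h1.trans (Hauptmodul.vInvC_mul_deltaC_pow q).symm)

omit [NeZero N] [Fact (Nat.Prime q)] in
theorem bar_q_le : modularFunctionFieldBar q ≤ modularFunctionFieldBar (q * N) := by
  rw [ModCurveGenus.bar_eq_adjoin q, IntermediateField.adjoin_le_iff]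
  rintro _ ⟨d, rfl⟩
  rw [ModCurveGenus.genS]
  exact coeffEmb_mem_laurentBaseChange Qb
    (F₀ := modularFunctionFieldFull (q * N)) (x := qExpand ℚ d.1 jq)
    (jqd_mem_full (q * N) ((ModCurveGenus.Dvs.dvd d).trans (dvd_mul_right q N)))

omit [NeZero N] in
theorem unitSeries_mem : Hauptmodul.vInvC q Qb ∈ modularFunctionFieldBar (q * N) := by
  rw [Hauptmodul.vInvC, mul_comm (qExpand Qb q (deltaInvC Qb))]
  exact bar_q_le (q := q) (N := N) (CuspidalC.unitSer_mem q)

variable (q N) in
/-- `Δ(τ)/Δ(qτ)` at level `q²N`. -/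
def uBar : modularFunctionFieldBar (q ^ 2 * N) :=
  alphaIncl q N ⟨Hauptmodul.vInvC q Qb, unitSeries_mem⟩

variable (q N) in
/-- `q¹²Δ(qτ)/Δ(τ)` at level `q²N`. -/
def vBar : modularFunctionFieldBar (q ^ 2 * N) :=
  algebraMap Qb _ ((q : Qb) ^ 12) * (uBar q N)⁻¹

theorem coe_uBar : (uBar q N : LaurentSeries Qb) = Hauptmodul.vInvC q Qb := coe_alphaIncl q N _

theorem uBar_ne_zero : uBar q N ≠ 0 := fun h => by
  have h' := congrArg Subtype.val h
  rw [coe_uBar, Hauptmodul.vInvC, mul_comm] at h'
  exact CuspidalC.unitSer_ne_zero q h'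

theorem coe_vBar :
    (vBar q N : LaurentSeries Qb) = intSer Qb (Hauptmodul.vConjC q) := by
  have hu : Hauptmodul.vInvC q Qb ≠ 0 := fun h =>
    uBar_ne_zero (q := q) (N := N) (Subtype.ext (coe_uBar.trans h))
  have h := congrArg (intSer Qb) (Hauptmodul.vInvC_mul_vConjC q)
  rw [map_mul, intSer_vInvC] at h
  refine mul_left_cancel₀ hu ?_
  rw [h, vBar, MulMemClass.coe_mul, IntermediateField.coe_inv, coe_uBar,
    IntermediateField.coe_algebraMap_apply, mul_left_comm, mul_inv_cancel₀ hu, mul_one,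
    algebraMap_laurentSeries_eq_single, intSer, coeffMap_C]
  simp [HahnSeries.C_apply]

theorem isIntegral_of_atJ {P : Polynomial (Polynomial ℤ)} (hP : P.Monic) {z : LaurentSeries Qb}
    (h : P.eval₂ (Hauptmodul.atJ Qb) z = 0) : IsIntegral (jPolyRing (unramInt A)) z := by
  let ψ : Polynomial ℤ →+* jPolyRing (unramInt A) :=
    Polynomial.eval₂RingHom (Int.castRingHom _) ⟨jBar, Subring.subset_closure (Or.inr rfl)⟩
  refine ⟨P.map ψ, hP.map ψ, ?_⟩
  rw [Polynomial.eval₂_map,
    show (algebraMap (jPolyRing (unramInt A)) (LaurentSeries Qb)).comp ψ = Hauptmodul.atJ Qb from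
      Polynomial.ringHom_ext' (RingHom.ext_int _ _) (by
        rw [RingHom.comp_apply, Polynomial.coe_eval₂RingHom, Hauptmodul.atJ,
          Polynomial.coe_eval₂RingHom, Polynomial.eval₂_X, Polynomial.eval₂_X]
        exact jBar_eq)]
  exact h

omit [Fact (Nat.Prime q)] in
theorem levelField_of_intSer {z : modularFunctionFieldBar (q ^ 2 * N)} {s : LaurentSeries ℤ}
    (h : (z : LaurentSeries Qb) = intSer Qb s) :
    (z : LaurentSeries Qb) ∈ levelField (inertiaField A) (q ^ 2 * N) :=
  mem_levelField_of_coeff _ z.2 fun n => by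
    rw [h, intSer, coeffMap_coeff]
    exact intCast_mem _ _

theorem uBar_mem_model : uBar q N ∈ model A (q ^ 2 * N) :=
  mem_model_of_integral
    (levelField_of_intSer (s := Hauptmodul.vInvC q ℤ) (by rw [coe_uBar, intSer_vInvC]))
    (isIntegral_of_atJ (Hauptmodul.vPoly_monic q) (by rw [coe_uBar]; exact Hauptmodul.vPoly_root q Qb))

theorem vBar_mem_model : vBar q N ∈ model A (q ^ 2 * N) :=
  mem_model_of_integral (levelField_of_intSer coe_vBar)
    (isIntegral_of_atJ (Hauptmodul.wPoly_monic q)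
      (by rw [coe_vBar]; exact Hauptmodul.wPoly_root q Qb))

variable (A q N) in
/-- `Δ(τ)/Δ(qτ)` in the model. -/
def uUnit : model A (q ^ 2 * N) := ⟨uBar q N, uBar_mem_model⟩

variable (A q N) in
/-- `q¹²Δ(qτ)/Δ(τ)` in the model. -/
def vUnit : model A (q ^ 2 * N) := ⟨vBar q N, vBar_mem_model⟩

theorem uUnit_mul_vUnit :
    uUnit A q N * vUnit A q N = (q : model A (q ^ 2 * N)) ^ 12 := by
  refine Subtype.ext ?_
  show uBar q N * vBar q N = _
  rw [vBar, mul_left_comm, mul_inv_cancel₀ uBar_ne_zero, mul_one, map_pow, map_natCast]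
  push_cast
  rfl

theorem resHom_uUnit {i : Fin 3} (hi : i ≠ 2) :
    resHom hA hq hqN i (uUnit A q N) =
      (p12Base (N := N) hA hq : LaurentSeries (IsLocalRing.ResidueField A)) := by
  rw [coe_p12Base hA hq, ← intSer_vInvC, ← redSeries_intSer, resHom_apply]
  refine redSeries_congr ?_ _ _
  have h : intSer Qb (Hauptmodul.vInvC q ℤ) = Hauptmodul.vInvC q Qb := intSer_vInvC Qb
  rw [h]
  have h01 : ∀ i : Fin 3, i ≠ 2 → i = 0 ∨ i = 1 := by decide
  rcases h01 i hi with rfl | rfl
  · exact coe_uBar (q := q) (N := N)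
  · rw [compHom_one]
    exact middle_alphaIncl (N := N) hq hqN ⟨_, unitSeries_mem (q := q) (N := N)⟩

theorem resHom_vUnit {i : Fin 3} (hi : i ≠ 2) :
    resHom hA hq hqN i (vUnit A q N) = 0 := by
  have h := congrArg (resHom hA hq hqN i) (uUnit_mul_vUnit (A := A) (q := q) (N := N))
  rw [map_mul, map_pow, map_natCast, resHom_uUnit hA hq hqN hi,
    ← map_natCast (HahnSeries.C : IsLocalRing.ResidueField A →+* _), residue_natCast_self hA,
    map_zero, zero_pow (by norm_num), mul_eq_zero] at h
  exact h.resolve_left fun h0 => p12Base_ne hA hq (Subtype.ext h0)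

theorem qExpand_mem_baseField {M : ℕ} [NeZero M] {c : modularFunctionFieldBar M}
    (hc : c ∈ baseJ M) :
    qExpand Qb M (c : LaurentSeries Qb) ∈ ModularFunctionField.baseField Qb M := by
  have hmem : (idEmb M).1 c ∈ (baseJ M).map (idEmb M).1 :=
    ⟨c, hc, rfl⟩
  rw [baseJ, IntermediateField.adjoin_map, Set.image_singleton, (idEmb M).2] at hmem
  rwa [ModularFunctionField.baseField, jT, ← jBar_eq]

/-- Some embedding moves `V`. -/
theorem exists_emb_vBar_ne :
    ∃ ι : Emb (q ^ 2 * N), ι.1 (vBar q N) ≠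
      qExpand Qb (q ^ 2 * N) (vBar q N : LaurentSeries Qb) := by
  classical
  set M := q ^ 2 * N with hM
  by_contra hall
  push Not at hall
  set n := Fintype.card (Emb M)
  have hn : 0 < n := Fintype.card_pos_iff.mpr ⟨idEmb M⟩
  set x := qExpand Qb M (vBar q N : LaurentSeries Qb) with hx
  obtain ⟨c, hc⟩ := exists_coeff_prod_emb (vBar q N) (n - 1)
  rw [Finset.prod_congr rfl fun ι _ => by rw [hall ι], Finset.prod_const, Finset.card_univ,
    sub_eq_add_neg, ← map_neg, Polynomial.coeff_X_add_C_pow, Nat.sub_sub_self hn, pow_one,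
    Nat.choose_symm hn, Nat.choose_one_right] at hc
  have hxB : x ∈ ModularFunctionField.baseField Qb M := by
    have h := qExpand_mem_baseField c.2
    rw [← hc] at h
    have hn0 : (n : LaurentSeries Qb) ≠ 0 := by
      rw [← map_natCast (HahnSeries.C : Qb →+* LaurentSeries Qb)]
      exact HahnSeries.C_ne_zero (Nat.cast_ne_zero.mpr hn.ne')
    have h' := mul_mem (neg_mem h) (inv_mem (natCast_mem (ModularFunctionField.baseField Qb M) n))
    rwa [neg_mul, mul_inv_cancel_right₀ hn0, neg_neg] at h'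
  set y := qExpand Qb M (uBar q N : LaurentSeries Qb) with hy
  have hxy : x * y = HahnSeries.C ((q : Qb) ^ 12) := by
    rw [hx, hy, ← map_mul, coe_vBar, coe_uBar, ← intSer_vInvC, ← map_mul, mul_comm,
      Hauptmodul.vInvC_mul_vConjC, intSer, coeffMap_C, qExpand_C]
    simp
  have hq0 : (q : Qb) ^ 12 ≠ 0 := pow_ne_zero _ (Nat.cast_ne_zero.mpr (NeZero.ne q))
  have hC : HahnSeries.C ((q : Qb) ^ 12) ≠ (0 : LaurentSeries Qb) := HahnSeries.C_ne_zero hq0
  have hx0 : x ≠ 0 := left_ne_zero_of_mul (hxy ▸ hC)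
  have hyB : y ∈ ModularFunctionField.baseField Qb M := by
    rw [show y = HahnSeries.C ((q : Qb) ^ 12) * x⁻¹ by
      rw [← hxy, mul_comm x, mul_inv_cancel_right₀ hx0]]
    exact mul_mem (ModularFunctionField.C_mem_baseField Qb M _) (inv_mem hxB)
  have hint : ∀ (P : Polynomial (Polynomial ℤ)), P.Monic → ∀ z : LaurentSeries Qb,
      P.eval₂ (Hauptmodul.atJ Qb) z = 0 → (evalJT Qb M).IsIntegralElem (qExpand Qb M z) := by
    intro P hP z h
    refine ⟨P.map (Polynomial.mapRingHom (Int.castRingHom Qb)), hP.map _, ?_⟩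
    rw [Polynomial.eval₂_map,
      show (evalJT Qb M).comp (Polynomial.mapRingHom (Int.castRingHom Qb)) =
        (qExpand Qb M).comp (Hauptmodul.atJ Qb) from
        Polynomial.ringHom_ext' (RingHom.ext_int _ _) (by simp [Hauptmodul.atJ, evalJT, jT]),
      ← Polynomial.hom_eval₂, h, map_zero]
  obtain ⟨p, hp⟩ := ModularFunctionField.mem_range_of_isIntegralElem hxB
    (hint _ (Hauptmodul.wPoly_monic q) _ (by rw [coe_vBar]; exact Hauptmodul.wPoly_root q Qb))
  obtain ⟨p', hp'⟩ := ModularFunctionField.mem_range_of_isIntegralElem hyB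
    (hint _ (Hauptmodul.vPoly_monic q) _ (by rw [coe_uBar]; exact Hauptmodul.vPoly_root q Qb))
  obtain ⟨c', -, hc'⟩ := ModularFunctionField.eq_C_of_mul_eq_C (p := p') (p' := p) hq0
    (by rw [hp, hp', mul_comm, hxy])
  rw [hp', hy, ← qExpand_C (R := Qb) M c', coe_uBar] at hc'
  have h1 := qExpand_injective M hc'
  rw [Hauptmodul.vInvC, mul_comm] at h1
  have h2 := CuspidalC.unitSer_coeff_self q
  rw [CuspidalC.unitSer, h1, HahnSeries.C_apply, HahnSeries.coeff_single_of_ne] at h2
  · exact zero_ne_one h2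
  · have := (Fact.out : q.Prime).two_le
    omega

/-- The reduction of `V` on `P02`. -/
theorem resHom_two_vUnit :
    resHom hA hq hqN 2 (vUnit A q N) =
      (p12Base (N := N) hA hq : LaurentSeries (IsLocalRing.ResidueField A)) ^ q := by
  set k := IsLocalRing.ResidueField A
  have := CarayolFF.charP_residue hA hq
  have : CharP (LaurentSeries k) q :=
    charP_of_injective_ringHom (HahnSeries.C_injective (Γ := ℤ) (R := k)) q
  set M := q ^ 2 * N
  obtain ⟨ι, hι⟩ := exists_emb_vBar_ne (q := q) (N := N)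
  have hζ : IsPrimitiveRoot ((zetaUnit q : Qbˣ) : Qb) q :=
    IsPrimitiveRoot.coe_units_iff.mpr (zetaUnit_primitive q)
  have hMq : q * N * q = M := by ring
  let ψ : Polynomial ℤ →+* modularFunctionFieldBar M :=
    Polynomial.eval₂RingHom (Int.castRingHom _) (jElem M)
  have hψι : ι.1.toRingHom.comp ψ = (qExpand Qb M).comp (Hauptmodul.atJ Qb) :=
    Polynomial.ringHom_ext' (RingHom.ext_int _ _) (by
      simpa [ψ, Hauptmodul.atJ, jBar_eq] using ι.2)
  have hψ : (modularFunctionFieldBar M).val.toRingHom.comp ψ = Hauptmodul.atJ Qb :=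
    Polynomial.ringHom_ext' (RingHom.ext_int _ _) (by
      simp [ψ, Hauptmodul.atJ, ← jBar_eq]; rfl)
  have hroot : (Hauptmodul.wPoly q).eval₂ ψ (vBar q N) = 0 := by
    refine (modularFunctionFieldBar M).val.toRingHom.injective ?_
    rw [Polynomial.hom_eval₂, hψ, map_zero]
    exact (congrArg (fun z => (Hauptmodul.wPoly q).eval₂ (Hauptmodul.atJ Qb) z)
      (coe_vBar (q := q) (N := N))).trans (Hauptmodul.wPoly_root q Qb)
  have hz := congrArg ι.1.toRingHom hroot
  have hexp : qExpand Qb M = qExpand Qb (q * N * q) :=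
    RingHom.ext fun x => qExpand_congr hMq.symm x
  rw [Polynomial.hom_eval₂, hψι, map_zero] at hz
  have hz' : (Hauptmodul.wPoly q).eval₂ ((qExpand Qb (q * N * q)).comp (Hauptmodul.atJ Qb))
      (ι.1.toRingHom (vBar q N)) = 0 := hexp ▸ hz
  rcases Hauptmodul.roots_wPoly q hζ (q * N) hz' with h | ⟨b, hb⟩
  · refine absurd (h.trans ?_) hι
    rw [coe_vBar]
    exact qExpand_congr hMq _
  have hu1 : ∀ n : ℤ, (((zetaUnit q ^ b.val) ^ n : Qbˣ) : Qb) - 1 ∈ A.nonunits := fun n => by
    rw [← zpow_natCast (zetaUnit q), ← zpow_mul]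
    exact zetaUnit_zpow_sub_one hA hq _
  have hrho : AtP.rootUnit hζ b = zetaUnit q ^ b.val := Units.ext (by simp [AtP.rootUnit])
  have htw : AtP.twistU (AtP.rootUnit hζ b) (intSer Qb (Hauptmodul.vInvC q ℤ)) =
      twist (zetaUnit q ^ b.val) (intSer Qb (Hauptmodul.vInvC q ℤ)) := by
    ext n
    rw [AtP.twistU_coeff, twist_coeff, hrho]
  have hzv : ι.1 (vBar q N) =
      qExpand Qb (q * N) (twist (zetaUnit q ^ b.val) (intSer Qb (Hauptmodul.vInvC q ℤ))) :=
    hb.trans (congrArg _ htw)
  obtain ⟨htwm, htwr⟩ := redSeries_twist hu1 (intSer_mem (A := A) (Hauptmodul.vInvC q ℤ))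
  have hres : embRes hA hq ι (vUnit A q N) =
      qExpand k (q * N) (p12Base (N := N) hA hq : LaurentSeries k) := by
    rw [coe_p12Base hA hq, ← intSer_vInvC, ← redSeries_intSer, ← htwr]
    exact (redSeries_congr hzv _
      ((qExpand_mem_intSeries_iff (resData A) (q * N)).mpr htwm)).trans
      (redSeries_qExpand (resData A) (q * N) htwm)
  obtain ⟨j, hj⟩ := exists_ker_embRes hA hq hqN ι
  have hj2 : j = 2 := by
    by_contra hne
    have h0 : vUnit A q N ∈ RingHom.ker (embRes hA hq ι) := by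
      rw [hj, RingHom.mem_ker]; exact resHom_vUnit hA hq hqN hne
    rw [RingHom.mem_ker, hres, ← map_zero (qExpand k (q * N))] at h0
    exact p12Base_ne hA hq (Subtype.ext (qExpand_injective _ h0))
  subst hj2
  -- `P₁₂(j)` as an element of the model
  set X₀ : model A M :=
    (-(Hauptmodul.vPoly q).coeff q).eval₂ (Int.castRingHom _) (jAt A q N 0) with hX₀
  have hP : ∀ φ : LaurentSeries k →+* LaurentSeries k,
      (-(Hauptmodul.vPoly q).coeff q).eval₂ (Int.castRingHom _) (φ (jqModC k)) =
        φ (p12Base (N := N) hA hq : LaurentSeries k) := fun φ => by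
    rw [← coe_jRed (N := N) hA hq]
    show _ = φ ((redBase A N).subtype (p12Base hA hq))
    rw [p12Base, Polynomial.hom_eval₂, Polynomial.hom_eval₂]
    exact congrArg (fun ψ => Polynomial.eval₂ ψ _ _) (RingHom.ext_int _ _)
  have hr2 : resHom hA hq hqN 2 X₀ =
      ((p12Base (N := N) hA hq : LaurentSeries k) ^ q) ^ q := by
    rw [hX₀, Polynomial.hom_eval₂, (resHom_jAt (N := N) hA hq hqN).2.2.1,
      RingHom.ext_int ((resHom hA hq hqN 2).comp (Int.castRingHom _)) (Int.castRingHom _),
      ← pow_mul, ← sq]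
    exact hP (iterateFrobenius (LaurentSeries k) q 2)
  have hre : embRes hA hq ι X₀ = qExpand k M (p12Base (N := N) hA hq : LaurentSeries k) := by
    have hjA : (jAt A q N 0 : modularFunctionFieldBar M) = jElem M := by
      refine Subtype.ext ?_
      show (raiseHom q N 0 (jElem N) : LaurentSeries Qb) = jBar
      rw [coe_raiseHom, qExpand_congr (M := q ^ ((0 : Fin 3) : ℕ)) (K := 1) (pow_zero q),
        qExpand_one_apply]
      rfl
    have hJ : embRes hA hq ι (jAt A q N 0) = qExpand k M (jqModC k) := by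
      have hm : jqModC Qb ∈ (resData A).intSeries :=
        jBar_eq ▸ coe_mem_intSeries_of_model (N := N) hA hq (jElem_mem_model A N)
      rw [← redSeries_jqModC hm, ← redSeries_qExpand (resData A) M hm]
      refine redSeries_congr ?_ _ _
      show ι.1 (jAt A q N 0 : modularFunctionFieldBar M) = qExpand Qb M (jqModC Qb)
      rw [hjA, ι.2, jBar_eq]
    rw [hX₀, Polynomial.hom_eval₂, hJ,
      RingHom.ext_int ((embRes hA hq ι).comp (Int.castRingHom _)) (Int.castRingHom _)]
    exact hP (qExpand k M)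
  have hker : vUnit A q N ^ q - X₀ ∈ RingHom.ker (embRes hA hq ι) := by
    have hp : qExpand k q (p12Base (N := N) hA hq : LaurentSeries k) =
        (p12Base (N := N) hA hq : LaurentSeries k) ^ q := by
      rw [coe_p12Base hA hq, ← intSer_vInvC]
      exact qExpand_intSer (q := q) _
    rw [RingHom.mem_ker, map_sub, map_pow, hres, hre, sub_eq_zero, ← map_pow, ← hp]
    exact (qExpand_qExpand _ _ _).trans (qExpand_congr (by ring) _)
  rw [hj, RingHom.mem_ker, map_sub, map_pow, hr2, sub_eq_zero] at hker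
  exact frobenius_inj (LaurentSeries k) q hker

variable (A) in
/-- The function `u`. -/
def uSS : Local.modelAlg (q ^ 2 * N) A :=
  (toModel A (q ^ 2 * N)).symm (atkinModel A hq hqN (vUnit A q N))

theorem toModel_uSS :
    toModel A (q ^ 2 * N) (uSS A hq hqN) = atkinModel A hq hqN (vUnit A q N) :=
  (toModel A (q ^ 2 * N)).apply_symm_apply _

/-- `uSS` divides a power of `q`. -/
theorem uSS_unit : ∃ (v : Local.modelAlg (q ^ 2 * N) A) (k : ℕ),
    uSS A hq hqN * v = (q : Local.modelAlg (q ^ 2 * N) A) ^ k := by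
  refine ⟨(toModel A (q ^ 2 * N)).symm (atkinModel A hq hqN (uUnit A q N)), 12, ?_⟩
  rw [uSS, ← map_mul, ← map_mul, mul_comm (vUnit A q N), uUnit_mul_vUnit, map_pow, map_natCast, map_pow,
    map_natCast]

variable [IsIntegrallyClosed (redBase A N)]

/-- `uSS` reduces to `P₁₂^q` on the first component. -/
theorem r20_uSS :
    rModel hA hq hqN 0 (uSS A hq hqN) = p12Base hA hq ^ q := by
  refine Subtype.ext ?_
  rw [coe_rModel, toModel_uSS, ← resHom_two, resHom_two_vUnit, SubmonoidClass.coe_pow]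

/-- `uSS` vanishes on the middle component. -/
theorem r11_uSS : rModel hA hq hqN 1 (uSS A hq hqN) = 0 := by
  refine Subtype.ext ?_
  rw [coe_rModel, toModel_uSS, resHom_one_atkinModel, resHom_vUnit hA hq hqN (by decide)]
  rfl

/-- `uSS` vanishes on the last component. -/
theorem r02_uSS : rModel hA hq hqN 2 (uSS A hq hqN) = 0 := by
  refine Subtype.ext ?_
  rw [coe_rModel, toModel_uSS, resHom_two, atkinModel_atkinModel,
    resHom_vUnit hA hq hqN (by decide)]
  rfl

end Fermat.Agent.Carayol
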