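import Fermat.Agent.Carayol.BaseDataH
import Fermat.Agent.Carayol.Kronecker
import Fermat.Agent.Carayol.MidField
import Fermat.Agent.Carayol.Ordinary
import Fermat.Agent.Carayol.UpperSS

/-!
# The supersingular data of the Hauptmodul and the finite level theorem

`finiteLevel_rigid`: at a level `N` divisible by 4 (by 9 if `q = 2`) the finite level theorem holds
for the functions of level `q²N`.
-/

set_option autoImplicit false

noncomputable section

open ModularCurve
open Fermat.Agent.CarayolFF

namespace Fermat.Agent.Carayol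

local notation "Qb" => AlgebraicClosure ℚ

variable {A : ValuationSubring Qb} {q M N' : ℕ} [NeZero q] [NeZero M] [NeZero N'] [Fact q.Prime]

/-- The supersingular data for the coordinate `h`. -/
def upperDataH (H : Hauptmodul.BaseHyp q A M N') [IsIntegrallyClosed (redBase A (M * N'))] :
    UpperData H.coprime (baseDataH H) where
  u := uSS A H.prime H.coprime
  u_unit := uSS_unit H.prime H.coprime
  p12 := p12Base H.liesOver H.prime
  p12_ne := p12Base_ne H.liesOver H.prime
  r20_u := r20_uSS H.liesOver H.prime H.coprime
  r11_u := r11_uSS H.liesOver H.prime H.coprime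
  r02_u := r02_uSS H.liesOver H.prime H.coprime
  e0h_ne := eModel_hElem_ne H
  ρ := kronTail H
  kronecker := kronecker_hElem H
  kronecker' := kronecker_hElem' H
  ρ_ne := kronTail_ne H
  ordinary := exists_isMaximal_p12Base_notMem H.liesOver H.prime
  mid := mid_hElem H H.coprime _ _ (r20_uSS H.liesOver H.prime H.coprime)
    (r11_uSS H.liesOver H.prime H.coprime)

omit [Fact q.Prime] [NeZero M] [NeZero N'] in
/-- The finite level theorem at the rigidified levels. -/
theorem finiteLevel_rigid {N : ℕ} [NeZero N] (hq : q.Prime) {lam : ℕ} (hlam : lam.Prime)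
    (hql : q ≠ lam) (hqN : ¬ q ∣ N) (h4 : q = 2 ∧ 9 ∣ N ∨ q ≠ 2 ∧ 4 ∣ N) :
    CarayolReduction.FiniteLevel q N lam := by
  refine finiteLevel_of_data hq hqN hlam hql fun A hA => ?_
  obtain ⟨M, N', _, _, rfl, H⟩ := exists_baseHyp hA hq hqN h4
  have := Fact.mk hq
  have := (baseDataH H).isIntegrallyClosed
  exact ⟨baseDataH H, ⟨upperDataH H⟩⟩

end Fermat.Agent.Carayol
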